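import Fermat.Agent.Cheb.Defs

/-!
# Cheb/CMP : the Weierstrass M-test for the translation comparison (~200 lines)

`continuousOn_tsum_sub`: `continuousOn_tsum` with the majorant `u a = C ‖e a‖ ^ d` if `R ≤ ‖e a‖`, and
`u a = sup_{s ∈ [1,2]} ‖G s (e a + r) - G s (e a)‖` (compactness) for the finitely many other `a`.
`summable_norm_integers`: `ZLattice.summable_norm_rpow` for `mixedEmbedding.integerLattice K`
(rank `= finrank ℚ K`: `ZLattice.rank`, `mixedEmbedding.finrank`), transported along `𝓞 K ≃ integerLattice`.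
`finite_norm_lt`: discreteness of the lattice (`Metric.finite_isBounded_inter_isClosed` or
`Embeddings.finite_of_norm_le`).
-/

set_option autoImplicit false

open IsDedekindDomain NumberField Filter Topology
open NumberField.mixedEmbedding NumberField.Units NumberField.Units.dirichletUnitTheorem
open NumberField.InfinitePlace
open Fermat.Agent.S14 Fermat.Agent.S14.Dens Fermat.Agent.ES
open scoped Classical

noncomputable section

namespace Fermat.Agent.Cheb

theorem continuousOn_tsum_sub {A E : Type*} [NormedAddCommGroup E] (e : A → E) (d : ℝ)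
    (hsum : Summable fun a ↦ ‖e a‖ ^ d) (hfin : ∀ R : ℝ, {a | ‖e a‖ < R}.Finite)
    (G : ℝ → E → ℂ) (c : A → ℂ) (hc : ∀ a, ‖c a‖ ≤ 1) (r : E)
    (hcont : ∀ x, Continuous fun s ↦ G s x) (C R : ℝ)
    (hb : ∀ s ∈ Set.Icc (1 : ℝ) 2, ∀ x, R ≤ ‖x‖ → ‖G s (x + r) - G s x‖ ≤ C * ‖x‖ ^ d) :
    (∀ s ∈ Set.Icc (1 : ℝ) 2, Summable fun a ↦ c a * (G s (e a + r) - G s (e a))) ∧
      ContinuousOn (fun s ↦ ∑' a, c a * (G s (e a + r) - G s (e a))) (Set.Icc 1 2) := by
  have hg : ∀ a, Continuous fun s ↦ c a * (G s (e a + r) - G s (e a)) := fun a =>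
    continuous_const.mul ((hcont _).sub (hcont _))
  have hM : ∀ a, ∃ M : ℝ, ∀ s ∈ Set.Icc (1 : ℝ) 2, ‖c a * (G s (e a + r) - G s (e a))‖ ≤ M :=
    fun a => isCompact_Icc.exists_bound_of_continuousOn (hg a).continuousOn
  choose M hM using hM
  set u : A → ℝ := fun a => if R ≤ ‖e a‖ then C * ‖e a‖ ^ d else M a with hu
  have hus : Summable u := by
    refine (hsum.mul_left C).congr_cofinite ?_
    have : {a | ‖e a‖ < R}ᶜ ∈ (cofinite : Filter A) := (hfin R).compl_mem_cofinite
    filter_upwards [this] with a ha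
    have : R ≤ ‖e a‖ := not_lt.mp ha
    simp [hu, this]
  have hbd : ∀ a, ∀ s ∈ Set.Icc (1 : ℝ) 2, ‖c a * (G s (e a + r) - G s (e a))‖ ≤ u a := by
    intro a s hs
    by_cases h : R ≤ ‖e a‖
    · simp only [hu, h, if_true]
      rw [norm_mul]
      calc ‖c a‖ * ‖G s (e a + r) - G s (e a)‖ ≤ 1 * ‖G s (e a + r) - G s (e a)‖ :=
            mul_le_mul_of_nonneg_right (hc a) (norm_nonneg _)
        _ = ‖G s (e a + r) - G s (e a)‖ := one_mul _
        _ ≤ _ := hb s hs _ h
    · simp only [hu, h, if_false]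
      exact hM a s hs
  refine ⟨fun s hs => Summable.of_norm_bounded hus (fun a => hbd a s hs), ?_⟩
  exact continuousOn_tsum (fun a => (hg a).continuousOn) hus (fun a s hs => hbd a s hs)

variable (K : Type*) [Field K] [NumberField K]

/-- the bijection `𝓞 K ≃ integerLattice` -/
theorem cmp_exists_equiv : ∃ f : 𝓞 K ≃ mixedEmbedding.integerLattice K,
    ∀ a, ((f a : mixedEmbedding.integerLattice K) : mixedSpace K) = mixedEmbedding K (a : K) := by
  have hinj : Function.Injective
      (fun a : 𝓞 K => (⟨mixedEmbedding K (a : K), ⟨a, rfl⟩⟩ : mixedEmbedding.integerLattice K)) := by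
    intro a b hab
    have h1 : mixedEmbedding K (a : K) = mixedEmbedding K (b : K) := congrArg Subtype.val hab
    exact RingOfIntegers.ext ((mixedEmbedding_injective K) h1)
  have hsurj : Function.Surjective
      (fun a : 𝓞 K => (⟨mixedEmbedding K (a : K), ⟨a, rfl⟩⟩ : mixedEmbedding.integerLattice K)) := by
    rintro ⟨x, a, rfl⟩
    exact ⟨a, rfl⟩
  exact ⟨Equiv.ofBijective _ ⟨hinj, hsurj⟩, fun a => rfl⟩

theorem summable_norm_integers :
    Summable fun a : 𝓞 K ↦ ‖mixedEmbedding K (a : K)‖ ^ (-(Module.finrank ℚ K : ℝ) - 1) := by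
  obtain ⟨f, hf⟩ := cmp_exists_equiv K
  have hrank : Module.finrank ℤ (mixedEmbedding.integerLattice K) = Module.finrank ℚ K := by
    rw [ZLattice.rank ℝ, mixedEmbedding.finrank]
  have h := ZLattice.summable_norm_rpow (mixedEmbedding.integerLattice K)
    (-(Module.finrank ℚ K : ℝ) - 1) (by rw [hrank]; linarith)
  have h2 := (f.summable_iff).mpr h
  refine h2.congr fun a => ?_
  simp only [Function.comp_apply]
  rw [← hf a]
  rfl

theorem finite_norm_lt (R : ℝ) : {a : 𝓞 K | ‖mixedEmbedding K (a : K)‖ < R}.Finite := by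
  obtain ⟨f, hf⟩ := cmp_exists_equiv K
  have H : IsClosed (X := mixedSpace K) (mixedEmbedding.integerLattice K) :=
    @AddSubgroup.isClosed_of_discrete _ _ _ _ _
      (mixedEmbedding.integerLattice K).toAddSubgroup
      (inferInstanceAs (DiscreteTopology (mixedEmbedding.integerLattice K)))
  have hd : DiscreteTopology (mixedEmbedding.integerLattice K) := inferInstance
  have h1 : (Metric.closedBall (0 : mixedSpace K) R ∩
      (mixedEmbedding.integerLattice K : Set (mixedSpace K))).Finite :=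
    Metric.finite_isBounded_inter_isClosed DiscreteTopology.isDiscrete Metric.isBounded_closedBall H
  refine Set.Finite.of_finite_image (f := fun a : 𝓞 K => mixedEmbedding K (a : K)) (h1.subset ?_) ?_
  · rintro _ ⟨a, ha, rfl⟩
    refine ⟨?_, ⟨a, rfl⟩⟩
    rw [Metric.mem_closedBall, dist_zero_right]
    exact le_of_lt ha
  · intro a _ b _ hab
    exact RingOfIntegers.ext ((mixedEmbedding_injective K) hab)

end Fermat.Agent.Cheb
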