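import Fermat.Agent.Cheb.Cross

/-!
# Cheb/CNT : counting (~500 lines, two independent halves)

* [CNT-a] `card_good_ge` (finite groups only; abstractly: `Γ` finite, `r : Γ →* G` surjective, `c : Γ →* H`, `(r, c)` injective):
  the fibre of `r` over `σ ∈ C` has `|Γ|/|G|` elements, `c` is injective on it, so at most `bad` of its elements have
  `¬ N₀ ∣ orderOf (c g)`.
* [CNT-b] `exists_modulus` (Mathlib only): `m = ℓ₁ ⋯ ℓ_k`, distinct primes `ℓ_i ≡ 1 mod N₀` (`Nat.exists_prime_gt_modEq_one`).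
  Induction on `k`: `(ZMod (m ℓ))ˣ ≃* (ZMod m)ˣ × (ZMod ℓ)ˣ` (`ZMod.chineseRemainder`, `Units.mapEquiv`, `MulEquiv.prodUnits`),
  `orderOf (a, b) = lcm`, so `bad (m ℓ) ⊆ bad m × bad ℓ`; `(ZMod ℓ)ˣ` is cyclic of order `ℓ - 1 = N₀ t`; a generator `γ`:
  `γ^i` has order divisible by `N₀` if `i` is prime to `N₀`...; simplest: `#{x : x^(t * (N₀/p)) = 1 for some prime p ∣ N₀}`; or just
  `#bad ℓ ≤ (ℓ - 1) - 1` is NOT enough: one needs `#bad ℓ ≤ (1 - 1/N₀)(ℓ - 1)`: the `φ(ℓ-1)`... use: the `t` elements `γ^(1 + N₀ j)`,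
  `0 ≤ j < t`, have order divisible by `N₀` (if `(γ^i)^e = 1` then `N₀ t ∣ i e`, and `gcd(i, N₀) = 1` gives `N₀ ∣ e`).
  So `#bad m ≤ (1 - 1/N₀)^k φ(m)`, and `(1 - 1/N₀)^k → 0`.
-/

set_option autoImplicit false

open IsDedekindDomain NumberField Filter Topology
open NumberField.mixedEmbedding NumberField.Units NumberField.Units.dirichletUnitTheorem
open NumberField.InfinitePlace
open Fermat.Agent.S14 Fermat.Agent.S14.Dens Fermat.Agent.ES
open scoped Classical nonZeroDivisors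

noncomputable section

namespace Fermat.Agent.Cheb

variable (m : ℕ) [NeZero m] (L : Type*) [Field L] [NumberField L] [IsGalois ℚ L]

/-- the number of `τ ∈ (ℤ/m)ˣ` whose order is not divisible by `N₀` -/
def bad (m N₀ : ℕ) : ℕ := Nat.card {τ : (ZMod m)ˣ // ¬ N₀ ∣ orderOf τ}

omit [NeZero m] [IsGalois ℚ L] [NumberField L] [Field L] in
/-- fibres of a surjective homomorphism -/
theorem card_preimage_of_surjective {G H : Type*} [Group G] [Group H] (f : G →* H)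
    (hf : Function.Surjective f) (B : Set H) :
    Nat.card (f ⁻¹' B) = Nat.card B * Nat.card f.ker := by
  rw [← Nat.card_prod]
  refine Nat.card_congr ?_
  refine
    { toFun := fun x => (⟨f x.1, x.2⟩, ⟨(Function.surjInv hf (f x.1))⁻¹ * x.1, ?_⟩)
      invFun := fun y => ⟨Function.surjInv hf y.1.1 * y.2.1, ?_⟩
      left_inv := ?_
      right_inv := ?_ }
  · rw [MonoidHom.mem_ker, map_mul, map_inv, Function.surjInv_eq hf, inv_mul_cancel]
  · rw [Set.mem_preimage, map_mul, Function.surjInv_eq hf, MonoidHom.mem_ker.1 y.2.2, mul_one]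
    exact y.1.2
  · intro x
    apply Subtype.ext
    simp
  · rintro ⟨⟨b, hb⟩, ⟨k, hk⟩⟩
    have h1 : f (Function.surjInv hf b * k) = b := by
      rw [map_mul, Function.surjInv_eq hf, MonoidHom.mem_ker.1 hk, mul_one]
    apply Prod.ext
    · exact Subtype.ext h1
    · apply Subtype.ext
      simp only [h1]
      group

omit [NeZero m] [IsGalois ℚ L] [NumberField L] [Field L] in
theorem card_good_ge_aux {Γ G H : Type*} [Group Γ] [Group G] [Group H] [Fintype Γ] [Finite G]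
    [Finite H] (r : Γ →* G) (hr : Function.Surjective r) (c : Γ →* H)
    (hinj : Function.Injective fun g => (r g, c g)) (C : Finset G) (N₀ : ℕ) :
    (C.card : ℝ) * Nat.card Γ / Nat.card G - C.card * Nat.card {τ : H // ¬ N₀ ∣ orderOf τ} ≤
      ((Finset.univ.filter fun g : Γ ↦ r g ∈ C ∧ N₀ ∣ orderOf (c g)).card : ℝ) := by
  set S : Finset Γ := Finset.univ.filter fun g => r g ∈ C with hS
  have hScard : S.card = C.card * Nat.card r.ker := by
    have h1 := card_preimage_of_surjective r hr (C : Set G)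
    have h2 : Nat.card (r ⁻¹' (C : Set G)) = S.card := by
      rw [hS, Nat.card_eq_fintype_card, Fintype.card_subtype]
      congr 1
      ext g
      simp
    rw [← h2, h1, Nat.card_coe_set_eq, Set.ncard_coe_finset]
  have hΓ : Nat.card Γ = Nat.card G * Nat.card r.ker := by
    have h1 := card_preimage_of_surjective r hr Set.univ
    rwa [Set.preimage_univ, Nat.card_univ, Nat.card_univ] at h1
  have hG0 : (Nat.card G : ℝ) ≠ 0 := by
    have : 0 < Nat.card G := Nat.card_pos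
    positivity
  have h1 : (C.card : ℝ) * Nat.card Γ / Nat.card G = S.card := by
    rw [hScard, hΓ]
    push_cast
    field_simp
  have h2 := Finset.card_filter_add_card_filter_not (s := S) (fun g => N₀ ∣ orderOf (c g))
  have h3 : S.filter (fun g => N₀ ∣ orderOf (c g))
      = Finset.univ.filter fun g : Γ ↦ r g ∈ C ∧ N₀ ∣ orderOf (c g) := by
    rw [hS, Finset.filter_filter]
  have h4 : (S.filter (fun g => ¬ N₀ ∣ orderOf (c g))).card
      ≤ C.card * Nat.card {τ : H // ¬ N₀ ∣ orderOf τ} := by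
    have : Fintype H := Fintype.ofFinite H
    rw [Nat.card_eq_fintype_card, Fintype.card_subtype, ← Finset.card_product]
    refine Finset.card_le_card_of_injOn (fun g => (r g, c g)) ?_ (hinj.injOn)
    intro g hg
    have hg' := Finset.mem_filter.1 (Finset.mem_coe.1 hg)
    have hg'' := Finset.mem_filter.1 hg'.1
    simp only [Finset.coe_product, Set.mem_prod, Finset.mem_coe, Finset.mem_filter,
      Finset.mem_univ, true_and]
    exact ⟨hg''.2, hg'.2⟩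
  rw [h1, ← h3]
  have h5 : (S.card : ℝ) = ((S.filter (fun g => N₀ ∣ orderOf (c g))).card : ℝ)
      + ((S.filter (fun g => ¬ N₀ ∣ orderOf (c g))).card : ℝ) := by exact_mod_cast h2.symm
  have h6 : ((S.filter (fun g => ¬ N₀ ∣ orderOf (c g))).card : ℝ)
      ≤ C.card * Nat.card {τ : H // ¬ N₀ ∣ orderOf τ} := by exact_mod_cast h4
  linarith

/-- [CNT-a] -/
theorem card_good_ge (C : Finset (L ≃ₐ[ℚ] L)) (N₀ : ℕ) :
    (C.card : ℝ) * Nat.card (MM m L ≃ₐ[ℚ] MM m L) / Nat.card (L ≃ₐ[ℚ] L) - C.card * bad m N₀ ≤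
      ((Finset.univ.filter fun g : MM m L ≃ₐ[ℚ] MM m L ↦
        resL m L g ∈ C ∧ N₀ ∣ orderOf (cycQ m L g)).card : ℝ) :=
  card_good_ge_aux (resL m L) (resL_surjective m L) (cycQ m L) (resL_cycQ_injective m L) C N₀

/-- in a cyclic group of order `N₀ t` at least `t` elements have order divisible by `N₀` -/
theorem card_dvd_orderOf_ge {Z : Type*} [Group Z] [Finite Z] [IsCyclic Z] {N₀ t : ℕ} (hN : 2 ≤ N₀)
    (hcard : Nat.card Z = N₀ * t) : t ≤ Nat.card {x : Z // N₀ ∣ orderOf x} := by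
  obtain ⟨γ, hγ⟩ := IsCyclic.exists_generator (α := Z)
  have hord : orderOf γ = N₀ * t := by
    rw [orderOf_eq_card_of_forall_mem_zpowers hγ, hcard]
  have ht0 : 0 < t := by
    rcases Nat.eq_zero_or_pos t with h | h
    · rw [h, mul_zero] at hcard
      exact absurd hcard Nat.card_pos.ne'
    · exact h
  have hmem : ∀ j : Fin t, N₀ ∣ orderOf (γ ^ (1 + N₀ * (j : ℕ))) := by
    intro j
    rw [orderOf_pow, hord]
    have hcop : Nat.Coprime N₀ (1 + N₀ * (j : ℕ)) := by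
      rw [Nat.coprime_add_mul_left_right]
      exact Nat.coprime_one_right N₀
    rw [Nat.Coprime.gcd_mul_left_cancel t hcop]
    exact ⟨t / Nat.gcd t (1 + N₀ * (j : ℕ)), Nat.mul_div_assoc _ (Nat.gcd_dvd_left _ _)⟩
  have hinj : Function.Injective
      (fun j : Fin t => (⟨γ ^ (1 + N₀ * (j : ℕ)), hmem j⟩ : {x : Z // N₀ ∣ orderOf x})) := by
    intro i j hij
    have h1 : γ ^ (1 + N₀ * (i : ℕ)) = γ ^ (1 + N₀ * (j : ℕ)) := congrArg Subtype.val hij
    have hlt : ∀ k : Fin t, 1 + N₀ * (k : ℕ) < orderOf γ := by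
      intro k
      rw [hord]
      have hk : (k : ℕ) + 1 ≤ t := k.2
      calc 1 + N₀ * (k : ℕ) < N₀ + N₀ * (k : ℕ) := by omega
        _ = N₀ * ((k : ℕ) + 1) := by ring
        _ ≤ N₀ * t := Nat.mul_le_mul_left _ hk
    have h2 := pow_injOn_Iio_orderOf (hlt i) (hlt j) h1
    have h3 : N₀ * (i : ℕ) = N₀ * (j : ℕ) := by omega
    exact Fin.ext (Nat.eq_of_mul_eq_mul_left (by omega) h3)
  have := Nat.card_le_card_of_injective _ hinj
  simpa using this

theorem bad_prime_le {N₀ ℓ : ℕ} (hN : 2 ≤ N₀) (hℓ : ℓ.Prime) (hmod : ℓ ≡ 1 [MOD N₀]) :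
    (bad ℓ N₀ : ℝ) ≤ (1 - 1 / (N₀ : ℝ)) * Nat.totient ℓ := by
  haveI : Fact ℓ.Prime := ⟨hℓ⟩
  obtain ⟨t, ht⟩ : N₀ ∣ ℓ - 1 := (Nat.modEq_iff_dvd' hℓ.one_lt.le).1 hmod.symm
  have hcard : Nat.card (ZMod ℓ)ˣ = N₀ * t := by
    rw [Nat.card_eq_fintype_card, ZMod.card_units_eq_totient, Nat.totient_prime hℓ, ht]
  have h1 := card_dvd_orderOf_ge hN hcard
  have h2 : Nat.card {x : (ZMod ℓ)ˣ // N₀ ∣ orderOf x} + bad ℓ N₀ = N₀ * t := by
    rw [← hcard, bad, Nat.card_eq_fintype_card, Nat.card_eq_fintype_card, Nat.card_eq_fintype_card,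
      Fintype.card_subtype, Fintype.card_subtype]
    exact Finset.card_filter_add_card_filter_not (s := Finset.univ) _
  rw [Nat.totient_prime hℓ, ht]
  have h3 : (bad ℓ N₀ : ℝ) + t ≤ N₀ * t := by
    have : bad ℓ N₀ + t ≤ N₀ * t := by omega
    exact_mod_cast this
  have hN0 : (N₀ : ℝ) ≠ 0 := by positivity
  push_cast
  have h4 : (1 - 1 / (N₀ : ℝ)) * ((N₀ : ℝ) * t) = N₀ * t - t := by field_simp
  rw [h4]
  linarith

theorem bad_mul_le {a b : ℕ} (hab : a.Coprime b) [NeZero a] [NeZero b] (N₀ : ℕ) :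
    bad (a * b) N₀ ≤ bad a N₀ * bad b N₀ := by
  let e : (ZMod (a * b))ˣ ≃* (ZMod a)ˣ × (ZMod b)ˣ :=
    (Units.mapEquiv (ZMod.chineseRemainder hab).toMulEquiv).trans MulEquiv.prodUnits
  unfold bad
  rw [← Nat.card_prod]
  have hmem : ∀ τ : (ZMod (a * b))ˣ, ¬ N₀ ∣ orderOf τ →
      ¬ N₀ ∣ orderOf (e τ).1 ∧ ¬ N₀ ∣ orderOf (e τ).2 := by
    intro τ hτ
    rw [← e.orderOf_eq, Prod.orderOf] at hτ
    exact ⟨fun h => hτ (h.trans (Nat.dvd_lcm_left _ _)), fun h => hτ (h.trans (Nat.dvd_lcm_right _ _))⟩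
  refine Nat.card_le_card_of_injective
    (fun τ : {τ : (ZMod (a * b))ˣ // ¬ N₀ ∣ orderOf τ} =>
      ((⟨(e τ.1).1, (hmem τ.1 τ.2).1⟩, ⟨(e τ.1).2, (hmem τ.1 τ.2).2⟩) :
        {τ : (ZMod a)ˣ // ¬ N₀ ∣ orderOf τ} × {τ : (ZMod b)ˣ // ¬ N₀ ∣ orderOf τ})) ?_
  intro τ τ' h
  simp only [Prod.mk.injEq, Subtype.mk.injEq] at h
  exact Subtype.ext (e.injective (Prod.ext h.1 h.2))

theorem exists_modulus_pow (N₀ : ℕ) (hN : 2 ≤ N₀) (k : ℕ) :
    ∃ m : ℕ, 0 < m ∧ (bad m N₀ : ℝ) ≤ (1 - 1 / (N₀ : ℝ)) ^ k * Nat.totient m := by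
  induction k with
  | zero =>
    refine ⟨1, one_pos, ?_⟩
    have : bad 1 N₀ ≤ 1 := by
      unfold bad
      have h1 : Nat.card {τ : (ZMod 1)ˣ // ¬ N₀ ∣ orderOf τ} ≤ Nat.card (ZMod 1)ˣ :=
        Nat.card_le_card_of_injective _ Subtype.val_injective
      have h2 : Nat.card (ZMod 1)ˣ = 1 := Nat.card_unique
      omega
    simp only [pow_zero, one_mul, Nat.totient_one, Nat.cast_one]
    exact_mod_cast this
  | succ k ih =>
    obtain ⟨m, hm0, hm⟩ := ih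
    obtain ⟨ℓ, hℓ, hlt, hmod⟩ := Nat.exists_prime_gt_modEq_one m (by omega : N₀ ≠ 0)
    have hcop : m.Coprime ℓ := (Nat.coprime_of_lt_prime hm0.ne' hlt hℓ).symm
    haveI : NeZero m := ⟨hm0.ne'⟩
    haveI : NeZero ℓ := ⟨hℓ.ne_zero⟩
    refine ⟨m * ℓ, Nat.mul_pos hm0 hℓ.pos, ?_⟩
    have h1 : (bad (m * ℓ) N₀ : ℝ) ≤ bad m N₀ * bad ℓ N₀ := by exact_mod_cast bad_mul_le hcop N₀
    have h2 := bad_prime_le hN hℓ hmod
    have hc : (0 : ℝ) ≤ 1 - 1 / (N₀ : ℝ) := by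
      have : (1 : ℝ) ≤ N₀ := by exact_mod_cast (by omega : 1 ≤ N₀)
      rw [sub_nonneg, div_le_one (by positivity)]
      exact this
    rw [Nat.totient_mul hcop]
    push_cast
    calc (bad (m * ℓ) N₀ : ℝ) ≤ bad m N₀ * bad ℓ N₀ := h1
      _ ≤ ((1 - 1 / (N₀ : ℝ)) ^ k * Nat.totient m) * ((1 - 1 / (N₀ : ℝ)) * Nat.totient ℓ) :=
          mul_le_mul hm h2 (Nat.cast_nonneg _) (by positivity)
      _ = (1 - 1 / (N₀ : ℝ)) ^ (k + 1) * (Nat.totient m * Nat.totient ℓ) := by ring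

/-- [CNT-b] -/
theorem exists_modulus (N₀ : ℕ) (hN : 0 < N₀) (ε : ℝ) (hε : 0 < ε) :
    ∃ m : ℕ, 0 < m ∧ (bad m N₀ : ℝ) ≤ ε * Nat.totient m := by
  rcases Nat.lt_or_ge N₀ 2 with h | h
  · have h1 : N₀ = 1 := by omega
    subst h1
    refine ⟨1, one_pos, ?_⟩
    have : bad 1 1 = 0 := by
      unfold bad
      have : IsEmpty {τ : (ZMod 1)ˣ // ¬ 1 ∣ orderOf τ} := ⟨fun τ => τ.2 (one_dvd _)⟩
      exact Nat.card_of_isEmpty
    rw [this]
    simp only [Nat.cast_zero, Nat.totient_one, Nat.cast_one, mul_one]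
    exact hε.le
  · have hc0 : (0 : ℝ) ≤ 1 - 1 / (N₀ : ℝ) := by
      have : (1 : ℝ) ≤ N₀ := by exact_mod_cast (by omega : 1 ≤ N₀)
      rw [sub_nonneg, div_le_one (by positivity)]
      exact this
    have hc1 : 1 - 1 / (N₀ : ℝ) < 1 := by
      have : (0 : ℝ) < 1 / (N₀ : ℝ) := by positivity
      linarith
    obtain ⟨k, hk⟩ := exists_pow_lt_of_lt_one hε hc1
    obtain ⟨m, hm0, hm⟩ := exists_modulus_pow N₀ h k
    exact ⟨m, hm0, hm.trans (mul_le_mul_of_nonneg_right hk.le (Nat.cast_nonneg _))⟩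

end Fermat.Agent.Cheb
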