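import Fermat.Agent.Cheb.FixF

/-!
# Cheb/CRS : the field `M = L(ζ_m)` (~600 lines, can be split a/b/c)

`MM m L = CyclotomicField m L`.
* [CRS-a] `isGalois_MM`: `M` is the splitting field over `ℚ` of `minpoly(primitive element of L) * (X^m - 1)`; or: `M/ℚ` normal because
  every `ℚ`-embedding `M → M̄` maps `L` to `L` (normal) and `ζ` to a power of `ζ`
  (`IsCyclotomicExtension.adjoin_primitive_root_eq_top`, `normal_iff`/`Normal.of_isSplittingField`,
  `IntermediateField.normal_iff_forall_map_le`).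
  `resL_surjective` (`AlgEquiv.restrictNormalHom_surjective`), `resL_cycQ_injective` (`M = L(ζ)`),
  `totient_le_card` (`ℚ(ζ) ⊆ M`, `[ℚ(ζ):ℚ] = φ(m)`: `IsCyclotomicExtension.finrank`, `Polynomial.cyclotomic.irreducible_rat`;
  `IsGalois.card_aut_eq_finrank`).
* [CRS-b] `isCyclotomicExtension_fixF`: `M = E(ζ)`, `E = fixF M g`: by the Galois correspondence it suffices that an element `g^k` of
  `Gal(M/E) = ⟨g⟩` fixing `ζ` is `1`: `cycQ g ^ k = 1`, so `orderOf (cycQ g) ∣ k`, so `orderOf (resL g) ∣ k`, `resL (g^k) = 1`,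
  and `resL_cycQ_injective`.  (`IsCyclotomicExtension.iff_adjoin_eq_top`/`isCyclotomicExtension_singleton_iff...`.)
* [CRS-c] `frobSet_subset`: if `w` is a place of `M` with `IsFrob ℚ w g` then `IsFrob ℚ (below_L w) (resL g)`
  (`AlgEquiv.restrictNormal_commutes`); `ram ℚ (below_L w) ∣ ram ℚ w` (tower), every place of `L` over `v` is below a place of `M`
  (`S14.fiber_nonempty`), so `v` is unramified in `L`.
-/

set_option autoImplicit false

open IsDedekindDomain NumberField Filter Topology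
open NumberField.mixedEmbedding NumberField.Units NumberField.Units.dirichletUnitTheorem
open NumberField.InfinitePlace
open Fermat.Agent.S14 Fermat.Agent.S14.Dens Fermat.Agent.ES
open scoped Classical nonZeroDivisors

noncomputable section

namespace Fermat.Agent.Cheb

variable (m : ℕ) [NeZero m] (L : Type*) [Field L] [NumberField L] [IsGalois ℚ L]

/-- `L(ζ_m)` -/
abbrev MM : Type _ := CyclotomicField m L

/-- [CRS-a] -/
instance isGalois_MM : IsGalois ℚ (MM m L) := by
  obtain ⟨q, hq, hsplit⟩ := IsGalois.is_separable_splitting_field ℚ L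
  have h1 : Polynomial.IsSplittingField L (MM m L)
      ((Polynomial.X ^ m - 1 : Polynomial ℚ).map (algebraMap ℚ L)) := by
    have := IsCyclotomicExtension.isSplittingField_X_pow_sub_one m L (MM m L)
    simpa using this
  have h2 : (Polynomial.X ^ m - 1 : Polynomial ℚ) ≠ 0 :=
    Polynomial.X_pow_sub_C_ne_zero (NeZero.pos m) (1 : ℚ)
  have h3 := Polynomial.IsSplittingField.mul (F := ℚ) (K := L) (L := MM m L) q
    (Polynomial.X ^ m - 1) hq.ne_zero h2
  have h4 : Normal ℚ (MM m L) := Normal.of_isSplittingField (q * (Polynomial.X ^ m - 1))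
  exact ⟨⟩

/-- restriction to `L` -/
def resL : (MM m L ≃ₐ[ℚ] MM m L) →* (L ≃ₐ[ℚ] L) := AlgEquiv.restrictNormalHom L

/-- the cyclotomic character -/
def cycQ : (MM m L ≃ₐ[ℚ] MM m L) →* (ZMod m)ˣ :=
  (IsCyclotomicExtension.zeta_spec m L (MM m L)).autToPow ℚ

/-- [CRS-a] -/
theorem resL_surjective : Function.Surjective (resL m L) :=
  AlgEquiv.restrictNormalHom_surjective (MM m L)

theorem resL_commutes (g : MM m L ≃ₐ[ℚ] MM m L) (x : L) :
    algebraMap L (MM m L) (resL m L g x) = g (algebraMap L (MM m L) x) :=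
  AlgEquiv.restrictNormal_commutes g L x

omit [IsGalois ℚ L] in
theorem cycQ_spec (g : MM m L ≃ₐ[ℚ] MM m L) :
    IsCyclotomicExtension.zeta m L (MM m L) ^ (cycQ m L g : ZMod m).val
      = g (IsCyclotomicExtension.zeta m L (MM m L)) :=
  (IsCyclotomicExtension.zeta_spec m L (MM m L)).autToPow_spec ℚ g

/-- [CRS-a] -/
theorem resL_cycQ_injective :
    Function.Injective fun g : MM m L ≃ₐ[ℚ] MM m L ↦ (resL m L g, cycQ m L g) := by
  intro g g' h
  simp only [Prod.mk.injEq] at h
  obtain ⟨h1, h2⟩ := h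
  ext x
  have htop := IsCyclotomicExtension.adjoin_primitive_root_eq_top (A := L)
    (IsCyclotomicExtension.zeta_spec m L (MM m L))
  have hx : x ∈ Algebra.adjoin L {IsCyclotomicExtension.zeta m L (MM m L)} := by
    rw [htop]; exact Algebra.mem_top
  induction hx using Algebra.adjoin_induction with
  | mem y hy =>
    rw [Set.mem_singleton_iff] at hy
    rw [hy, ← cycQ_spec, ← cycQ_spec, h2]
  | algebraMap y => rw [← resL_commutes, ← resL_commutes, h1]
  | add y z _ _ hy hz => rw [map_add, map_add, hy, hz]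
  | mul y z _ _ hy hz => rw [map_mul, map_mul, hy, hz]

/-- [CRS-a] -/
theorem totient_le_card : Nat.totient m ≤ Nat.card (MM m L ≃ₐ[ℚ] MM m L) := by
  rw [IsGalois.card_aut_eq_finrank]
  have h1 := Polynomial.cyclotomic_eq_minpoly_rat (IsCyclotomicExtension.zeta_spec m L (MM m L))
    (NeZero.pos m)
  have h2 := minpoly.natDegree_le (A := ℚ) (IsCyclotomicExtension.zeta m L (MM m L))
  rw [← h1, Polynomial.natDegree_cyclotomic] at h2
  exact h2

/-- [CRS-b] -/
theorem isCyclotomicExtension_fixF (g : MM m L ≃ₐ[ℚ] MM m L)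
    (h : orderOf (resL m L g) ∣ orderOf (cycQ m L g)) :
    IsCyclotomicExtension {m} (fixF (MM m L) g) (MM m L) := by
  set ζ := IsCyclotomicExtension.zeta m L (MM m L) with hζdef
  have hζ : IsPrimitiveRoot ζ m := IsCyclotomicExtension.zeta_spec m L (MM m L)
  rw [IsCyclotomicExtension.iff_singleton]
  refine ⟨⟨ζ, hζ⟩, ?_⟩
  -- the Galois correspondence
  have hbot : (IntermediateField.adjoin (fixF (MM m L) g) {ζ}).fixingSubgroup = ⊥ := by
    rw [eq_bot_iff]
    intro τ hτ
    rw [Subgroup.mem_bot]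
    obtain ⟨k, rfl⟩ := exists_pow_eq_liftF (MM m L) g τ
    have h1 : (liftF (MM m L) g ^ k) ζ = ζ := by
      rw [IntermediateField.mem_fixingSubgroup_iff] at hτ
      exact hτ ζ (IntermediateField.mem_adjoin_simple_self _ ζ)
    rw [liftF_pow_apply] at h1
    have h2 : cycQ m L (g ^ k) = 1 := by
      have h3 := cycQ_spec m L (g ^ k)
      rw [h1] at h3
      have h4 : ζ ^ (cycQ m L (g ^ k) : ZMod m).val = ζ ^ 1 := by rw [pow_one]; exact h3
      have hfin : IsOfFinOrder ζ := isOfFinOrder_iff_pow_eq_one.2 ⟨m, NeZero.pos m, hζ.pow_eq_one⟩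
      have h5 : (cycQ m L (g ^ k) : ZMod m).val ≡ 1 [MOD orderOf ζ] := hfin.pow_inj_mod.1 h4
      rw [← hζ.eq_orderOf] at h5
      have h6 := (ZMod.natCast_eq_natCast_iff _ _ m).2 h5
      rw [ZMod.natCast_zmod_val, Nat.cast_one] at h6
      exact Units.ext h6
    rw [map_pow] at h2
    have h3 : orderOf (resL m L g) ∣ k := h.trans (orderOf_dvd_of_pow_eq_one h2)
    have h4 : resL m L (g ^ k) = 1 := by
      rw [map_pow]; exact orderOf_dvd_iff_pow_eq_one.1 h3
    have h5 : g ^ k = 1 := by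
      apply resL_cycQ_injective m L
      simp only [Prod.mk.injEq, map_one]
      exact ⟨h4, by rw [map_pow]; exact h2⟩
    ext x
    rw [liftF_pow_apply, h5]
    rfl
  have htop : IntermediateField.adjoin (fixF (MM m L) g) {ζ} = ⊤ := by
    rw [← IsGalois.fixedField_fixingSubgroup (IntermediateField.adjoin (fixF (MM m L) g) {ζ}), hbot,
      IntermediateField.fixedField_bot]
  have hint : IsIntegral (fixF (MM m L) g) ζ := Algebra.IsIntegral.isIntegral ζ
  have htop' : Algebra.adjoin (fixF (MM m L) g) {ζ} = ⊤ := by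
    rw [← IntermediateField.adjoin_simple_toSubalgebra_of_isAlgebraic hint.isAlgebraic, htop,
      IntermediateField.top_toSubalgebra]
  intro x
  have hx : x ∈ Algebra.adjoin (fixF (MM m L) g) {ζ} := by rw [htop']; exact Algebra.mem_top
  refine Algebra.adjoin_mono ?_ hx
  intro y hy
  rw [Set.mem_singleton_iff] at hy
  rw [hy]
  exact hζ.pow_eq_one

/-- [CRS-c] -/
theorem frobSet_subset (g : MM m L ≃ₐ[ℚ] MM m L) :
    frobSet ℚ g ⊆ frobSet ℚ (resL m L g) := by
  rintro v ⟨hunr, w, hwv, hF⟩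
  refine ⟨?_, below (K := L) w, ?_, ?_⟩
  · intro w' hw'
    obtain ⟨w'', hw''⟩ := fiber_nonempty (Z := MM m L) w'
    have h1 : below (K := ℚ) w'' = v := by rw [← below_below (M := L), hw'', hw']
    have h2 : ram ℚ w'' = ram ℚ (below (K := L) w'') * ram L w'' :=
      Ideal.ramificationIdx_tower (R := 𝓞 ℚ) (below (K := L) w'').asIdeal w''.asIdeal
    rw [hunr w'' h1, hw''] at h2
    exact Nat.eq_one_of_mul_eq_one_right h2.symm
  · rw [below_below, hwv]
  · intro x
    have h1 := hF (algebraMap (𝓞 L) (𝓞 (MM m L)) x)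
    rw [below_below]
    show algebraMap (𝓞 L) (𝓞 (MM m L))
      (gOZ (resL m L g) x - x ^ Ideal.absNorm (below (K := ℚ) w).asIdeal) ∈ w.asIdeal
    rw [map_sub, map_pow]
    have h2 : algebraMap (𝓞 L) (𝓞 (MM m L)) (gOZ (resL m L g) x)
        = gOZ g (algebraMap (𝓞 L) (𝓞 (MM m L)) x) :=
      RingOfIntegers.ext (resL_commutes m L g (x : L))
    rw [h2]
    exact h1

end Fermat.Agent.Cheb
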