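import Fermat.Agent.Cheb.CycFrob
import Fermat.Agent.ES.FrobGlue

/-!
# Cheb/INERT : Frobenius elements generate a cyclic `Gal(M/F)` (~250 lines)

`ES.not_bdd_inert (G := M ≃ₐ[F] M)`: the set of `v` with a unique place `w` above has unbounded `DS`, so
(`ES.exists_mem_notMem`, `bdd_DS_finite`) there is such a `v` with `m ∉ v`.  `v` is unramified, the stabiliser of `w` is the
whole group `G`; the Frobenius element `g` at `w` generates the stabiliser (order of `g` = residue degree `= |G|`: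
as in `ES/FrobFinite.lean` `zpowers_eq_stabilizer_of_frob`, `S14.card_stabilizer`).  If `χ (cyc g) = 1` then
`χ ∘ cyc = 1` on `G = ⟨g⟩`.  `N v = cyc g` in `ZMod m` (`mem_frobSet_iff`).
-/

set_option autoImplicit false

open IsDedekindDomain NumberField Filter Topology
open NumberField.mixedEmbedding NumberField.Units NumberField.Units.dirichletUnitTheorem
open NumberField.InfinitePlace
open Fermat.Agent.S14 Fermat.Agent.S14.Dens Fermat.Agent.ES
open scoped Classical nonZeroDivisors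

noncomputable section

namespace Fermat.Agent.Cheb

variable (m : ℕ) [NeZero m] (F M : Type*) [Field F] [NumberField F] [Field M] [NumberField M]
  [Algebra F M] [IsCyclotomicExtension {m} F M]

omit [IsCyclotomicExtension {m} F M] [NeZero m] in
theorem inertAux_iterate {F M : Type*} [Field F] [NumberField F] [Field M] [NumberField M]
    [Algebra F M] (w : Pl M) (q : ℕ) (φ : M ≃ₐ[F] M)
    (hφ : ∀ x : 𝓞 M, gOZ φ x - x ^ q ∈ w.asIdeal) (i : ℕ) (x : 𝓞 M) :
    gOZ (φ ^ i) x - x ^ (q ^ i) ∈ w.asIdeal := by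
  induction i generalizing x with
  | zero =>
    have : gOZ (φ ^ 0) x = x := RingOfIntegers.ext (by simp)
    rw [this]
    simp
  | succ i ih =>
    have h1 := ih (gOZ φ x)
    have h2 : (gOZ φ x) ^ (q ^ i) - (x ^ q) ^ (q ^ i) ∈ w.asIdeal :=
      Ideal.mem_of_dvd _ (sub_dvd_pow_sub_pow _ _ _) (hφ x)
    have h3 := Ideal.add_mem _ h1 h2
    have h4 : gOZ (φ ^ (i + 1)) x = gOZ (φ ^ i) (gOZ φ x) :=
      RingOfIntegers.ext (by simp [pow_succ])
    rw [h4, pow_succ, mul_comm (q ^ i) q, pow_mul]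
    convert h3 using 1
    ring

/-- the residue degree is at most the order of a Frobenius element -/
theorem resdeg_le_orderOf {F M : Type*} [Field F] [NumberField F] [Field M] [NumberField M]
    [Algebra F M] (w : Pl M) {φ : M ≃ₐ[F] M} (hφ : IsFrob F w φ) :
    resdeg F w ≤ orderOf φ := by
  have hfin : Finite (M ≃ₐ[F] M) := inferInstance
  have hj0 : 0 < orderOf φ := orderOf_pos φ
  have hq1 := resaux_one_lt_absNorm (below (K := F) w)
  have h1 : ∀ x : 𝓞 M, x - x ^ (Ideal.absNorm (below (K := F) w).asIdeal ^ orderOf φ) ∈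
      w.asIdeal := by
    intro x
    have := inertAux_iterate w _ φ hφ (orderOf φ) x
    rw [pow_orderOf_eq_one] at this
    have h2 : gOZ (1 : M ≃ₐ[F] M) x = x := RingOfIntegers.ext (by simp)
    rwa [h2] at this
  have h2 := FrobGlue.card_quot_le w _ (Nat.one_lt_pow hj0.ne' hq1) h1
  rw [absNorm_eq_pow_resdeg (K := F) w] at h2
  exact (Nat.pow_le_pow_iff_right hq1).1 h2

theorem exists_prime_ne_one [IsCyclic (M ≃ₐ[F] M)] (χ : DirichletCharacter ℂ m)
    (h : ∃ g : M ≃ₐ[F] M, χ (cyc m F M g : ZMod m) ≠ 1) :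
    ∃ v : Pl F, (m : 𝓞 F) ∉ v.asIdeal ∧ χ ((Ideal.absNorm v.asIdeal : ℕ) : ZMod m) ≠ 1 := by
  have := cycAux_isGalois m F M
  obtain ⟨v, hv1, hv2⟩ := exists_mem_notMem (not_bdd_inert (K := F) (L := M) (M ≃ₐ[F] M))
    (bdd_DS_finite (finite_mem_natCast m F))
  have hv : (m : 𝓞 F) ∉ v.asIdeal := hv2
  refine ⟨v, hv, ?_⟩
  obtain ⟨w, rfl⟩ := fiber_nonempty (Z := M) v
  obtain ⟨φ, hφ⟩ := exists_isFrob F M w
  rw [cyc_eq_of_isFrob m F M w hv hφ]
  have hefg := efg_gal (K := F) w
  rw [show {w' : Pl M | below w' = below (K := F) w}.ncard = 1 from hv1,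
    isUnram_of_notMem m F M _ hv w rfl, one_mul, one_mul] at hefg
  have hle := resdeg_le_orderOf w hφ
  rw [hefg, ← IsGalois.card_aut_eq_finrank] at hle
  have htop : Subgroup.zpowers φ = ⊤ := by
    apply Subgroup.eq_top_of_card_eq
    rw [Nat.card_zpowers]
    exact le_antisymm (orderOf_le_card) hle
  intro hone
  obtain ⟨g, hg⟩ := h
  apply hg
  have hgm : g ∈ Subgroup.zpowers φ := htop ▸ Subgroup.mem_top g
  rw [← (isOfFinOrder_of_finite φ).mem_powers_iff_mem_zpowers, Submonoid.mem_powers_iff] at hgm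
  obtain ⟨k, rfl⟩ := hgm
  rw [map_pow, Units.val_pow_eq_pow_val, map_pow, hone, one_pow]

end Fermat.Agent.Cheb
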