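import Fermat.Agent.Cheb.CycFrob
import Fermat.Agent.ES.FrobGlue

/-!
# Cheb/SPL : `frobSet 1` = completely split places (~150 lines)

For a Galois extension `M/F` of number fields: `v ∈ frobSet F 1 ↔ IsSplit M v`
(`ES.isSplit_iff : IsSplit ↔ ram = 1 ∧ resdeg = 1`; `x - x^(N v) ∈ w` for all `x` ⟺ the residue field of `w` has
`N v` elements: `ES/FrobGlue.card_quot_le`, `S14.absNorm_eq_pow_resdeg`, `FiniteField.pow_card`).  Then `ES.bdd_split_sub_Lam`.
-/

set_option autoImplicit false

open IsDedekindDomain NumberField Filter Topology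
open NumberField.mixedEmbedding NumberField.Units NumberField.Units.dirichletUnitTheorem
open NumberField.InfinitePlace
open Fermat.Agent.S14 Fermat.Agent.S14.Dens Fermat.Agent.ES
open scoped Classical nonZeroDivisors

noncomputable section

namespace Fermat.Agent.Cheb

variable (F M : Type*) [Field F] [NumberField F] [Field M] [NumberField M] [Algebra F M] [IsGalois F M]

omit [IsGalois F M] [NumberField F] [Field F] [Algebra F M] in
theorem splAux_pow_card (w : Pl M) (x : 𝓞 M) : x - x ^ Ideal.absNorm w.asIdeal ∈ w.asIdeal := by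
  rw [← Ideal.Quotient.mk_eq_mk_iff_sub_mem, map_pow]
  have hmax := w.isMaximal
  let _ : Field (𝓞 M ⧸ w.asIdeal) := Ideal.Quotient.field _
  have := resaux_finite w
  have := Fintype.ofFinite (𝓞 M ⧸ w.asIdeal)
  rw [← resaux_card, Nat.card_eq_fintype_card, FiniteField.pow_card]

omit [IsGalois F M] in
theorem splAux_gOZ_one (x : 𝓞 M) : gOZ (1 : M ≃ₐ[F] M) x = x := RingOfIntegers.ext (by simp)

theorem frobSet_one : frobSet F (1 : M ≃ₐ[F] M) = {v : Pl F | IsSplit M v} := by
  ext v
  constructor
  · rintro ⟨hu, w, rfl, hw⟩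
    change IsSplit M (below (K := F) w)
    rw [isSplit_iff, hu w rfl, one_mul]
    have h1 : Ideal.absNorm w.asIdeal ≤ Ideal.absNorm (below (K := F) w).asIdeal :=
      FrobGlue.card_quot_le w _ (resaux_one_lt_absNorm _) fun x => by
        have := hw x
        rwa [splAux_gOZ_one] at this
    rw [absNorm_eq_pow_resdeg (K := F) w] at h1
    have h2 : resdeg F w ≤ 1 := by
      refine (Nat.pow_le_pow_iff_right (resaux_one_lt_absNorm (below (K := F) w))).1 ?_
      rwa [pow_one]
    have := resdeg_pos (K := F) w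
    omega
  · intro h
    have hall : ∀ w : Pl M, below w = v → ram F w = 1 ∧ resdeg F w = 1 := by
      rintro w rfl
      have h1 := (isSplit_iff (K := F) w).1 h
      exact ⟨Nat.eq_one_of_mul_eq_one_right h1, Nat.eq_one_of_mul_eq_one_left h1⟩
    obtain ⟨w, rfl⟩ := fiber_nonempty (Z := M) v
    refine ⟨fun w' hw' => (hall w' hw').1, w, rfl, fun x => ?_⟩
    rw [splAux_gOZ_one]
    have h1 := splAux_pow_card M w x
    rwa [absNorm_eq_pow_resdeg (K := F) w, (hall w rfl).2, pow_one] at h1

theorem bdd_frobSet_one :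
    Bdd (fun s ↦ (Module.finrank F M : ℝ) * DS (frobSet F (1 : M ≃ₐ[F] M)) s - Lam s) := by
  rw [frobSet_one]
  exact bdd_split_sub_Lam

end Fermat.Agent.Cheb
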