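import Fermat.Agent.Cheb.Tent

/-!
# Cheb/T (second file) : trivial properties of `wgt`
-/

set_option autoImplicit false

open IsDedekindDomain NumberField Filter Topology
open NumberField.mixedEmbedding NumberField.Units NumberField.Units.dirichletUnitTheorem
open NumberField.InfinitePlace
open Fermat.Agent.S14 Fermat.Agent.S14.Dens Fermat.Agent.ES
open scoped Classical nonZeroDivisors

noncomputable section

namespace Fermat.Agent.Cheb

variable (K : Type*) [Field K] [NumberField K]

theorem wgt_of_norm_eq_zero {x : mixedSpace K} (hx : mixedEmbedding.norm x = 0) : wgt K x = 0 :=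
  if_pos hx

theorem wgt_of_norm_ne_zero {x : mixedSpace K} (hx : mixedEmbedding.norm x ≠ 0) :
    wgt K x = ∏ i, tent (ucoord K x i) :=
  if_neg hx

theorem wgt_nonneg (x : mixedSpace K) : 0 ≤ wgt K x := by
  by_cases hx : mixedEmbedding.norm x = 0
  · rw [wgt_of_norm_eq_zero K hx]
  · rw [wgt_of_norm_ne_zero K hx]
    exact Finset.prod_nonneg fun i _ => tent_nonneg _

theorem wgt_le_one (x : mixedSpace K) : wgt K x ≤ 1 := by
  by_cases hx : mixedEmbedding.norm x = 0
  · rw [wgt_of_norm_eq_zero K hx]
    exact zero_le_one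
  · rw [wgt_of_norm_ne_zero K hx]
    exact Finset.prod_le_one (fun i _ => tent_nonneg _) fun i _ => tent_le_one _

theorem norm_ne_zero_of_wgt_ne_zero {x : mixedSpace K} (hx : wgt K x ≠ 0) :
    mixedEmbedding.norm x ≠ 0 :=
  fun h => hx (wgt_of_norm_eq_zero K h)

theorem abs_ucoord_lt_one {x : mixedSpace K} (hx : wgt K x ≠ 0) (i : Fin (rank K)) :
    |ucoord K x i| < 1 := by
  apply abs_lt_one_of_tent_ne_zero
  intro h
  apply hx
  rw [wgt_of_norm_ne_zero K (norm_ne_zero_of_wgt_ne_zero K hx)]
  exact Finset.prod_eq_zero (Finset.mem_univ i) h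

end Fermat.Agent.Cheb
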