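import Fermat.Agent.Cheb.Sgn
import Fermat.Agent.Cheb.WBasic

/-!
# Cheb/D0 : elementary properties of `term`, `tt` (~200 lines)

`S14.Analytic.hasSum_ideal` gives the summability.  `tt_eq`: `Ideal.absNorm_span_singleton`,
`mixedEmbedding.norm_eq_norm`, `Algebra.coe_norm_int`, `norm_mul_sgnN`; for `a = 0` both sides are `0`.
`term_ne_zero`: `N I` is prime to `m` (if a prime `p ∣ m` divides `N I` then some prime ideal `𝔭 ∣ I` contains
`p`, hence `m`; or: `N I ∈ I` (`Ideal.absNorm_mem`), so `(N I) + (m) = 1` in `𝓞 K`, hence in `ℤ`: an integer which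
is a unit of `𝓞 K` is `± 1`, apply this to `gcd`).
-/

set_option autoImplicit false

open IsDedekindDomain NumberField Filter Topology
open NumberField.mixedEmbedding NumberField.Units NumberField.Units.dirichletUnitTheorem
open NumberField.InfinitePlace
open Fermat.Agent.S14 Fermat.Agent.S14.Dens Fermat.Agent.ES
open scoped Classical nonZeroDivisors

noncomputable section

namespace Fermat.Agent.Cheb

variable (K : Type*) [Field K] [NumberField K] {m : ℕ} (χ : DirichletCharacter ℂ m)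

theorem term_mul (s : ℝ) (I J : Ideal (𝓞 K)) :
    term K χ s (I * J) = term K χ s I * term K χ s J := by
  unfold term
  rw [map_mul, Nat.cast_mul, Nat.cast_mul, map_mul,
    Real.mul_rpow (Nat.cast_nonneg _) (Nat.cast_nonneg _), Complex.ofReal_mul]
  ring

theorem term_bot {s : ℝ} (hs : s ≠ 0) : term K χ s ⊥ = 0 := by
  unfold term
  rw [Ideal.absNorm_bot, Nat.cast_zero (R := ℝ), Real.zero_rpow (neg_ne_zero.mpr hs),
    Complex.ofReal_zero, mul_zero]

theorem term_top (s : ℝ) : term K χ s ⊤ = 1 := by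
  unfold term
  rw [Ideal.absNorm_top, Nat.cast_one, Nat.cast_one, map_one, Real.one_rpow, Complex.ofReal_one,
    mul_one]

theorem norm_term_le (s : ℝ) (I : Ideal (𝓞 K)) :
    ‖term K χ s I‖ ≤ (Ideal.absNorm I : ℝ) ^ (-s) := by
  unfold term
  rw [norm_mul, Complex.norm_real, Real.norm_of_nonneg (by positivity)]
  exact mul_le_of_le_one_left (by positivity) (DirichletCharacter.norm_le_one χ _)

theorem summable_term {s : ℝ} (hs : 1 < s) : Summable (term K χ s) :=
  Summable.of_norm_bounded (Analytic.hasSum_ideal K hs).summable (norm_term_le K χ s)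

theorem d0_natCast_unit {m : ℕ} {c : 𝓞 K} (h : c * (m : 𝓞 K) = 1) : m = 1 := by
  have h1 := congrArg (Algebra.norm ℤ) h
  rw [map_mul, map_one] at h1
  have h2 : Algebra.norm ℤ ((m : ℕ) : 𝓞 K) = (m : ℤ) ^ Module.finrank ℚ K := by
    have := Algebra.norm_algebraMap_of_basis (RingOfIntegers.basis K) (m : ℤ)
    rw [← RingOfIntegers.rank K, Module.finrank_eq_card_basis (RingOfIntegers.basis K), ← this]
    simp
  rw [h2] at h1
  have h3 : IsUnit ((m : ℤ) ^ Module.finrank ℚ K) :=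
    IsUnit.of_mul_eq_one _ (by rw [mul_comm]; exact h1)
  have h4 : IsUnit (m : ℤ) := (isUnit_pow_iff (Module.finrank_pos (R := ℚ) (M := K)).ne').mp h3
  have := Int.isUnit_iff_natAbs_eq.mp h4
  simpa using this

theorem isUnit_absNorm {I : Ideal (𝓞 K)} (hI : IsCoprime I (Ideal.span {(m : 𝓞 K)})) :
    IsUnit ((Ideal.absNorm I : ℕ) : ZMod m) := by
  rw [ZMod.isUnit_iff_coprime]
  rw [Ideal.isCoprime_iff_exists] at hI
  obtain ⟨i, hi, j, hj, hij⟩ := hI
  obtain ⟨c, rfl⟩ := Ideal.mem_span_singleton'.mp hj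
  by_cases hI0 : I = ⊥
  · subst hI0
    rw [Ideal.mem_bot] at hi
    subst hi
    rw [zero_add] at hij
    rw [d0_natCast_unit K hij]
    exact Nat.coprime_one_right _
  by_contra hcop
  obtain ⟨p, hp, hpN, hpm⟩ := Nat.Prime.not_coprime_iff_dvd.mp hcop
  -- `p ∣ card (𝓞 K ⧸ I)`, Cauchy: an element of additive order `p`, killed by `m`
  have : Finite (𝓞 K ⧸ I) := Ideal.finiteQuotientOfFreeOfNeBot I hI0
  have hcard : Nat.card (𝓞 K ⧸ I) = Ideal.absNorm I := by
    rw [Ideal.absNorm_apply, Submodule.cardQuot_apply]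
  have := Fact.mk hp
  obtain ⟨x, hx⟩ := exists_prime_addOrderOf_dvd_card' (G := 𝓞 K ⧸ I) p (by rw [hcard]; exact hpN)
  have hx0 : x ≠ 0 := by
    rintro rfl
    rw [addOrderOf_zero] at hx
    exact hp.one_lt.ne hx
  have hpx : (p : 𝓞 K ⧸ I) * x = 0 := by
    rw [← nsmul_eq_mul, ← hx]; exact addOrderOf_nsmul_eq_zero x
  have hmx : (m : 𝓞 K ⧸ I) * x = 0 := by
    obtain ⟨d, rfl⟩ := hpm
    rw [Nat.cast_mul, mul_comm (p : 𝓞 K ⧸ I), mul_assoc, hpx, mul_zero]
  apply hx0
  have h1 : (Ideal.Quotient.mk I) (i + c * (m : 𝓞 K)) = 1 := by rw [hij, map_one]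
  rw [map_add, Ideal.Quotient.eq_zero_iff_mem.mpr hi, zero_add, map_mul, map_natCast] at h1
  calc x = 1 * x := (one_mul x).symm
    _ = (Ideal.Quotient.mk I) c * ((m : 𝓞 K ⧸ I) * x) := by rw [← h1, mul_assoc]
    _ = 0 := by rw [hmx, mul_zero]

/-- (`I ≠ ⊥` is needed: for `m = 1` the zero ideal is prime to `m`) -/
theorem term_ne_zero (s : ℝ) {I : Ideal (𝓞 K)}
    (hI : IsCoprime I (Ideal.span {(m : 𝓞 K)})) (hI0 : I ≠ ⊥) : term K χ s I ≠ 0 := by
  unfold term
  refine mul_ne_zero ((isUnit_absNorm K hI).map χ).ne_zero ?_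
  rw [Ne, Complex.ofReal_eq_zero]
  have h0 : Ideal.absNorm I ≠ 0 := by rwa [Ne, Ideal.absNorm_eq_zero_iff]
  exact (Real.rpow_pos_of_pos (by positivity) _).ne'

theorem continuous_term {I : Ideal (𝓞 K)} (hI : I ≠ ⊥) : Continuous fun s : ℝ ↦ term K χ s I := by
  unfold term
  have h0 : (0 : ℝ) < Ideal.absNorm I := by
    have : Ideal.absNorm I ≠ 0 := by rwa [Ne, Ideal.absNorm_eq_zero_iff]
    positivity
  refine continuous_const.mul (Complex.continuous_ofReal.comp ?_)
  exact (continuous_const.rpow continuous_neg (fun _ => Or.inl h0.ne'))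

theorem tt_eq {s : ℝ} (hs : s ≠ 0) (a : 𝓞 K) :
    tt K χ s a = (wgt K (mixedEmbedding K (a : K)) : ℂ) * term K χ s (Ideal.span {a}) := by
  unfold tt term chiN Gs Wt
  rw [Ideal.absNorm_span_singleton, mixedEmbedding.norm_eq_norm]
  have h1 : |(Algebra.norm ℚ) (a : K)| = (((Algebra.norm ℤ a).natAbs : ℕ) : ℚ) := by
    rw [← Algebra.coe_norm_int, Nat.cast_natAbs, Int.cast_abs]
  have h2 : ((|(Algebra.norm ℚ) (a : K)| : ℚ) : ℝ) = (((Algebra.norm ℤ a).natAbs : ℕ) : ℝ) := by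
    rw [h1]; norm_cast
  rw [h2]
  have h3 : χ ((Algebra.norm ℤ a : ℤ) : ZMod m) * χ ((sgnN K (mixedEmbedding K (a : K)) : ℤ) : ZMod m)
      = χ (((Algebra.norm ℤ a).natAbs : ℕ) : ZMod m) := by
    rw [← map_mul, ← Int.cast_mul, norm_mul_sgnN, Int.cast_natCast]
  rw [← h3]
  ring

end Fermat.Agent.Cheb
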