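import Fermat.Agent.Cheb.CycFrob
import Fermat.Agent.Cheb.Term

/-!
# Cheb/ORTH : orthogonality relations for the prime sums (~400 lines)

* `sum_PS`: `DirichletCharacter.sum_char_inv_mul_char_eq ℂ`, exchange of the finite sum with the `tsum`
  (`Summable.tsum_finsetSum`, `summable_term` restricted to the primes / `S14.summable_primeNorm`).
* `bddC_PS_trivial`: `χ(N v) = 1` for `m ∉ v` (`exists_cyc_eq`), `χ(N v) = 0` otherwise (`notMem_of_isUnit`,
  `MulChar.map_nonunit`); finitely many `v` contain `m`; `ES.bdd_DS_univ_sub_Lam`.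
* `card_trivial`: characters of `(ZMod m)ˣ` trivial on the range of `cyc` = characters of the quotient
  (`MulChar.equivToUnitHom`, `QuotientGroup.lift`, `CommGroup.card_monoidHom_of_hasEnoughRootsOfUnity`,
  or `card_domRestrictHom_ker` in `Mathlib/GroupTheory/FiniteAbelian/Duality.lean`), `cyc_injective`,
  `Subgroup.card_mul_index`, `ZMod.card_units_eq_totient`.
-/

set_option autoImplicit false

open IsDedekindDomain NumberField Filter Topology
open NumberField.mixedEmbedding NumberField.Units NumberField.Units.dirichletUnitTheorem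
open NumberField.InfinitePlace
open Fermat.Agent.S14 Fermat.Agent.S14.Dens Fermat.Agent.ES
open scoped Classical nonZeroDivisors

noncomputable section

namespace Fermat.Agent.Cheb

variable (m : ℕ) [NeZero m] (F M : Type*) [Field F] [NumberField F] [Field M] [NumberField M]
  [Algebra F M] [IsCyclotomicExtension {m} F M]

/-- boundedness near `1+` for complex valued functions -/
def BddC (f : ℝ → ℂ) : Prop := ∃ C : ℝ, ∀ᶠ s in 𝓝[>] (1 : ℝ), ‖f s‖ ≤ C

omit [IsCyclotomicExtension {m} F M] [NumberField M] [Field M] [Algebra F M] [NeZero m] in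
theorem orthAux_summable (χ : DirichletCharacter ℂ m) {s : ℝ} (hs : 1 < s) :
    Summable (fun v : Pl F ↦ term F χ s v.asIdeal) :=
  Summable.of_norm_bounded (summable_wt hs) fun v ↦ norm_term_le F χ s v.asIdeal

omit [IsCyclotomicExtension {m} F M] in
theorem sum_PS (a : (ZMod m)ˣ) {s : ℝ} (hs : 1 < s) :
    ((Nat.totient m : ℝ) * DS {v : Pl F | ((Ideal.absNorm v.asIdeal : ℕ) : ZMod m) = (a : ZMod m)} s : ℝ)
      = ∑ χ : DirichletCharacter ℂ m, χ ((a⁻¹ : (ZMod m)ˣ) : ZMod m) * PS F χ s := by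
  have h1 : ∀ χ : DirichletCharacter ℂ m, χ ((a⁻¹ : (ZMod m)ˣ) : ZMod m) * PS F χ s =
      ∑' v : Pl F, χ ((a⁻¹ : (ZMod m)ˣ) : ZMod m) * term F χ s v.asIdeal := by
    intro χ
    rw [PS, tsum_mul_left]
  simp_rw [h1]
  rw [← Summable.tsum_finsetSum fun χ _ ↦ (orthAux_summable m F χ hs).mul_left _]
  rw [DS, ← tsum_mul_left, Complex.ofReal_tsum]
  refine tsum_congr fun v ↦ ?_
  have h2 := DirichletCharacter.sum_char_inv_mul_char_eq ℂ a.isUnit
    ((Ideal.absNorm v.asIdeal : ℕ) : ZMod m)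
  rw [ZMod.inv_coe_unit] at h2
  have h3 : ∑ χ : DirichletCharacter ℂ m, χ ((a⁻¹ : (ZMod m)ˣ) : ZMod m) * term F χ s v.asIdeal =
      (∑ χ : DirichletCharacter ℂ m, χ ((a⁻¹ : (ZMod m)ˣ) : ZMod m) *
        χ ((Ideal.absNorm v.asIdeal : ℕ) : ZMod m)) *
        (((Ideal.absNorm v.asIdeal : ℝ) ^ (-s) : ℝ) : ℂ) := by
    rw [Finset.sum_mul]
    refine Finset.sum_congr rfl fun χ _ ↦ ?_
    rw [term, mul_assoc]
  rw [h3, h2]
  by_cases hv : ((Ideal.absNorm v.asIdeal : ℕ) : ZMod m) = (a : ZMod m)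
  · rw [if_pos hv.symm, Set.indicator_of_mem (show v ∈ {v : Pl F |
      ((Ideal.absNorm v.asIdeal : ℕ) : ZMod m) = (a : ZMod m)} from hv), wt]
    push_cast
    rfl
  · rw [if_neg (fun h ↦ hv h.symm), Set.indicator_of_notMem (show v ∉ {v : Pl F |
      ((Ideal.absNorm v.asIdeal : ℕ) : ZMod m) = (a : ZMod m)} from hv)]
    simp

theorem bddC_PS_trivial (χ : DirichletCharacter ℂ m)
    (h : ∀ g : M ≃ₐ[F] M, χ (cyc m F M g : ZMod m) = 1) :
    BddC (fun s ↦ PS F χ s - (Lam s : ℂ)) := by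
  have h1 : ∀ s : ℝ, PS F χ s = ((DS {v : Pl F | (m : 𝓞 F) ∉ v.asIdeal} s : ℝ) : ℂ) := by
    intro s
    rw [PS, DS, Complex.ofReal_tsum]
    refine tsum_congr fun v ↦ ?_
    by_cases hv : (m : 𝓞 F) ∈ v.asIdeal
    · rw [Set.indicator_of_notMem (show v ∉ {v : Pl F | (m : 𝓞 F) ∉ v.asIdeal} from
        fun h' ↦ h' hv), term, MulChar.map_nonunit χ (fun hu ↦ notMem_of_isUnit m F v hu hv)]
      simp
    · rw [Set.indicator_of_mem (show v ∈ {v : Pl F | (m : 𝓞 F) ∉ v.asIdeal} from hv), term]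
      obtain ⟨g, hg⟩ := exists_cyc_eq m F M v hv
      rw [hg, h g, one_mul, wt]
  have h2 : Bdd (fun s ↦ DS (Set.univ : Set (Pl F)) s - DS {v : Pl F | (m : 𝓞 F) ∉ v.asIdeal} s) := by
    refine bdd_DS_sub (Set.subset_univ _) ((finite_mem_natCast m F).subset ?_)
    rintro v ⟨-, hv⟩
    exact not_not.1 hv
  have h3 : Bdd (fun s ↦ DS {v : Pl F | (m : 𝓞 F) ∉ v.asIdeal} s - Lam s) :=
    ((bdd_DS_univ_sub_Lam F).sub h2).congr' fun s _ ↦ by ring
  obtain ⟨C, hC⟩ := (bdd_iff _).1 h3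
  refine ⟨C, ?_⟩
  filter_upwards [hC] with s hs
  rw [h1, ← Complex.ofReal_sub, Complex.norm_real]
  exact hs

theorem card_trivial :
    Nat.card {χ : DirichletCharacter ℂ m // ∀ g : M ≃ₐ[F] M, χ (cyc m F M g : ZMod m) = 1} *
      Nat.card (M ≃ₐ[F] M) = Nat.totient m := by
  have h1 := CommGroup.card_domRestrictHom_ker (G := (ZMod m)ˣ) ℂ (cyc m F M).range
  have h2 : Nat.card {χ : DirichletCharacter ℂ m // ∀ g : M ≃ₐ[F] M, χ (cyc m F M g : ZMod m) = 1} =
      Nat.card (MonoidHom.domRestrictHom (cyc m F M).range ℂˣ).ker := by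
    refine Nat.card_congr (Equiv.subtypeEquiv MulChar.equivToUnitHom fun χ ↦ ?_)
    rw [MonoidHom.mem_ker, MonoidHom.domRestrictHom_apply, MonoidHom.domRestrict_eq_one_iff]
    constructor
    · rintro hχ _ ⟨g, rfl⟩
      apply Units.ext
      change ((MulChar.toUnitHom χ (cyc m F M g) : ℂˣ) : ℂ) = 1
      rw [MulChar.coe_toUnitHom]
      exact hχ g
    · intro hχ g
      have := hχ (cyc m F M g) ⟨g, rfl⟩
      have h3 : ((MulChar.toUnitHom χ (cyc m F M g) : ℂˣ) : ℂ) = 1 := by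
        change ((MulChar.equivToUnitHom χ (cyc m F M g) : ℂˣ) : ℂ) = 1
        rw [this, Units.val_one]
      rwa [MulChar.coe_toUnitHom] at h3
  have h4 : Nat.card (M ≃ₐ[F] M) = Nat.card (cyc m F M).range :=
    Nat.card_congr (MonoidHom.ofInjective (cyc_injective m F M)).toEquiv
  rw [h2, h1, h4, ← Subgroup.card_eq_card_quotient_mul_card_subgroup, Nat.card_eq_fintype_card,
    ZMod.card_units_eq_totient]

end Fermat.Agent.Cheb
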