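import Fermat.Agent.Cheb.Term

/-!
# Cheb/EUL : Euler product and logarithm of `LF` (~500 lines)

`z_v = term s v`, `‖z_v‖ ≤ N v ^ (-s) ≤ 1/2`.  `Λ s := ∑_v - log (1 - z_v)` (`Complex.log`).
* `‖- log (1 - z) - z‖ ≤ ‖z‖ ^ 2` for `‖z‖ ≤ 1/2` (`Complex.norm_log_one_add_sub_self_le` or
  `Complex.norm_log_one_sub_inv_sub_self_le`), so `‖Λ s - PS s‖ ≤ ∑_v N v ^ (-2) =: C`
  (`S14.summable_primeNorm`).
* continuity on `Ioi 1`: `continuousOn_tsum` on every `Ici s₀`, `s₀ > 1` (majorant `2 N v ^ (-s₀)`).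
* `exp (Λ s) = LF s`: for a finite set `S` of primes, `∏_{v ∈ S} (1 - z_v)⁻¹ = ∑_{I supported in S} term s I`
  (geometric series; generalise `S14.Analytic.sum_box`, `exists_box`, `prodPow` from `ℝ` to `ℂ`: they are stated for
  `f : Ideal R →* ℝ`, the proofs do not use `ℝ`), which tends to `LF s` along `S → univ` (`summable_term`, every
  finite set of nonzero ideals is contained in a box), and `= exp (∑_{v ∈ S} - log (1 - z_v)) → exp (Λ s)`.
-/

set_option autoImplicit false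

open IsDedekindDomain NumberField Filter Topology
open NumberField.mixedEmbedding NumberField.Units NumberField.Units.dirichletUnitTheorem
open NumberField.InfinitePlace
open Fermat.Agent.S14 Fermat.Agent.S14.Dens Fermat.Agent.ES
open scoped Classical nonZeroDivisors

noncomputable section

namespace Fermat.Agent.Cheb

section Box

variable {R : Type*} [CommRing R] [IsDedekindDomain R]

/-- `S14.Analytic.sum_box` for an arbitrary commutative semiring -/
theorem eul_sum_box {B : Type*} [CommSemiring B] (f : Ideal R →* B)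
    (S : Finset (HeightOneSpectrum R)) (M : ℕ) :
    ∑ I ∈ Analytic.box S M, f I = ∏ v ∈ S, ∑ j ∈ Finset.range M, f v.asIdeal ^ j := by
  unfold Analytic.box
  rw [Finset.sum_image (fun _ _ _ _ h ↦ Analytic.prodPow_injective S h)]
  rw [← Finset.prod_coe_sort S (fun v ↦ ∑ j ∈ Finset.range M, f v.asIdeal ^ j)]
  rw [Finset.prod_univ_sum]
  refine Finset.sum_congr rfl fun e _ ↦ ?_
  unfold Analytic.prodPow
  rw [map_prod]
  refine Finset.prod_congr rfl fun v _ ↦ ?_
  rw [map_pow]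

/-- `S14.Analytic.exists_box` with a prescribed set of primes and all large `M` -/
theorem eul_exists_box (T : Finset (Ideal R)) (hT : ∀ I ∈ T, I ≠ ⊥)
    (S₁ : Finset (HeightOneSpectrum R)) :
    ∃ (S : Finset (HeightOneSpectrum R)) (M : ℕ), S₁ ⊆ S ∧ ∀ M', M ≤ M' → T ⊆ Analytic.box S M' := by
  have hfin : (⋃ I ∈ T, Function.mulSupport
      (fun v : HeightOneSpectrum R ↦ v.maxPowDividing I)).Finite :=
    Set.Finite.biUnion T.finite_toSet (fun I hI ↦ Ideal.hasFiniteMulSupport (hT I hI))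
  let S := hfin.toFinset ∪ S₁
  let c : Ideal R → HeightOneSpectrum R → ℕ :=
    fun I v ↦ (Associates.mk v.asIdeal).count (Associates.mk I).factors
  let M := (T.sup fun I ↦ S.sup fun v ↦ c I v) + 1
  refine ⟨S, M, Finset.subset_union_right, fun M' hM' I hI ↦ ?_⟩
  unfold Analytic.box
  rw [Finset.mem_image]
  refine ⟨fun v ↦ c I v.1, ?_, ?_⟩
  · rw [Fintype.mem_piFinset]
    intro v
    rw [Finset.mem_range]
    refine lt_of_lt_of_le (Nat.lt_succ_iff.mpr ?_) hM'
    exact le_trans (Finset.le_sup (f := fun v ↦ c I v) v.2)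
      (Finset.le_sup (f := fun I ↦ S.sup fun v ↦ c I v) hI)
  · unfold Analytic.prodPow
    rw [Finset.prod_coe_sort S (fun v ↦ v.asIdeal ^ c I v)]
    conv_rhs => rw [← Ideal.finprod_heightOneSpectrum_factorization (hT I hI)]
    rw [finprod_eq_prod_of_mulSupport_subset (s := S)]
    · rfl
    · intro v hv
      rw [Finset.mem_coe, Finset.mem_union, Set.Finite.mem_toFinset]
      exact Or.inl (Set.mem_biUnion hI hv)

end Box

variable (K : Type*) [Field K] [NumberField K] {m : ℕ} (χ : DirichletCharacter ℂ m)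

/-- `term` as a monoid homomorphism -/
def eul_termHom (s : ℝ) : Ideal (𝓞 K) →* ℂ where
  toFun := term K χ s
  map_one' := by rw [Ideal.one_eq_top]; exact term_top K χ s
  map_mul' := term_mul K χ s

theorem eul_norm_le_half {s : ℝ} (hs : 1 < s) (v : Pl K) : ‖term K χ s v.asIdeal‖ ≤ 1 / 2 :=
  (norm_term_le K χ s _).trans (Analytic.nrm_le_half K hs v)

theorem eul_norm_lt_one {s : ℝ} (hs : 1 < s) (v : Pl K) : ‖term K χ s v.asIdeal‖ < 1 :=
  lt_of_le_of_lt (eul_norm_le_half K χ hs v) (by norm_num)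

/-- the local logarithm -/
def eul_lg (v : Pl K) (s : ℝ) : ℂ := - Complex.log (1 + - term K χ s v.asIdeal)

theorem eul_norm_lg_le {s : ℝ} (hs : 1 < s) (v : Pl K) :
    ‖eul_lg K χ v s‖ ≤ 3 / 2 * (Ideal.absNorm v.asIdeal : ℝ) ^ (-s) := by
  unfold eul_lg
  rw [norm_neg]
  have h := Complex.norm_log_one_add_half_le_self (z := - term K χ s v.asIdeal)
    (by rw [norm_neg]; exact eul_norm_le_half K χ hs v)
  rw [norm_neg] at h
  exact h.trans (by have := norm_term_le K χ s v.asIdeal; linarith)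

theorem eul_norm_lg_sub_le {s : ℝ} (hs : 1 < s) (v : Pl K) :
    ‖eul_lg K χ v s - term K χ s v.asIdeal‖ ≤ (Ideal.absNorm v.asIdeal : ℝ) ^ (-(2 : ℝ)) := by
  unfold eul_lg
  have h := Complex.norm_log_one_add_sub_self_le (z := - term K χ s v.asIdeal)
    (by rw [norm_neg]; exact eul_norm_lt_one K χ hs v)
  rw [norm_neg] at h
  have e : - Complex.log (1 + - term K χ s v.asIdeal) - term K χ s v.asIdeal =
      - (Complex.log (1 + - term K χ s v.asIdeal) - - term K χ s v.asIdeal) := by ring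
  rw [e, norm_neg]
  refine h.trans ?_
  have h1 := eul_norm_le_half K χ hs v
  have h0 := norm_nonneg (term K χ s v.asIdeal)
  have h2 : (1 - ‖term K χ s v.asIdeal‖)⁻¹ ≤ 2 := by
    rw [inv_le_comm₀ (by linarith) (by norm_num)]
    linarith
  have h3 : ‖term K χ s v.asIdeal‖ ^ 2 ≤ (Ideal.absNorm v.asIdeal : ℝ) ^ (-(2 : ℝ)) :=
    (pow_le_pow_left₀ h0 (norm_term_le K χ s _) 2).trans (Analytic.nrm_sq_le K hs v)
  calc ‖term K χ s v.asIdeal‖ ^ 2 * (1 - ‖term K χ s v.asIdeal‖)⁻¹ / 2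
      ≤ ‖term K χ s v.asIdeal‖ ^ 2 * 2 / 2 := by gcongr
    _ = ‖term K χ s v.asIdeal‖ ^ 2 := by ring
    _ ≤ _ := h3

theorem eul_summable_lg {s : ℝ} (hs : 1 < s) : Summable fun v : Pl K ↦ eul_lg K χ v s :=
  Summable.of_norm_bounded ((summable_primeNorm K hs).mul_left (3 / 2)) (eul_norm_lg_le K χ hs)

theorem eul_summable_prime {s : ℝ} (hs : 1 < s) :
    Summable fun v : Pl K ↦ term K χ s v.asIdeal :=
  Summable.of_norm_bounded (summable_primeNorm K hs) (fun v ↦ norm_term_le K χ s v.asIdeal)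

theorem eul_exp_lg {s : ℝ} (hs : 1 < s) (v : Pl K) :
    Complex.exp (eul_lg K χ v s) = (1 - term K χ s v.asIdeal)⁻¹ := by
  unfold eul_lg
  have h0 : 1 + - term K χ s v.asIdeal ≠ 0 :=
    Complex.slitPlane_ne_zero (Complex.mem_slitPlane_of_norm_lt_one
      (by rw [norm_neg]; exact eul_norm_lt_one K χ hs v))
  rw [Complex.exp_neg, Complex.exp_log h0, sub_eq_add_neg]

theorem eul_continuousOn_lg (v : Pl K) : ContinuousOn (eul_lg K χ v) (Set.Ioi 1) := by
  unfold eul_lg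
  refine ContinuousOn.neg (ContinuousOn.clog ?_ ?_)
  · exact (continuous_const.add (continuous_term K χ v.ne_bot).neg).continuousOn
  · intro s hs
    exact Complex.mem_slitPlane_of_norm_lt_one (by rw [norm_neg]; exact eul_norm_lt_one K χ hs v)

theorem eul_continuousOn : ContinuousOn (fun s ↦ ∑' v : Pl K, eul_lg K χ v s) (Set.Ioi 1) := by
  intro s hs
  have hs' : (1 : ℝ) < s := hs
  have h1 : (1 : ℝ) < (1 + s) / 2 := by linarith
  have hc : ContinuousOn (fun s ↦ ∑' v : Pl K, eul_lg K χ v s) (Set.Ici ((1 + s) / 2)) := by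
    refine continuousOn_tsum (u := fun v : Pl K ↦ 3 / 2 * (Ideal.absNorm v.asIdeal : ℝ) ^ (-((1 + s) / 2)))
      (fun v ↦ (eul_continuousOn_lg K χ v).mono fun t ht ↦ lt_of_lt_of_le h1 ht)
      ((summable_primeNorm K h1).mul_left (3 / 2)) ?_
    intro v t ht
    have ht' : (1 + s) / 2 ≤ t := ht
    refine (eul_norm_lg_le K χ (lt_of_lt_of_le h1 ht') v).trans ?_
    have h2 : (1 : ℝ) ≤ (Ideal.absNorm v.asIdeal : ℝ) := by
      have := Analytic.two_le_absNorm K v
      exact_mod_cast (by omega : 1 ≤ Ideal.absNorm v.asIdeal)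
    have := Real.rpow_le_rpow_of_exponent_le h2 (neg_le_neg ht')
    linarith
  exact (hc.continuousAt (Ici_mem_nhds (by linarith))).continuousWithinAt

theorem eul_exp_eq {s : ℝ} (hs : 1 < s) :
    Complex.exp (∑' v : Pl K, eul_lg K χ v s) = LF K χ s := by
  refine eq_of_forall_dist_le fun ε hε ↦ ?_
  have hε2 : 0 < ε / 2 := by linarith
  -- the partial products tend to `exp Λ`
  have ht1 : Tendsto (fun S : Finset (Pl K) ↦ ∏ v ∈ S, (1 - term K χ s v.asIdeal)⁻¹) atTop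
      (𝓝 (Complex.exp (∑' v : Pl K, eul_lg K χ v s))) := by
    have h := (Complex.continuous_exp.tendsto _).comp (eul_summable_lg K χ hs).hasSum
    refine h.congr fun S ↦ ?_
    rw [Function.comp, Complex.exp_sum]
    exact Finset.prod_congr rfl fun v _ ↦ eul_exp_lg K χ hs v
  obtain ⟨S₁, hS₁⟩ := Metric.tendsto_atTop.mp ht1 (ε / 2) hε2
  have ht2 : Tendsto (fun T : Finset (Ideal (𝓞 K)) ↦ ∑ I ∈ T, term K χ s I) atTop
      (𝓝 (LF K χ s)) := (summable_term K χ hs).hasSum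
  obtain ⟨T₀, hT₀⟩ := Metric.tendsto_atTop.mp ht2 (ε / 2) hε2
  obtain ⟨S, M, hS, hM⟩ := eul_exists_box (T₀.erase ⊥) (fun I hI ↦ Finset.ne_of_mem_erase hI) S₁
  have h1 : ∀ M', M ≤ M' →
      dist (∏ v ∈ S, ∑ j ∈ Finset.range M', term K χ s v.asIdeal ^ j) (LF K χ s) ≤ ε / 2 := by
    intro M' hM'
    have e1 := eul_sum_box (eul_termHom K χ s) S M'
    have e2 : ∑ I ∈ insert ⊥ (Analytic.box S M'), term K χ s I =
        ∑ I ∈ Analytic.box S M', term K χ s I :=
      Finset.sum_insert_of_eq_zero_if_notMem fun _ ↦ term_bot K χ (by linarith)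
    have e3 : ∏ v ∈ S, ∑ j ∈ Finset.range M', term K χ s v.asIdeal ^ j =
        ∑ I ∈ insert ⊥ (Analytic.box S M'), term K χ s I := by
      rw [e2]; exact e1.symm
    rw [e3]
    refine (hT₀ _ ?_).le
    intro I hI
    by_cases hI0 : I = ⊥
    · rw [hI0]; exact Finset.mem_insert_self _ _
    · exact Finset.mem_insert_of_mem (hM M' hM' (Finset.mem_erase.mpr ⟨hI0, hI⟩))
  have ht3 : Tendsto (fun M' : ℕ ↦ ∏ v ∈ S, ∑ j ∈ Finset.range M', term K χ s v.asIdeal ^ j) atTop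
      (𝓝 (∏ v ∈ S, (1 - term K χ s v.asIdeal)⁻¹)) :=
    tendsto_finsetProd S fun v _ ↦
      (hasSum_geometric_of_norm_lt_one (eul_norm_lt_one K χ hs v)).tendsto_sum_nat
  have h2 : dist (∏ v ∈ S, (1 - term K χ s v.asIdeal)⁻¹) (LF K χ s) ≤ ε / 2 :=
    le_of_tendsto (ht3.dist tendsto_const_nhds) (eventually_atTop.mpr ⟨M, h1⟩)
  have h3 := (hS₁ S hS).le
  calc dist (Complex.exp (∑' v : Pl K, eul_lg K χ v s)) (LF K χ s)
      ≤ dist (Complex.exp (∑' v : Pl K, eul_lg K χ v s)) (∏ v ∈ S, (1 - term K χ s v.asIdeal)⁻¹)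
        + dist (∏ v ∈ S, (1 - term K χ s v.asIdeal)⁻¹) (LF K χ s) := dist_triangle _ _ _
    _ ≤ ε / 2 + ε / 2 := add_le_add (by rw [dist_comm]; exact h3) h2
    _ = ε := by ring

theorem exists_log : ∃ Λ : ℝ → ℂ, ContinuousOn Λ (Set.Ioi 1) ∧
    (∀ s, 1 < s → Complex.exp (Λ s) = LF K χ s) ∧
    ∃ C : ℝ, ∀ s, 1 < s → ‖Λ s - PS K χ s‖ ≤ C := by
  refine ⟨fun s ↦ ∑' v : Pl K, eul_lg K χ v s, eul_continuousOn K χ,
    fun s hs ↦ eul_exp_eq K χ hs,
    ∑' v : Pl K, (Ideal.absNorm v.asIdeal : ℝ) ^ (-(2 : ℝ)), fun s hs ↦ ?_⟩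
  show ‖∑' v : Pl K, eul_lg K χ v s - ∑' v : Pl K, term K χ s v.asIdeal‖ ≤ _
  rw [← (eul_summable_lg K χ hs).tsum_sub (eul_summable_prime K χ hs)]
  exact tsum_of_norm_bounded (summable_primeNorm K (by norm_num : (1 : ℝ) < 2)).hasSum
    (eul_norm_lg_sub_le K χ hs)

end Fermat.Agent.Cheb
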