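import Fermat.Agent.Cheb.Defs

/-!
# Cheb/WIND : a continuous logarithm of a function with a nonzero limit is bounded (~150 lines, Mathlib only)

`Re Λ = log ‖exp Λ‖ → log ‖ℓ‖`.  For the imaginary part: let `θ₀ = arg ℓ`.  For `s` close to `1`,
`‖exp (Λ s) / ℓ - 1‖ < 1`, so `exp (Λ s - log ℓ)` has positive real part, so `Im (Λ s) - θ₀ ∉ π/2 + π ℤ`... ; the
continuous function `Im (Λ s) - θ₀` on the interval `(1, 1 + δ)` avoids the points `π + 2 π k`
(there `exp` would be a negative real number), so by the intermediate value theorem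
(`isPreconnected_Ioo.intermediate_value`) it stays in one interval `((2k-1) π, (2k+1) π)`.
-/

set_option autoImplicit false

open IsDedekindDomain NumberField Filter Topology
open NumberField.mixedEmbedding NumberField.Units NumberField.Units.dirichletUnitTheorem
open NumberField.InfinitePlace
open Fermat.Agent.S14 Fermat.Agent.S14.Dens Fermat.Agent.ES
open scoped Classical nonZeroDivisors

noncomputable section

namespace Fermat.Agent.Cheb

theorem bounded_of_exp_tendsto (Λ : ℝ → ℂ) (hc : ContinuousOn Λ (Set.Ioi 1)) (ℓ : ℂ) (hℓ : ℓ ≠ 0)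
    (h : Tendsto (fun s ↦ Complex.exp (Λ s)) (𝓝[>] 1) (𝓝 ℓ)) :
    ∃ C : ℝ, ∀ᶠ s in 𝓝[>] (1 : ℝ), ‖Λ s‖ ≤ C := by
  set L0 : ℂ := Complex.log ℓ with hL0
  have hexpL0 : Complex.exp L0 = ℓ := Complex.exp_log hℓ
  set g : ℝ → ℂ := fun s ↦ Λ s - L0 with hg
  have hgexp : ∀ s, Complex.exp (g s) = Complex.exp (Λ s) / ℓ := by
    intro s
    rw [hg]
    simp only [Complex.exp_sub, hexpL0]
  have hlim : Tendsto (fun s ↦ Complex.exp (g s)) (𝓝[>] 1) (𝓝 1) := by
    have h1 : Tendsto (fun s ↦ Complex.exp (Λ s) / ℓ) (𝓝[>] 1) (𝓝 (ℓ / ℓ)) := h.div_const ℓ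
    rw [div_self hℓ] at h1
    exact h1.congr (fun s ↦ (hgexp s).symm)
  have hev : ∀ᶠ s in 𝓝[>] (1 : ℝ), ‖Complex.exp (g s) - 1‖ < 1 / 2 := by
    have := (Metric.tendsto_nhds.1 hlim) (1 / 2) (by norm_num)
    filter_upwards [this] with s hs
    rwa [dist_eq_norm] at hs
  obtain ⟨u, hu, hsub⟩ := (mem_nhdsGT_iff_exists_Ioo_subset).1 hev
  have hu' : (1 : ℝ) < u := hu
  have hnear : ∀ s ∈ Set.Ioo (1 : ℝ) u, ‖Complex.exp (g s) - 1‖ < 1 / 2 := fun s hs ↦ hsub hs
  set k : ℝ → ℂ := fun s ↦ g s - Complex.log (Complex.exp (g s)) with hk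
  have hgc : ContinuousOn g (Set.Ioo (1 : ℝ) u) :=
    (hc.mono Set.Ioo_subset_Ioi_self).sub continuousOn_const
  have hslit : ∀ s ∈ Set.Ioo (1 : ℝ) u, Complex.exp (g s) ∈ Complex.slitPlane := by
    intro s hs
    left
    have h1 := hnear s hs
    have h2 : |(Complex.exp (g s) - 1).re| ≤ ‖Complex.exp (g s) - 1‖ := Complex.abs_re_le_norm _
    have h3 := (abs_le.1 h2).1
    simp only [Complex.sub_re, Complex.one_re] at h3
    linarith
  have hkc : ContinuousOn k (Set.Ioo (1 : ℝ) u) := by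
    refine hgc.sub ?_
    exact ContinuousOn.clog (Complex.continuous_exp.comp_continuousOn hgc) hslit
  have hkexp : ∀ s, Complex.exp (k s) = 1 := by
    intro s
    rw [hk]
    simp only [Complex.exp_sub, Complex.exp_log (Complex.exp_ne_zero _)]
    exact div_self (Complex.exp_ne_zero _)
  set T : Set ℂ := Set.range (fun n : ℤ ↦ (n : ℂ) * (2 * Real.pi * Complex.I)) with hT
  have hTc : T.Countable := Set.countable_range _
  have hkT : k '' (Set.Ioo (1 : ℝ) u) ⊆ T := by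
    rintro _ ⟨s, -, rfl⟩
    obtain ⟨n, hn⟩ := Complex.exp_eq_one_iff.1 (hkexp s)
    exact ⟨n, hn.symm⟩
  have hsing : (k '' (Set.Ioo (1 : ℝ) u)).Subsingleton :=
    hTc.isTotallyDisconnected _ hkT (isPreconnected_Ioo.image k hkc)
  have hs0 : (1 + u) / 2 ∈ Set.Ioo (1 : ℝ) u := ⟨by linarith, by linarith⟩
  refine ⟨‖L0‖ + ‖k ((1 + u) / 2)‖ + 3 / 2 * (1 / 2), ?_⟩
  have hmem : Set.Ioo (1 : ℝ) u ∈ 𝓝[>] (1 : ℝ) := Ioo_mem_nhdsGT hu'
  filter_upwards [hmem] with s hs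
  have hks : k s = k ((1 + u) / 2) :=
    hsing (Set.mem_image_of_mem k hs) (Set.mem_image_of_mem k hs0)
  have hdec : Λ s = L0 + k s + Complex.log (1 + (Complex.exp (g s) - 1)) := by
    rw [hk, hg]
    simp only [add_sub_cancel]
    ring
  have hlog : ‖Complex.log (1 + (Complex.exp (g s) - 1))‖ ≤ 3 / 2 * ‖Complex.exp (g s) - 1‖ :=
    Complex.norm_log_one_add_half_le_self (hnear s hs).le
  calc ‖Λ s‖ = ‖L0 + k s + Complex.log (1 + (Complex.exp (g s) - 1))‖ := by rw [← hdec]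
    _ ≤ ‖L0‖ + ‖k s‖ + ‖Complex.log (1 + (Complex.exp (g s) - 1))‖ := norm_add₃_le
    _ ≤ ‖L0‖ + ‖k ((1 + u) / 2)‖ + 3 / 2 * (1 / 2) := by
        rw [hks]
        have := hnear s hs
        nlinarith [hlog]

end Fermat.Agent.Cheb
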