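import Fermat.Agent.Cheb.Limit
import Fermat.Agent.Cheb.Euler
import Fermat.Agent.Cheb.Wind
import Fermat.Agent.Cheb.CycSum
import Fermat.Agent.Cheb.CycInert
import Fermat.Agent.Cheb.CycSplit

/-!
# Cheb/NV : nonvanishing and the density theorem for cyclic cyclotomic extensions (~450 lines, assembly)

`T = {χ : χ ∘ cyc = 1}`, `N` = the other characters mod `m`, `G = Gal(M/F)`, `|T| |G| = φ(m)` (`card_trivial`).
For `χ ∈ N`: `exists_prime_ne_one` gives `v₀`; `𝔠 = v₀` is prime to `m` (maximal ideal not containing `m`);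
`exists_tendsto_LF` gives `LF χ s → ℓ_χ`; `exists_log` gives `Λ_χ`.
(a) `Re PS χ s ≤ Re Λ_χ s + C = log ‖LF χ s‖ + C ≤ C'` near `1`.
(b) `sum_PS` with `a = 1`, `frobSet_eq` with `g = 1`, `bdd_frobSet_one`, `bddC_PS_trivial`:
    `φ(m)/|G| Lam + O(1) = |T| Lam + ∑_{χ ∈ N} Re PS χ s + O(1)`, so `∑_{χ ∈ N} Re PS χ s = O(1)`.
(c) by (a), (b) every `Re PS χ s`, `χ ∈ N`, is bounded below, so `‖LF χ s‖ ≥ c > 0`, `ℓ_χ ≠ 0`,
    `bounded_of_exp_tendsto`: `Λ_χ` bounded, `PS χ` bounded (`BddC`).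
(d) `sum_PS` with `a = cyc g`, `frobSet_eq`: `φ(m) DS (frobSet g) = |T| Lam + O(1)`.  `finrank F M = |G|`
    (`IsGalois.card_aut_eq_finrank`).
-/

set_option autoImplicit false

open IsDedekindDomain NumberField Filter Topology
open NumberField.mixedEmbedding NumberField.Units NumberField.Units.dirichletUnitTheorem
open NumberField.InfinitePlace
open Fermat.Agent.S14 Fermat.Agent.S14.Dens Fermat.Agent.ES
open scoped Classical nonZeroDivisors

noncomputable section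

namespace Fermat.Agent.Cheb

/-! ### API for `BddC` -/

theorem bddC_iff (f : ℝ → ℂ) : BddC f ↔ f =O[𝓝[>] (1 : ℝ)] (fun _ ↦ (1 : ℝ)) := by
  unfold BddC
  rw [Asymptotics.isBigO_iff]
  simp

theorem BddC.add {f g : ℝ → ℂ} (hf : BddC f) (hg : BddC g) : BddC (fun s ↦ f s + g s) :=
  (bddC_iff _).2 (((bddC_iff _).1 hf).add ((bddC_iff _).1 hg))

theorem BddC.sub {f g : ℝ → ℂ} (hf : BddC f) (hg : BddC g) : BddC (fun s ↦ f s - g s) :=
  (bddC_iff _).2 (((bddC_iff _).1 hf).sub ((bddC_iff _).1 hg))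

theorem BddC.const_mul {f : ℝ → ℂ} (hf : BddC f) (c : ℂ) : BddC (fun s ↦ c * f s) :=
  (bddC_iff _).2 (((bddC_iff _).1 hf).const_mul_left c)

theorem BddC.sum {ι : Type*} {f : ι → ℝ → ℂ} (S : Finset ι) (hf : ∀ i ∈ S, BddC (f i)) :
    BddC (fun s ↦ ∑ i ∈ S, f i s) := by
  induction S using Finset.induction_on with
  | empty => exact ⟨0, Eventually.of_forall fun s ↦ by simp⟩
  | insert i S hi ih =>
    simp only [Finset.sum_insert hi]
    exact (hf i (Finset.mem_insert_self _ _)).add (ih fun j hj ↦ hf j (Finset.mem_insert_of_mem hj))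

theorem BddC.congr' {f g : ℝ → ℂ} (hf : BddC f) (h : ∀ s : ℝ, 1 < s → f s = g s) : BddC g := by
  obtain ⟨C, hC⟩ := hf
  refine ⟨C, ?_⟩
  filter_upwards [hC, self_mem_nhdsWithin] with s hs hs1
  rw [← h s hs1]
  exact hs

theorem bddC_ofReal {f : ℝ → ℝ} : BddC (fun s ↦ (f s : ℂ)) ↔ Bdd f := by
  rw [bdd_iff]
  unfold BddC
  simp only [Complex.norm_real, Real.norm_eq_abs]

variable (m : ℕ) [NeZero m] (F M : Type*) [Field F] [NumberField F] [Field M] [NumberField M]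
  [Algebra F M] [IsCyclotomicExtension {m} F M]

/-- the characters which are trivial on the Galois group -/
def TrivG (χ : DirichletCharacter ℂ m) : Prop := ∀ g : M ≃ₐ[F] M, χ (cyc m F M g : ZMod m) = 1

theorem nvAux_card :
    ((Finset.univ.filter (TrivG m F M)).card : ℝ) * (Module.finrank F M : ℝ) = Nat.totient m := by
  have := cycAux_isGalois m F M
  have h := card_trivial m F M
  have h2 : (Finset.univ.filter (TrivG m F M)).card = Nat.card {χ : DirichletCharacter ℂ m //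
      ∀ g : M ≃ₐ[F] M, χ (cyc m F M g : ZMod m) = 1} := by
    rw [Nat.card_eq_fintype_card, Fintype.card_subtype]
    congr
  rw [IsGalois.card_aut_eq_finrank, ← h2] at h
  exact_mod_cast h

/-- `[M:F] DS {N v = cyc g}` versus `[M:F] DS (frobSet g)` -/
theorem nvAux_frob (g : M ≃ₐ[F] M) :
    Bdd (fun s ↦ (Module.finrank F M : ℝ) * DS (frobSet F g) s - (Module.finrank F M : ℝ) *
      DS {v : Pl F | ((Ideal.absNorm v.asIdeal : ℕ) : ZMod m) = (cyc m F M g : ZMod m)} s) :=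
  ((bdd_DS_frobSet_sub m F M g).const_mul (Module.finrank F M : ℝ)).congr' fun s _ ↦ by ring

theorem nvAux_one :
    Bdd (fun s ↦ (Module.finrank F M : ℝ) *
      DS {v : Pl F | ((Ideal.absNorm v.asIdeal : ℕ) : ZMod m) = ((1 : (ZMod m)ˣ) : ZMod m)} s - Lam s) := by
  have := cycAux_isGalois m F M
  have h1 := nvAux_frob m F M 1
  rw [map_one] at h1
  exact ((bdd_frobSet_one F M).sub h1).congr' fun s _ ↦ by ring

/-- the sum of the trivial characters -/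
theorem nvAux_triv :
    BddC (fun s ↦ ∑ χ ∈ Finset.univ.filter (TrivG m F M), PS F χ s -
      (((Finset.univ.filter (TrivG m F M)).card : ℝ) * Lam s : ℝ)) := by
  have h1 : BddC (fun s ↦ ∑ χ ∈ Finset.univ.filter (TrivG m F M), (PS F χ s - (Lam s : ℂ))) :=
    BddC.sum _ fun χ hχ ↦ bddC_PS_trivial m F M χ (Finset.mem_filter.1 hχ).2
  refine h1.congr' fun s _ ↦ ?_
  rw [Finset.sum_sub_distrib, Finset.sum_const, nsmul_eq_mul]
  push_cast
  rfl

/-- (b) -/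
theorem nvAux_sum :
    BddC (fun s ↦ ∑ χ ∈ Finset.univ.filter (fun χ ↦ ¬ TrivG m F M χ), PS F χ s) := by
  have h1 : BddC (fun s ↦ ((((Finset.univ.filter (TrivG m F M)).card : ℝ) *
      ((Module.finrank F M : ℝ) * DS {v : Pl F | ((Ideal.absNorm v.asIdeal : ℕ) : ZMod m) =
        ((1 : (ZMod m)ˣ) : ZMod m)} s - Lam s) : ℝ) : ℂ)) :=
    bddC_ofReal.2 ((nvAux_one m F M).const_mul _)
  refine (h1.sub (nvAux_triv m F M)).congr' fun s hs ↦ ?_
  have h2 := sum_PS m F (1 : (ZMod m)ˣ) hs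
  rw [← nvAux_card m F M] at h2
  have h3 : ∑ χ : DirichletCharacter ℂ m, χ (((1 : (ZMod m)ˣ)⁻¹ : (ZMod m)ˣ) : ZMod m) * PS F χ s =
      ∑ χ : DirichletCharacter ℂ m, PS F χ s :=
    Finset.sum_congr rfl fun χ _ ↦ by simp
  rw [h3, ← Finset.sum_filter_add_sum_filter_not Finset.univ (TrivG m F M)] at h2
  have h4 : ∑ χ ∈ Finset.univ.filter (fun χ ↦ ¬ TrivG m F M χ), PS F χ s =
      (((Finset.univ.filter (TrivG m F M)).card : ℝ) * (Module.finrank F M : ℝ) *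
        DS {v : Pl F | ((Ideal.absNorm v.asIdeal : ℕ) : ZMod m) = ((1 : (ZMod m)ˣ) : ZMod m)} s : ℝ) -
      ∑ χ ∈ Finset.univ.filter (TrivG m F M), PS F χ s := by
    rw [h2]; ring
  rw [h4]
  push_cast
  ring

/-- the analytic data attached to a non trivial character -/
theorem nvAux_data [IsCyclic (M ≃ₐ[F] M)] (χ : DirichletCharacter ℂ m) (h : ¬ TrivG m F M χ) :
    ∃ (ℓ : ℂ) (Λ : ℝ → ℂ) (C : ℝ), Tendsto (LF F χ) (𝓝[>] 1) (𝓝 ℓ) ∧ ContinuousOn Λ (Set.Ioi 1) ∧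
      (∀ s, 1 < s → Complex.exp (Λ s) = LF F χ s) ∧ ∀ s, 1 < s → ‖Λ s - PS F χ s‖ ≤ C := by
  have h' : ∃ g : M ≃ₐ[F] M, χ (cyc m F M g : ZMod m) ≠ 1 := by
    unfold TrivG at h
    push Not at h
    exact h
  obtain ⟨v, hv, hχ⟩ := exists_prime_ne_one m F M χ h'
  have hcop : IsCoprime v.asIdeal (Ideal.span {(m : 𝓞 F)}) := by
    rw [Ideal.isCoprime_iff_exists]
    obtain ⟨y, i, hi, hyi⟩ := v.isMaximal.exists_inv hv
    exact ⟨i, hi, y * m, Ideal.mem_span_singleton'.2 ⟨y, rfl⟩, by rw [add_comm]; exact hyi⟩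
  obtain ⟨ℓ, hℓ⟩ := exists_tendsto_LF F χ (NeZero.ne m) v.asIdeal v.ne_bot hcop hχ
  obtain ⟨Λ, h1, h2, C, h3⟩ := exists_log F χ
  exact ⟨ℓ, Λ, C, hℓ, h1, h2, h3⟩

/-- (a) -/
theorem nvAux_upper [IsCyclic (M ≃ₐ[F] M)] (χ : DirichletCharacter ℂ m) (h : ¬ TrivG m F M χ) :
    ∃ U : ℝ, ∀ᶠ s in 𝓝[>] (1 : ℝ), (PS F χ s).re ≤ U := by
  obtain ⟨ℓ, Λ, C, hℓ, -, hexp, hC⟩ := nvAux_data m F M χ h
  have h1 : ∀ᶠ s in 𝓝[>] (1 : ℝ), ‖LF F χ s‖ < ‖ℓ‖ + 1 :=
    hℓ.norm.eventually_lt_const (by linarith)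
  refine ⟨Real.log (‖ℓ‖ + 1) + C, ?_⟩
  filter_upwards [h1, self_mem_nhdsWithin] with s hs hs1
  have h2 : Real.exp (Λ s).re < ‖ℓ‖ + 1 := by
    rw [← Complex.norm_exp, hexp s hs1]; exact hs
  have h3 : (Λ s).re < Real.log (‖ℓ‖ + 1) := (Real.lt_log_iff_exp_lt (by positivity)).2 h2
  have h4 : |(Λ s - PS F χ s).re| ≤ C := (Complex.abs_re_le_norm _).trans (hC s hs1)
  rw [Complex.sub_re] at h4
  have := (abs_le.1 h4).1
  linarith

theorem bddC_PS_of_nontrivial [IsCyclic (M ≃ₐ[F] M)] (χ : DirichletCharacter ℂ m)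
    (h : ∃ g : M ≃ₐ[F] M, χ (cyc m F M g : ZMod m) ≠ 1) : BddC (PS F χ) := by
  have hχ : ¬ TrivG m F M χ := fun h' ↦ by
    obtain ⟨g, hg⟩ := h
    exact hg (h' g)
  obtain ⟨ℓ, Λ, C, hℓ, hcont, hexp, hC⟩ := nvAux_data m F M χ hχ
  obtain ⟨N, hN⟩ : ∃ N : Finset (DirichletCharacter ℂ m),
      N = Finset.univ.filter (fun χ ↦ ¬ TrivG m F M χ) := ⟨_, rfl⟩
  have hχN : χ ∈ N := by rw [hN]; exact Finset.mem_filter.2 ⟨Finset.mem_univ _, hχ⟩
  obtain ⟨B, hB⟩ := nvAux_sum m F M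
  rw [← hN] at hB
  have hU : ∀ χ' ∈ N, ∃ U : ℝ, ∀ᶠ s in 𝓝[>] (1 : ℝ), (PS F χ' s).re ≤ U := fun χ' h' ↦
    nvAux_upper m F M χ' (by rw [hN] at h'; exact (Finset.mem_filter.1 h').2)
  choose! U hU using hU
  have hall : ∀ᶠ s in 𝓝[>] (1 : ℝ), ∀ χ' ∈ N.erase χ, (PS F χ' s).re ≤ U χ' :=
    (Finset.eventually_all _).2 fun χ' h' ↦ hU χ' (Finset.mem_of_mem_erase h')
  have hlow : ∀ᶠ s in 𝓝[>] (1 : ℝ), -B - ∑ χ' ∈ N.erase χ, U χ' ≤ (PS F χ s).re := by
    filter_upwards [hB, hall] with s hs hs'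
    have h1 : (∑ χ' ∈ N, PS F χ' s).re = (PS F χ s).re + ∑ χ' ∈ N.erase χ, (PS F χ' s).re := by
      rw [← Finset.add_sum_erase N _ hχN, Complex.add_re, Complex.re_sum]
    have h2 : |(∑ χ' ∈ N, PS F χ' s).re| ≤ B := (Complex.abs_re_le_norm _).trans hs
    have h3 := Finset.sum_le_sum hs'
    have := (abs_le.1 h2).1
    linarith
  obtain ⟨L, hL⟩ : ∃ L : ℝ, L = -B - ∑ χ' ∈ N.erase χ, U χ' - C := ⟨_, rfl⟩
  have hnorm : ∀ᶠ s in 𝓝[>] (1 : ℝ), Real.exp L ≤ ‖LF F χ s‖ := by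
    filter_upwards [hlow, self_mem_nhdsWithin] with s hs hs1
    rw [← hexp s hs1, Complex.norm_exp, Real.exp_le_exp]
    have h4 : |(Λ s - PS F χ s).re| ≤ C := (Complex.abs_re_le_norm _).trans (hC s hs1)
    rw [Complex.sub_re] at h4
    have := (abs_le.1 h4).1
    linarith
  have hℓ0 : ℓ ≠ 0 := by
    have h5 : Real.exp L ≤ ‖ℓ‖ := ge_of_tendsto hℓ.norm hnorm
    intro h0
    rw [h0, norm_zero] at h5
    exact absurd h5 (not_le.2 (Real.exp_pos L))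
  have htend : Tendsto (fun s ↦ Complex.exp (Λ s)) (𝓝[>] 1) (𝓝 ℓ) :=
    hℓ.congr' (by filter_upwards [self_mem_nhdsWithin] with s hs using (hexp s hs).symm)
  obtain ⟨C', hC'⟩ := bounded_of_exp_tendsto Λ hcont ℓ hℓ0 htend
  refine ⟨C' + C, ?_⟩
  filter_upwards [hC', self_mem_nhdsWithin] with s hs hs1
  have : PS F χ s = Λ s - (Λ s - PS F χ s) := by ring
  rw [this]
  exact (norm_sub_le _ _).trans (add_le_add hs (hC s hs1))

include m in
theorem cyclotomic_density [IsCyclic (M ≃ₐ[F] M)] (g : M ≃ₐ[F] M) :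
    Bdd (fun s ↦ (Module.finrank F M : ℝ) * DS (frobSet F g) s - Lam s) := by
  have h1 : BddC (fun s ↦ ((((Finset.univ.filter (TrivG m F M)).card : ℝ) *
      ((Module.finrank F M : ℝ) * DS {v : Pl F | ((Ideal.absNorm v.asIdeal : ℕ) : ZMod m) =
        (cyc m F M g : ZMod m)} s - Lam s) : ℝ) : ℂ)) := by
    have hN : BddC (fun s ↦ ∑ χ ∈ Finset.univ.filter (fun χ ↦ ¬ TrivG m F M χ),
        χ (((cyc m F M g)⁻¹ : (ZMod m)ˣ) : ZMod m) * PS F χ s) :=
      BddC.sum _ fun χ hχ ↦ (bddC_PS_of_nontrivial m F M χ (by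
        have := (Finset.mem_filter.1 hχ).2
        unfold TrivG at this
        push Not at this
        exact this)).const_mul _
    refine ((nvAux_triv m F M).add hN).congr' fun s hs ↦ ?_
    have h2 := sum_PS m F (cyc m F M g) hs
    rw [← nvAux_card m F M, ← Finset.sum_filter_add_sum_filter_not Finset.univ (TrivG m F M)] at h2
    have h3 : ∑ χ ∈ Finset.univ.filter (TrivG m F M),
        χ (((cyc m F M g)⁻¹ : (ZMod m)ˣ) : ZMod m) * PS F χ s =
        ∑ χ ∈ Finset.univ.filter (TrivG m F M), PS F χ s :=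
      Finset.sum_congr rfl fun χ hχ ↦ by
        rw [← map_inv, (Finset.mem_filter.1 hχ).2 g⁻¹, one_mul]
    rw [h3] at h2
    push_cast at h2 ⊢
    linear_combination -h2
  have ht0 : ((Finset.univ.filter (TrivG m F M)).card : ℝ) ≠ 0 := by
    intro h0
    have h := nvAux_card m F M
    rw [h0, zero_mul] at h
    have h5 : (0 : ℝ) < Nat.totient m := by
      exact_mod_cast Nat.totient_pos.2 (Nat.pos_of_ne_zero (NeZero.ne m))
    linarith
  have h4 := Bdd.of_const_mul ht0 (bddC_ofReal.1 h1)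
  exact ((nvAux_frob m F M g).add h4).congr' fun s _ ↦ by ring

end Fermat.Agent.Cheb
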