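import Fermat.Agent.Cheb.Defs

/-!
# Cheb/CYC : Frobenius elements in a cyclotomic extension `M = F(ζ_m)` (~450 lines)

`ζ = zeta m F M`, `g ζ = ζ ^ cyc g` (`IsPrimitiveRoot.autToPow_spec`), `cyc` injective
(`IsPrimitiveRoot.autToPow_injective`), `M/F` Galois (`IsCyclotomicExtension.isGalois`).
Let `v` be a place of `F` with `m ∉ v`, `w ∣ v`.  KEY: the `m`-th roots of unity are distinct mod `w`:
`ζ^a - ζ^b ∈ w ⟹ a ≡ b mod m` (`∏_{0 < i < m} (1 - ζ^i) = m`: `IsPrimitiveRoot.…sub_one…`/`Polynomial.cyclotomic`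
or `X^m - 1` separable over the residue field, as in `S14.resaux_prim` for `m = p`).
* `isUnram_of_notMem`: `σ` in the inertia group of `w` fixes `ζ` mod `w`, so `cyc σ = 1`, `σ = 1`;
  `S14.card_inertia : Nat.card (inertia) = ram F w`.
* `mem_frobSet_iff`: (⟹) `g ζ ≡ ζ^(N v)`.  (⟸) there is a Frobenius element `g'` at `w`
  (Mathlib `AlgHom.IsArithFrobAt`, `IsArithFrobAt.exists_of_isInvariant`/`exists_arithFrobAt...`; or as in
  `ES/FrobFinite.lean`, `ES/FrobGlue.lean`), `cyc g' = N v = cyc g`, so `g' = g`.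
* `frobSet_diff`, `bdd_DS_frobSet_sub` (replace the FALSE `frobSet_eq`): if `(N v : ZMod m)` is a unit then `m ∉ v` (`N v ∈ v`, Bezout).
-/

set_option autoImplicit false

open IsDedekindDomain NumberField Filter Topology
open NumberField.mixedEmbedding NumberField.Units NumberField.Units.dirichletUnitTheorem
open NumberField.InfinitePlace
open Fermat.Agent.S14 Fermat.Agent.S14.Dens Fermat.Agent.ES
open scoped Classical nonZeroDivisors

noncomputable section

namespace Fermat.Agent.Cheb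

variable (m : ℕ) [NeZero m] (F M : Type*) [Field F] [NumberField F] [Field M] [NumberField M]
  [Algebra F M] [IsCyclotomicExtension {m} F M]

/-- the cyclotomic character -/
def cyc : (M ≃ₐ[F] M) →* (ZMod m)ˣ := (IsCyclotomicExtension.zeta_spec m F M).autToPow F

theorem cyc_injective : Function.Injective (cyc m F M) :=
  IsPrimitiveRoot.autToPow_injective F (IsCyclotomicExtension.zeta_spec m F M)

/-! ### roots of unity modulo a prime ideal -/

theorem cycAux_natCast_mem {R : Type*} [CommRing R] [IsDomain R] (P : Ideal R) {N : ℕ} {z : R}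
    (hz : z ^ N = 1) (hz1 : z ≠ 1) (h : 1 - z ∈ P) : (N : R) ∈ P := by
  have h0 : ∑ k ∈ Finset.range N, z ^ k = 0 := by
    have := mul_neg_geom_sum z N
    rw [hz, sub_self] at this
    exact (mul_eq_zero.1 this).resolve_left (sub_ne_zero.2 hz1.symm)
  have h1 : (N : R) = ∑ k ∈ Finset.range N, (1 - z ^ k) := by
    rw [Finset.sum_sub_distrib, h0, sub_zero]
    simp
  rw [h1]
  refine P.sum_mem fun k _ => ?_
  rw [← mul_neg_geom_sum z k]
  exact P.mul_mem_right _ h

/-- the `N`-th roots of unity are distinct modulo a prime not containing `N` -/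
theorem cycAux_eq {R : Type*} [CommRing R] [IsDomain R] (P : Ideal R) [hP : P.IsPrime] {N : ℕ}
    {z : R} (hz : IsPrimitiveRoot z N) (hN : (N : R) ∉ P) {a b : ℕ} (h : z ^ a - z ^ b ∈ P) :
    (a : ZMod N) = (b : ZMod N) := by
  wlog hab : a ≤ b generalizing a b
  · refine (this ?_ (le_of_not_ge hab)).symm
    have := P.neg_mem h
    rwa [neg_sub] at this
  have h1 : z ^ a - z ^ b = z ^ a * (1 - z ^ (b - a)) := by
    rw [mul_sub, mul_one, ← pow_add, Nat.add_sub_cancel' hab]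
  rw [h1] at h
  have h2 : z ^ a ∉ P := by
    intro h3
    apply hP.ne_top
    rw [Ideal.eq_top_iff_one]
    have h4 : (z ^ a) ^ N = 1 := by rw [← pow_mul, mul_comm, pow_mul, hz.pow_eq_one, one_pow]
    have hN0 : N ≠ 0 := by
      rintro rfl
      exact hN (by simp)
    rw [← h4]
    exact P.pow_mem_of_mem h3 N (Nat.pos_of_ne_zero hN0)
  have h3 : 1 - z ^ (b - a) ∈ P := (hP.mem_or_mem h).resolve_left h2
  have h4 : z ^ (b - a) = 1 := by
    by_contra hne
    exact hN (cycAux_natCast_mem P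
      (by rw [← pow_mul, mul_comm, pow_mul, hz.pow_eq_one, one_pow]) hne h3)
  rw [ZMod.natCast_eq_natCast_iff, Nat.modEq_iff_dvd' hab]
  exact hz.dvd_of_pow_eq_one _ h4

/-- `ζ_m` as an integer of `M` -/
def cycZ : 𝓞 M := (IsCyclotomicExtension.zeta_spec m F M).toInteger

theorem cycZ_prim : IsPrimitiveRoot (cycZ m F M) m :=
  (IsCyclotomicExtension.zeta_spec m F M).toInteger_isPrimitiveRoot

theorem gOZ_cycZ (g : M ≃ₐ[F] M) :
    gOZ g (cycZ m F M) = cycZ m F M ^ (cyc m F M g : ZMod m).val := by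
  apply RingOfIntegers.ext
  rw [coe_gOZ]
  have := (IsCyclotomicExtension.zeta_spec m F M).autToPow_spec F g
  simp only [map_pow]
  exact this.symm

omit [IsCyclotomicExtension {m} F M] [NeZero m] in
theorem cycAux_notMem (w : Pl M) (hv : (m : 𝓞 F) ∉ (below (K := F) w).asIdeal) :
    (m : 𝓞 M) ∉ w.asIdeal := by
  intro h
  apply hv
  change algebraMap (𝓞 F) (𝓞 M) (m : 𝓞 F) ∈ w.asIdeal
  rwa [map_natCast]

include m in
theorem cycAux_isGalois : IsGalois F M := IsCyclotomicExtension.isGalois {m} F M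

theorem isUnram_of_notMem (v : Pl F) (hv : (m : 𝓞 F) ∉ v.asIdeal) : IsUnram M v := by
  have := cycAux_isGalois m F M
  rintro w rfl
  rw [← card_inertia (K := F) w]
  have h1 : w.asIdeal.inertia (M ≃ₐ[F] M) = ⊥ := by
    rw [eq_bot_iff]
    intro σ hσ
    have h2 : gOZ σ (cycZ m F M) - cycZ m F M ∈ w.asIdeal := hσ (cycZ m F M)
    rw [gOZ_cycZ] at h2
    have h3 : cycZ m F M ^ (cyc m F M σ : ZMod m).val - cycZ m F M ^ 1 ∈ w.asIdeal := by
      rwa [pow_one]
    have h4 := cycAux_eq w.asIdeal (cycZ_prim m F M) (cycAux_notMem m F M w hv) h3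
    rw [ZMod.natCast_zmod_val, Nat.cast_one] at h4
    have h5 : cyc m F M σ = 1 := Units.ext h4
    exact cyc_injective m F M (h5.trans (map_one _).symm)
  rw [h1, Subgroup.card_bot]

omit [IsCyclotomicExtension {m} F M] [NeZero m] in
/-- existence of Frobenius elements in a Galois extension -/
theorem exists_isFrob [IsGalois F M] (w : Pl M) : ∃ g : M ≃ₐ[F] M, IsFrob F w g := by
  have : Finite (𝓞 M ⧸ w.asIdeal) := resaux_finite w
  obtain ⟨σ, hσ⟩ := IsArithFrobAt.exists_of_isInvariant (𝓞 F) (M ≃ₐ[F] M) w.asIdeal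
  refine ⟨σ, fun x => ?_⟩
  have h1 : Nat.card (𝓞 F ⧸ w.asIdeal.under (𝓞 F)) = Ideal.absNorm (below (K := F) w).asIdeal :=
    resaux_card (below (K := F) w)
  have h2 := hσ x
  rw [h1] at h2
  exact h2

theorem cyc_eq_of_isFrob (w : Pl M) (hv : (m : 𝓞 F) ∉ (below (K := F) w).asIdeal) {g : M ≃ₐ[F] M}
    (hg : IsFrob F w g) :
    ((Ideal.absNorm (below (K := F) w).asIdeal : ℕ) : ZMod m) = (cyc m F M g : ZMod m) := by
  have h1 := hg (cycZ m F M)
  rw [gOZ_cycZ] at h1
  have h2 := cycAux_eq w.asIdeal (cycZ_prim m F M) (cycAux_notMem m F M w hv) h1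
  rw [ZMod.natCast_zmod_val] at h2
  exact h2.symm

theorem mem_frobSet_iff (v : Pl F) (hv : (m : 𝓞 F) ∉ v.asIdeal) (g : M ≃ₐ[F] M) :
    v ∈ frobSet F g ↔ ((Ideal.absNorm v.asIdeal : ℕ) : ZMod m) = (cyc m F M g : ZMod m) := by
  have := cycAux_isGalois m F M
  constructor
  · rintro ⟨_, w, rfl, hw⟩
    exact cyc_eq_of_isFrob m F M w hv hw
  · intro h
    obtain ⟨w, rfl⟩ := fiber_nonempty (Z := M) v
    obtain ⟨g', hg'⟩ := exists_isFrob F M w
    have h1 := cyc_eq_of_isFrob m F M w hv hg'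
    have h2 : g' = g := cyc_injective m F M (Units.ext (h1.symm.trans h))
    exact ⟨isUnram_of_notMem m F M _ hv, w, rfl, h2 ▸ hg'⟩

omit [IsCyclotomicExtension {m} F M] [NumberField M] [Field M] [Algebra F M] in
theorem notMem_of_isUnit (v : Pl F) (h : IsUnit ((Ideal.absNorm v.asIdeal : ℕ) : ZMod m)) :
    (m : 𝓞 F) ∉ v.asIdeal := by
  intro hm
  rw [ZMod.isUnit_iff_coprime] at h
  have h1 := Nat.isCoprime_iff_coprime.2 h
  obtain ⟨a, b, hab⟩ := h1
  apply v.isPrime.ne_top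
  rw [Ideal.eq_top_iff_one]
  have h2 : ((a * (Ideal.absNorm v.asIdeal : ℤ) + b * (m : ℤ) : ℤ) : 𝓞 F) = 1 := by
    rw [hab, Int.cast_one]
  rw [← h2]
  push_cast
  exact v.asIdeal.add_mem (v.asIdeal.mul_mem_left _ (Ideal.absNorm_mem v.asIdeal))
    (v.asIdeal.mul_mem_left _ hm)

omit [IsCyclotomicExtension {m} F M] [NumberField M] [Field M] [Algebra F M] in
theorem isUnit_of_notMem (v : Pl F) (hv : (m : 𝓞 F) ∉ v.asIdeal) :
    IsUnit ((Ideal.absNorm v.asIdeal : ℕ) : ZMod m) := by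
  have := v.isMaximal
  obtain ⟨p, n, hn, hp, hpp, h⟩ := Ideal.exists_prime_and_absNorm_eq_pow v.asIdeal
  rw [ZMod.isUnit_iff_coprime, h]
  refine Nat.Coprime.pow_left _ ((Nat.Prime.coprime_iff_not_dvd hpp).2 ?_)
  rintro ⟨c, rfl⟩
  apply hv
  push_cast
  exact v.asIdeal.mul_mem_right _ hp

omit [IsCyclotomicExtension {m} F M] [NumberField M] [Field M] [Algebra F M] in
/-- only finitely many places divide `m` -/
theorem finite_mem_natCast : {v : Pl F | (m : 𝓞 F) ∈ v.asIdeal}.Finite := by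
  have h0 : Ideal.span {(m : 𝓞 F)} ≠ ⊥ := by
    rw [Ne, Ideal.span_singleton_eq_bot]
    exact Nat.cast_ne_zero.2 (NeZero.ne m)
  refine (Ideal.finite_factors h0).subset fun v hv => ?_
  change v.asIdeal ∣ Ideal.span {(m : 𝓞 F)}
  rw [Ideal.dvd_span_singleton]
  exact hv

/-- (CORRECTED: the places dividing `m` have to be removed: for `M = F` they are all in `frobSet F 1`) -/
theorem frobSet_diff (g : M ≃ₐ[F] M) :
    frobSet F g \ {v : Pl F | (m : 𝓞 F) ∈ v.asIdeal} =
      {v : Pl F | ((Ideal.absNorm v.asIdeal : ℕ) : ZMod m) = (cyc m F M g : ZMod m)} := by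
  ext v
  constructor
  · rintro ⟨h1, h2⟩
    exact (mem_frobSet_iff m F M v h2 g).1 h1
  · intro h
    have hv : (m : 𝓞 F) ∉ v.asIdeal := notMem_of_isUnit m F v (by
      rw [show ((Ideal.absNorm v.asIdeal : ℕ) : ZMod m) = (cyc m F M g : ZMod m) from h]
      exact (cyc m F M g).isUnit)
    exact ⟨(mem_frobSet_iff m F M v hv g).2 h, hv⟩

theorem subset_frobSet (g : M ≃ₐ[F] M) :
    {v : Pl F | ((Ideal.absNorm v.asIdeal : ℕ) : ZMod m) = (cyc m F M g : ZMod m)} ⊆ frobSet F g := by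
  rw [← frobSet_diff]
  exact Set.sdiff_subset

/-- the form of `frobSet_eq` used in `Cheb/NV` -/
theorem bdd_DS_frobSet_sub (g : M ≃ₐ[F] M) :
    Bdd (fun s ↦ DS (frobSet F g) s -
      DS {v : Pl F | ((Ideal.absNorm v.asIdeal : ℕ) : ZMod m) = (cyc m F M g : ZMod m)} s) := by
  refine bdd_DS_sub (subset_frobSet m F M g) ((finite_mem_natCast m F).subset ?_)
  rintro v ⟨h1, h2⟩
  by_contra hv
  exact h2 ((mem_frobSet_iff m F M v hv g).1 h1)

/-- for every `v` prime to `m` there is a Frobenius element -/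
theorem exists_cyc_eq (v : Pl F) (hv : (m : 𝓞 F) ∉ v.asIdeal) :
    ∃ g : M ≃ₐ[F] M, ((Ideal.absNorm v.asIdeal : ℕ) : ZMod m) = (cyc m F M g : ZMod m) := by
  have := cycAux_isGalois m F M
  obtain ⟨w, rfl⟩ := fiber_nonempty (Z := M) v
  obtain ⟨g, hg⟩ := exists_isFrob F M w
  exact ⟨g, cyc_eq_of_isFrob m F M w hv hg⟩

end Fermat.Agent.Cheb
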