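import Fermat.Agent.ES.CyclicInert

/-!
# Chebotarev density theorem (lower bound form) : definitions

Project `Cheb` (= piece P8 of S48).  Everything is built on the S14/ES density library
(`Pl K`, `below`, `ram`, `IsUnram`, `gOZ`, `gPl`, `DS`, `Bdd`, `Lam`, `bdd_split_sub_Lam`,
`bdd_decSet`, `not_bdd_inert`, `bdd_resdeg_ge_two`, ...).

## Blueprint

PART I (analytic): for a Dirichlet character `χ` mod `m` and an ideal `𝔠` prime to `m` with
`χ(N𝔠) ≠ 1`, the series `LF χ s = ∑_I χ(N I) N I ^ (-s)` has a LIMIT for `s → 1+`.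
No counting of ideals with error terms:
* `wgt x = ∏_i tent (ucoord x i)` is a Lipschitz partition of unity for the action of the units on
  the mixed space (`∑_u wgt (u • x) = torsionOrder`), supported in a cone `|x_w| ≥ κ ‖x‖`.  So
  `∑_{I principal, 𝔟 ∣ I} f I = ω⁻¹ ∑_{a ∈ 𝔟} wgt a * f (a)` : a sum over the WHOLE lattice `𝔟`.
* translation comparison: `∑_{a ∈ 𝔟𝔠} |G_s (a + r) - G_s a| ≤ C ∑ ‖a‖ ^ (-d-1)`, uniformly in
  `s ∈ [1,2]`, so `TT 𝔟 s - N𝔠 * TT (𝔟𝔠) s` is continuous on `[1,2]` (representatives `r ∈ m𝔟` of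
  `𝔟/𝔟𝔠`; `χ(N(a + r)) = χ(N a)`).
* summing over the ideal classes: `LF s * (1 - χ(N𝔠) N𝔠 ^ (1-s)) = E s`, `E` continuous on `[1,2]`.

PART II: Euler product, `LF = exp Λ`, `Λ = PS + O(1)`; nonvanishing of the limits from the density of
the completely split primes; `cyclotomic_density`.

PART III: Deuring's reduction (as an inequality) + Chebotarev's field crossing.
-/

set_option autoImplicit false

open IsDedekindDomain NumberField Filter Topology
open NumberField.mixedEmbedding NumberField.Units NumberField.Units.dirichletUnitTheorem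
open NumberField.InfinitePlace
open Fermat.Agent.S14 Fermat.Agent.S14.Dens Fermat.Agent.ES
open scoped Classical

noncomputable section

namespace Fermat.Agent.Cheb

section Frob

variable (K : Type*) [Field K] [NumberField K] {L : Type*} [Field L] [NumberField L] [Algebra K L]

/-- `σ` is a Frobenius element at `w` (relative to `K`) -/
def IsFrob (w : Pl L) (σ : L ≃ₐ[K] L) : Prop :=
  ∀ x : 𝓞 L, gOZ σ x - x ^ Ideal.absNorm (below (K := K) w).asIdeal ∈ w.asIdeal

/-- the places of `K`, unramified in `L`, having `σ` as a Frobenius element -/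
def frobSet (σ : L ≃ₐ[K] L) : Set (Pl K) :=
  {v | IsUnram L v ∧ ∃ w : Pl L, below w = v ∧ IsFrob K w σ}

end Frob

section Fix

variable (L : Type*) [Field L] [NumberField L]

/-- the fixed field of `σ` -/
abbrev fixF (σ : L ≃ₐ[ℚ] L) : IntermediateField ℚ L :=
  IntermediateField.fixedField (Subgroup.zpowers σ)

/-- `σ` as an automorphism over its fixed field -/
def liftF (σ : L ≃ₐ[ℚ] L) : L ≃ₐ[fixF L σ] L :=
  IntermediateField.fixingSubgroupEquiv (fixF L σ)
    ⟨σ, (IntermediateField.le_iff_le _ _).mp le_rfl (Subgroup.mem_zpowers σ)⟩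

@[simp] theorem liftF_apply (σ : L ≃ₐ[ℚ] L) (x : L) : liftF L σ x = σ x := rfl

end Fix

section LSeries

variable (K : Type*) [Field K] [NumberField K] {m : ℕ} (χ : DirichletCharacter ℂ m)

/-- `χ(N I) N I ^ (-s)` -/
def term (s : ℝ) (I : Ideal (𝓞 K)) : ℂ :=
  χ ((Ideal.absNorm I : ℕ) : ZMod m) * (((Ideal.absNorm I : ℝ) ^ (-s) : ℝ) : ℂ)

/-- the `L`-series of `χ ∘ N` -/
def LF (s : ℝ) : ℂ := ∑' I : Ideal (𝓞 K), term K χ s I

/-- the sum over the primes -/
def PS (s : ℝ) : ℂ := ∑' v : Pl K, term K χ s v.asIdeal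

end LSeries

/-- the tent function -/
def tent (t : ℝ) : ℝ := max 0 (1 - |t|)

section Weight

variable (K : Type*) [Field K] [NumberField K]

/-- the coordinates of `logMap x` in the basis given by the fundamental units -/
def ucoord (x : mixedSpace K) (i : Fin (rank K)) : ℝ :=
  ((basisUnitLattice K).ofZLatticeBasis ℝ (unitLattice K)).repr (logMap x) i

/-- the partition of unity -/
def wgt (x : mixedSpace K) : ℝ :=
  if mixedEmbedding.norm x = 0 then 0 else ∏ i, tent (ucoord K x i)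

/-- the sign of the norm -/
def sgnN (x : mixedSpace K) : ℤ :=
  ∏ w : {w : InfinitePlace K // IsReal w}, ((SignType.sign (x.1 w) : SignType) : ℤ)

/-- the cone `|x_w| ≥ κ ‖x‖` -/
def Cone (κ : ℝ) : Set (mixedSpace K) := {x | ∀ w : InfinitePlace K, κ * ‖x‖ ≤ normAtPlace w x}

/-- admissible weights: bounded, supported in a cone, scale invariant Lipschitz condition -/
structure Adm (W : mixedSpace K → ℂ) (κ C : ℝ) : Prop where
  pos : 0 < κ
  le_one : κ ≤ 1
  bdd : ∀ x, ‖W x‖ ≤ 1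
  supp : ∀ x, W x ≠ 0 → x ∈ Cone K κ
  lip : ∀ x y, ‖W x - W y‖ * ‖x‖ ≤ C * ‖x - y‖

/-- `W x * |N x| ^ (-s)` -/
def Gs (W : mixedSpace K → ℂ) (s : ℝ) (x : mixedSpace K) : ℂ :=
  W x * ((mixedEmbedding.norm x ^ (-s) : ℝ) : ℂ)

variable {m : ℕ} (χ : DirichletCharacter ℂ m)

/-- the weight `wgt x * χ(sign N x)` -/
def Wt (x : mixedSpace K) : ℂ := (wgt K x : ℂ) * χ ((sgnN K x : ℤ) : ZMod m)

/-- `χ(N a)` (norm with sign) -/
def chiN (a : 𝓞 K) : ℂ := χ ((Algebra.norm ℤ a : ℤ) : ZMod m)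

/-- the summand of `TT` -/
def tt (s : ℝ) (a : 𝓞 K) : ℂ := chiN K χ a * Gs K (Wt K χ) s (mixedEmbedding K (a : K))

/-- `∑_{a ∈ 𝔟} wgt a * χ(|N a|) |N a| ^ (-s)` -/
def TT (𝔟 : Ideal (𝓞 K)) (s : ℝ) : ℂ := ∑' a : 𝔟, tt K χ s (a : 𝓞 K)

end Weight

end Fermat.Agent.Cheb
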