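import Fermat.Agent.Cheb.FixF
import Fermat.Agent.ES.FrobFinite

/-!
# Cheb/DEU-a : Deuring's reduction, local part (~500 lines)

`E = fixF L σ`, `σ' = liftF L σ`.  `good σ` = places `u` of `E`, unramified in `L`, with Frobenius `σ'`, of residue degree 1 and
unramified over `ℚ`.
* `bdd_frobSet_diff`: `frobSet E σ' \ good σ ⊆ {resdeg ℚ u ≥ 2} ∪ {ram ℚ u ≠ 1}`; `ES.bdd_resdeg_ge_two`; the second set is
  finite (`S14.finite_not_isUnram`, finite fibres `S14.fiber_finite`); `bdd_DS_finite`, `ES.bdd_DS_union`, `ES.bdd_DS_mono`, `DS_diff`.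
* `exists_above`: `w ∣ u` with `IsFrob E w σ'`.  `N u = N v` (`v = u ∩ ℚ`, `S14.absNorm_eq_pow_resdeg`), so `IsFrob ℚ w σ`
  (`gOZ (liftF σ) = gOZ σ` on `𝓞 L`); `ram ℚ w = ram E w * ram ℚ u = 1` (`Ideal.ramificationIdx_algebra_tower`);
  `below_below` (`ES.below_below`).
* `IsFrob.unique`: two Frobenius elements at an unramified `w` differ by an element of the inertia group, which is trivial
  (`S14.card_inertia`).
* `card_stabilizer_eq`: `ES.zpowers_eq_stabilizer_of_frob` (`ES/FrobFinite.lean`).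
* `isUnram_of_ram_eq_one`: Galois conjugates (`S14.exists_gPl_eq`, `S14.ram_gPl`).
-/

set_option autoImplicit false

open IsDedekindDomain NumberField Filter Topology
open NumberField.mixedEmbedding NumberField.Units NumberField.Units.dirichletUnitTheorem
open NumberField.InfinitePlace
open Fermat.Agent.S14 Fermat.Agent.S14.Dens Fermat.Agent.ES
open scoped Classical nonZeroDivisors Pointwise

noncomputable section

namespace Fermat.Agent.Cheb

variable (L : Type*) [Field L] [NumberField L] [IsGalois ℚ L]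

/-- the good places of the fixed field -/
def good (σ : L ≃ₐ[ℚ] L) : Set (Pl (fixF L σ)) :=
  {u | u ∈ frobSet (fixF L σ) (liftF L σ) ∧ resdeg ℚ u = 1 ∧ ram ℚ u = 1}

theorem bdd_frobSet_diff (σ : L ≃ₐ[ℚ] L) :
    Bdd (fun s ↦ DS (frobSet (fixF L σ) (liftF L σ)) s - DS (good L σ) s) := by
  have hsub : good L σ ⊆ frobSet (fixF L σ) (liftF L σ) := fun u hu ↦ hu.1
  have h1 : Bdd (DS {u : Pl (fixF L σ) | 2 ≤ resdeg ℚ u}) := bdd_resdeg_ge_two ℚ
  have h2 : {u : Pl (fixF L σ) | ram ℚ u ≠ 1}.Finite := by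
    refine (finite_below_preimage (K := ℚ) (Z := fixF L σ)
      (finite_not_isUnram (K := ℚ) (Z := fixF L σ))).subset fun u hu ↦ ?_
    exact fun h ↦ hu (h u rfl)
  have h3 := bdd_DS_union h1 (bdd_DS_finite h2)
  have h4 : frobSet (fixF L σ) (liftF L σ) \ good L σ ⊆
      {u : Pl (fixF L σ) | 2 ≤ resdeg ℚ u} ∪ {u : Pl (fixF L σ) | ram ℚ u ≠ 1} := by
    intro u hu
    by_cases hr : ram ℚ u = 1
    · left
      have h5 : resdeg ℚ u ≠ 1 := fun h ↦ hu.2 ⟨hu.1, h, hr⟩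
      have h6 := resdeg_pos (K := ℚ) u
      show 2 ≤ resdeg ℚ u
      omega
    · right
      exact hr
  exact (bdd_DS_mono h4 h3).congr' fun s hs ↦ DS_diff hs hsub

theorem exists_above (σ : L ≃ₐ[ℚ] L) (u : Pl (fixF L σ)) (hu : u ∈ good L σ) :
    ∃ w : Pl L, below (K := fixF L σ) w = u ∧ below (K := ℚ) w = below (K := ℚ) u ∧
      IsFrob ℚ w σ ∧ ram ℚ w = 1 ∧
      Ideal.absNorm u.asIdeal = Ideal.absNorm (below (K := ℚ) u).asIdeal := by
  obtain ⟨⟨hunr, w, hwu, hF⟩, hdeg, hram⟩ := hu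
  have hN : Ideal.absNorm u.asIdeal = Ideal.absNorm (below (K := ℚ) u).asIdeal := by
    rw [absNorm_eq_pow_resdeg (K := ℚ) u, hdeg, pow_one]
  have hb : below (K := ℚ) w = below (K := ℚ) u := by
    rw [← hwu, below_below]
  refine ⟨w, hwu, hb, ?_, ?_, hN⟩
  · intro x
    have h1 := hF x
    rw [hwu, hN, ← hb] at h1
    exact h1
  · have h1 : ram ℚ w = ram ℚ (below (K := fixF L σ) w) * ram (fixF L σ) w :=
      Ideal.ramificationIdx_tower (R := 𝓞 ℚ) (below (K := fixF L σ) w).asIdeal w.asIdeal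
    rw [h1, hwu, hram, hunr w hwu]

theorem IsFrob.unique {w : Pl L} (hw : ram ℚ w = 1) {σ τ : L ≃ₐ[ℚ] L} (hσ : IsFrob ℚ w σ)
    (hτ : IsFrob ℚ w τ) : σ = τ := by
  have hq : Nat.card (𝓞 ℚ ⧸ w.asIdeal.under (𝓞 ℚ)) = Ideal.absNorm (below (K := ℚ) w).asIdeal :=
    resaux_card (below (K := ℚ) w)
  have hF : ∀ φ : L ≃ₐ[ℚ] L, IsFrob ℚ w φ → IsArithFrobAt (𝓞 ℚ) φ w.asIdeal := by
    intro φ hφ x
    rw [hq]
    exact hφ x
  have h1 := (hF σ hσ).mul_inv_mem_inertia (hF τ hτ)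
  have h2 : w.asIdeal.inertia (L ≃ₐ[ℚ] L) = ⊥ := by
    apply Subgroup.eq_bot_of_card_eq
    rw [card_inertia, hw]
  rw [h2, Subgroup.mem_bot] at h1
  exact mul_inv_eq_one.mp h1

theorem card_stabilizer_eq {w : Pl L} (hw : ram ℚ w = 1) {σ : L ≃ₐ[ℚ] L} (hσ : IsFrob ℚ w σ) :
    Nat.card (MulAction.stabilizer (L ≃ₐ[ℚ] L) w.asIdeal) = orderOf σ := by
  rw [← zpowers_eq_stabilizer_of_frob w hw σ hσ, Nat.card_zpowers]

theorem isUnram_of_ram_eq_one {w : Pl L} (hw : ram ℚ w = 1) : IsUnram L (below (K := ℚ) w) := by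
  intro w' hw'
  obtain ⟨σ, rfl⟩ := exists_gPl_eq (K := ℚ) w w' hw'.symm
  rw [ram_gPl, hw]

end Fermat.Agent.Cheb
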