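import Fermat.Agent.Cheb.DeuLoc

/-!
# Cheb/DEU-b : Deuring's reduction as an inequality (~450 lines, from the stubs of DeuLoc.lean)

For `v : Pl ℚ` put `c σ v = #{u ∈ good σ : below u = v}`.
* `fiber_le`: `∑_{σ ∈ C} orderOf σ * c σ v ≤ |G|`.  The map `(σ, u) ↦ w` (`exists_above`) is injective (`u = below w`,
  `σ` = the Frobenius at `w`, `IsFrob.unique`) into the fibre `{w : below w = v}`; `orderOf σ = |stabilizer w|`
  (`card_stabilizer_eq`) `= |G| / #fibre` (`ES.ncard_fiber_eq_index`, `Subgroup.card_mul_index`).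
* `c σ v = 0` for `σ ∈ C` unless `v ∈ X` (`exists_above`, `isUnram_of_ram_eq_one`: `v ∈ frobSet ℚ σ ⊆ X`).
* `DS (good σ) s = ∑'_v c σ v * wt s v` (`N u = N v`; `tsum` over the fibres of `below`, as in `S14.KDaux.hasSum_fib`,
  `ES.tsum_le_of_fiber_bound`).
* so `∑_{σ ∈ C} orderOf σ * DS (good σ) s ≤ |G| DS X s`; finally `bdd_frobSet_diff`.
-/

set_option autoImplicit false

open IsDedekindDomain NumberField Filter Topology
open NumberField.mixedEmbedding NumberField.Units NumberField.Units.dirichletUnitTheorem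
open NumberField.InfinitePlace
open Fermat.Agent.S14 Fermat.Agent.S14.Dens Fermat.Agent.ES
open scoped Classical nonZeroDivisors Pointwise

noncomputable section

namespace Fermat.Agent.Cheb

variable (L : Type*) [Field L] [NumberField L] [IsGalois ℚ L]

omit [IsGalois ℚ L] [NumberField L] [Field L] in
theorem tsum_fiber_le_card {α β : Type*} (Φ S : Set α) (f : α → ℝ) (T : Finset β) (b : β → α)
    (c : ℝ) (hc : 0 ≤ c) (h : ∀ a ∈ Φ, a ∈ S → f a ≤ c ∧ ∃ t ∈ T, b t = a) :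
    ∑' a : Φ, S.indicator f a.1 ≤ T.card * c := by
  refine tsum_le_of_sum_le' (by positivity) fun s => ?_
  calc ∑ a ∈ s, S.indicator f a.1 = ∑ a ∈ s.filter (fun a => a.1 ∈ S), f a.1 := by
        rw [Finset.sum_filter]
        refine Finset.sum_congr rfl fun a _ => ?_
        by_cases ha : a.1 ∈ S
        · rw [Set.indicator_of_mem ha, if_pos ha]
        · rw [Set.indicator_of_notMem ha, if_neg ha]
    _ ≤ ∑ a ∈ s.filter (fun a => a.1 ∈ S), c :=
        Finset.sum_le_sum fun a ha => (h a.1 a.2 (Finset.mem_filter.1 ha).2).1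
    _ = ((s.filter (fun a => a.1 ∈ S)).card : ℝ) * c := by simp
    _ ≤ T.card * c := by
        refine mul_le_mul_of_nonneg_right ?_ hc
        have : (s.filter (fun a => a.1 ∈ S)).card ≤ T.card :=
          calc (s.filter (fun a => a.1 ∈ S)).card
              = ((s.filter (fun a => a.1 ∈ S)).image Subtype.val).card :=
                (Finset.card_image_of_injective _ Subtype.val_injective).symm
            _ ≤ (T.image b).card := by
                refine Finset.card_le_card fun a ha => ?_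
                obtain ⟨a', ha', rfl⟩ := Finset.mem_image.1 ha
                obtain ⟨t, ht, hta⟩ := (h a'.1 a'.2 (Finset.mem_filter.1 ha').2).2
                exact Finset.mem_image.2 ⟨t, ht, hta⟩
            _ ≤ T.card := Finset.card_image_le
        exact_mod_cast this

/-- the places of `L` above `v`, unramified, with Frobenius `σ` -/
def frobFib (v : Pl ℚ) (σ : L ≃ₐ[ℚ] L) : Finset (Pl L) :=
  (fiber_finite (Z := L) v).toFinset.filter fun w => IsFrob ℚ w σ ∧ ram ℚ w = 1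

omit [IsGalois ℚ L] in
theorem mem_frobFib {v : Pl ℚ} {σ : L ≃ₐ[ℚ] L} {w : Pl L} :
    w ∈ frobFib L v σ ↔ below w = v ∧ IsFrob ℚ w σ ∧ ram ℚ w = 1 := by
  simp [frobFib]

theorem orderOf_mul_card_fiber {v : Pl ℚ} {σ : L ≃ₐ[ℚ] L} {w : Pl L} (hw : w ∈ frobFib L v σ) :
    orderOf σ * (fiber_finite (Z := L) v).toFinset.card = Nat.card (L ≃ₐ[ℚ] L) := by
  obtain ⟨hv, hF, hr⟩ := (mem_frobFib L).1 hw
  subst hv
  rw [← card_stabilizer_eq L hr hF, ← Set.ncard_eq_toFinset_card _ (fiber_finite _),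
    ncard_fiber_eq_index (L ≃ₐ[ℚ] L) w, Subgroup.card_mul_index]

theorem sum_orderOf_mul_card_le (C : Finset (L ≃ₐ[ℚ] L)) (v : Pl ℚ) :
    ∑ σ ∈ C, orderOf σ * (frobFib L v σ).card ≤ Nat.card (L ≃ₐ[ℚ] L) := by
  set n := (fiber_finite (Z := L) v).toFinset.card with hn
  have h1 : ∀ σ ∈ C, orderOf σ * (frobFib L v σ).card * n
      = Nat.card (L ≃ₐ[ℚ] L) * (frobFib L v σ).card := by
    intro σ _
    rcases (frobFib L v σ).eq_empty_or_nonempty with h | ⟨w, hw⟩
    · rw [h]; simp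
    · rw [← orderOf_mul_card_fiber L hw]; ring
  have h2 : ∑ σ ∈ C, (frobFib L v σ).card ≤ n := by
    rw [← Finset.card_biUnion]
    · refine Finset.card_le_card fun w hw => ?_
      obtain ⟨σ, _, hσ⟩ := Finset.mem_biUnion.1 hw
      exact (Finset.mem_filter.1 hσ).1
    · intro σ _ τ _ hne
      show Disjoint (frobFib L v σ) (frobFib L v τ)
      rw [Finset.disjoint_left]
      intro w hw hw'
      obtain ⟨-, hF, hr⟩ := (mem_frobFib L).1 hw
      obtain ⟨-, hF', -⟩ := (mem_frobFib L).1 hw'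
      exact hne (IsFrob.unique L hr hF hF')
  have hn0 : 0 < n := by
    obtain ⟨w, hw⟩ := fiber_nonempty (Z := L) v
    exact Finset.card_pos.2 ⟨w, by simpa using hw⟩
  have h3 : (∑ σ ∈ C, orderOf σ * (frobFib L v σ).card) * n ≤ Nat.card (L ≃ₐ[ℚ] L) * n := by
    rw [Finset.sum_mul, Finset.sum_congr rfl h1, ← Finset.mul_sum]
    exact Nat.mul_le_mul_left _ h2
  exact Nat.le_of_mul_le_mul_right h3 hn0

theorem deuring_good (C : Finset (L ≃ₐ[ℚ] L)) (X : Set (Pl ℚ)) (hX : ∀ σ ∈ C, frobSet ℚ σ ⊆ X)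
    {s : ℝ} (hs : 1 < s) :
    ∑ σ ∈ C, (orderOf σ : ℝ) * DS (good L σ) s ≤ (Nat.card (L ≃ₐ[ℚ] L) : ℝ) * DS X s := by
  have h1 : ∀ σ ∈ C, HasSum (fun v : Pl ℚ ↦ (orderOf σ : ℝ) *
      ∑' u : (below (K := ℚ) (Z := fixF L σ)) ⁻¹' {v}, (good L σ).indicator (wt s) u.1)
      ((orderOf σ : ℝ) * DS (good L σ) s) := fun σ _ ↦
    ((summable_ind hs (good L σ)).hasSum.tsum_fiberwise (below (K := ℚ) (Z := fixF L σ))).mul_left _
  have h2 := hasSum_sum h1
  have h3 : HasSum (fun v : Pl ℚ ↦ (Nat.card (L ≃ₐ[ℚ] L) : ℝ) * X.indicator (wt s) v)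
      ((Nat.card (L ≃ₐ[ℚ] L) : ℝ) * DS X s) := (summable_ind hs X).hasSum.mul_left _
  refine hasSum_le (fun v ↦ ?_) h2 h3
  -- the local inequality
  have h4 : ∀ σ ∈ C, (orderOf σ : ℝ) *
      ∑' u : (below (K := ℚ) (Z := fixF L σ)) ⁻¹' {v}, (good L σ).indicator (wt s) u.1
      ≤ (orderOf σ : ℝ) * ((frobFib L v σ).card * wt s v) := by
    intro σ _
    refine mul_le_mul_of_nonneg_left ?_ (Nat.cast_nonneg _)
    refine tsum_fiber_le_card _ _ _ _ (below (K := fixF L σ)) _ (wt_nonneg s v) ?_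
    intro u hu hgood
    have huv : below (K := ℚ) u = v := hu
    obtain ⟨w, hw1, hw2, hw3, hw4, hw5⟩ := exists_above L σ u hgood
    refine ⟨?_, w, (mem_frobFib L).2 ⟨hw2.trans huv, hw3, hw4⟩, hw1⟩
    unfold wt
    rw [hw5, huv]
  refine (Finset.sum_le_sum h4).trans ?_
  by_cases hv : v ∈ X
  · rw [Set.indicator_of_mem hv]
    have h5 := sum_orderOf_mul_card_le L C v
    have h6 : ∑ σ ∈ C, (orderOf σ : ℝ) * ((frobFib L v σ).card * wt s v)
        = ((∑ σ ∈ C, orderOf σ * (frobFib L v σ).card : ℕ) : ℝ) * wt s v := by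
      push_cast
      rw [Finset.sum_mul]
      exact Finset.sum_congr rfl fun σ _ ↦ by ring
    rw [h6]
    exact mul_le_mul_of_nonneg_right (by exact_mod_cast h5) (wt_nonneg s v)
  · rw [Set.indicator_of_notMem hv, mul_zero]
    refine le_of_eq (Finset.sum_eq_zero fun σ hσ ↦ ?_)
    have : frobFib L v σ = ∅ := by
      rw [Finset.eq_empty_iff_forall_notMem]
      intro w hw
      obtain ⟨hwv, hF, hr⟩ := (mem_frobFib L).1 hw
      exact hv (hX σ hσ ⟨hwv ▸ isUnram_of_ram_eq_one L hr, w, hwv, hF⟩)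
    rw [this]
    simp

theorem deuring (C : Finset (L ≃ₐ[ℚ] L)) (X : Set (Pl ℚ)) (hX : ∀ σ ∈ C, frobSet ℚ σ ⊆ X) :
    ∃ B : ℝ, ∀ᶠ s in 𝓝[>] (1 : ℝ),
      ∑ σ ∈ C, (orderOf σ : ℝ) * DS (frobSet (fixF L σ) (liftF L σ)) s ≤
        (Nat.card (L ≃ₐ[ℚ] L) : ℝ) * DS X s + B := by
  have h1 : Bdd (fun s ↦ ∑ σ ∈ C, (orderOf σ : ℝ) *
      (DS (frobSet (fixF L σ) (liftF L σ)) s - DS (good L σ) s)) :=
    Bdd.sum C fun σ _ ↦ (bdd_frobSet_diff L σ).const_mul _
  rw [bdd_iff] at h1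
  obtain ⟨B, hB⟩ := h1
  refine ⟨B, ?_⟩
  filter_upwards [hB, self_mem_nhdsWithin] with s h2 hs
  have h3 := deuring_good L C X hX hs
  have h4 := (abs_le.mp h2).2
  simp only [mul_sub, Finset.sum_sub_distrib] at h4
  linarith

end Fermat.Agent.Cheb
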