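import Fermat.Agent.Cheb.Defs

/-!
# Cheb/REP : every ideal class contains an integral ideal prime to `m` (~120 lines)

`J` integral in the class `C⁻¹` (`ClassGroup.mk0_surjective`); `IsDedekindDomain.exists_sup_span_eq` applied to
`J * (m) ≤ J` gives `a` with `J (m) ⊔ (a) = J`; `a ∈ J`, so `(a) = J * 𝔟` (`Ideal.dvd_iff_le`), `J ((m) ⊔ 𝔟) = J`,
so `𝔟 ⊔ (m) = ⊤`; `[𝔟] = [J]⁻¹ = C` (`ClassGroup.mk0_eq_one_iff`).
-/

set_option autoImplicit false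

open IsDedekindDomain NumberField Filter Topology
open NumberField.mixedEmbedding NumberField.Units NumberField.Units.dirichletUnitTheorem
open NumberField.InfinitePlace
open Fermat.Agent.S14 Fermat.Agent.S14.Dens Fermat.Agent.ES
open scoped Classical nonZeroDivisors

noncomputable section

namespace Fermat.Agent.Cheb

variable (K : Type*) [Field K] [NumberField K]

theorem exists_rep {m : ℕ} (hm : m ≠ 0) (C : ClassGroup (𝓞 K)) :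
    ∃ 𝔟 : (Ideal (𝓞 K))⁰, ClassGroup.mk0 𝔟 = C ∧
      IsCoprime (𝔟 : Ideal (𝓞 K)) (Ideal.span {(m : 𝓞 K)}) := by
  by_cases htop : Ideal.span {(m : 𝓞 K)} = ⊤
  · obtain ⟨𝔟, hb⟩ := ClassGroup.mk0_surjective C
    refine ⟨𝔟, hb, ?_⟩
    rw [htop, Ideal.isCoprime_iff_sup_eq]
    simp
  obtain ⟨J, hJ⟩ := ClassGroup.mk0_surjective C⁻¹
  have hJ0 : (J : Ideal (𝓞 K)) ≠ 0 := nonZeroDivisors.coe_ne_zero J
  have hm0 : (m : 𝓞 K) ≠ 0 := Nat.cast_ne_zero.2 hm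
  have hM0 : Ideal.span {(m : 𝓞 K)} ≠ 0 := by
    intro h
    exact hm0 (Ideal.span_singleton_eq_bot.1 h)
  obtain ⟨a, ha⟩ := IsDedekindDomain.exists_sup_span_eq
    (I := (J : Ideal (𝓞 K)) * Ideal.span {(m : 𝓞 K)}) (J := (J : Ideal (𝓞 K)))
    Ideal.mul_le_left (mul_ne_zero hJ0 hM0)
  have haJ : Ideal.span {a} ≤ (J : Ideal (𝓞 K)) := by
    rw [← ha]; exact le_sup_right
  obtain ⟨𝔟, hb⟩ := Ideal.dvd_iff_le.2 haJ
  have hcop : Ideal.span {(m : 𝓞 K)} ⊔ 𝔟 = ⊤ := by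
    have h1 : (J : Ideal (𝓞 K)) * (Ideal.span {(m : 𝓞 K)} ⊔ 𝔟) = (J : Ideal (𝓞 K)) * ⊤ := by
      rw [Ideal.mul_sup, ← hb, ha, Ideal.mul_top]
    exact mul_left_cancel₀ hJ0 h1
  have hb0 : 𝔟 ≠ 0 := by
    rintro rfl
    apply htop
    simpa using hcop
  have ha0 : a ≠ 0 := by
    rintro rfl
    have : (J : Ideal (𝓞 K)) * 𝔟 = 0 := by
      rw [← hb]; simp
    exact mul_ne_zero hJ0 hb0 this
  refine ⟨⟨𝔟, mem_nonZeroDivisors_of_ne_zero hb0⟩, ?_, ?_⟩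
  · have h2 : ClassGroup.mk0 (⟨𝔟, mem_nonZeroDivisors_of_ne_zero hb0⟩ : (Ideal (𝓞 K))⁰)
        = (ClassGroup.mk0 J)⁻¹ := by
      rw [ClassGroup.mk0_eq_mk0_inv_iff]
      exact ⟨a, ha0, by rw [hb, mul_comm]⟩
    rw [h2, hJ, inv_inv]
  · rw [Ideal.isCoprime_iff_sup_eq, sup_comm]
    exact hcop

end Fermat.Agent.Cheb
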