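import Fermat.Agent.Cheb.DictP
import Fermat.Agent.Cheb.Rep

/-!
# Cheb/D2 : decomposition of the `L`-series according to the ideal classes (~350 lines)

`I ↦ I 𝔠` is a bijection from the nonzero ideals onto the nonzero multiples `𝔞` of `𝔠`; split according to the class
`C` of `𝔞` (`tsum` over a finite partition: `Summable.tsum_sigma'`/`tsum_fintype`, `Equiv.sigmaFiberEquiv`);
`𝔞 ↦ 𝔞 * rep C` is a bijection from `{𝔞 ≠ 0 : [𝔞] = C, 𝔠 ∣ 𝔞}` onto `{J ≠ 0 principal, rep C * 𝔠 ∣ J}`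
(`ClassGroup.mk0_eq_one_iff`, `map_mul`); `term J = term 𝔞 * term (rep C)` (`term_mul`, `term_ne_zero`); `TT_eq`.
-/

set_option autoImplicit false

open IsDedekindDomain NumberField Filter Topology
open NumberField.mixedEmbedding NumberField.Units NumberField.Units.dirichletUnitTheorem
open NumberField.InfinitePlace
open Fermat.Agent.S14 Fermat.Agent.S14.Dens Fermat.Agent.ES
open scoped Classical nonZeroDivisors

noncomputable section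

namespace Fermat.Agent.Cheb

variable (K : Type*) [Field K] [NumberField K] {m : ℕ} (χ : DirichletCharacter ℂ m)

/-- the nonzero ideals `I` with `𝔟 * I` principal -/
def d2_S (𝔟 : Ideal (𝓞 K)) : Set (Ideal (𝓞 K)) := {I | I ≠ ⊥ ∧ (𝔟 * I).IsPrincipal}

/-- `I ↦ 𝔟 * I` -/
def d2_φ (𝔟 : Ideal (𝓞 K)) (h𝔟 : 𝔟 ≠ ⊥) (I : d2_S K 𝔟) :
    {J : Ideal (𝓞 K) // J ≠ ⊥ ∧ J.IsPrincipal ∧ 𝔟 ∣ J} :=
  ⟨𝔟 * I.1, mul_ne_zero h𝔟 I.2.1, I.2.2, Dvd.intro _ rfl⟩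

theorem d2_φ_bijective (𝔟 : Ideal (𝓞 K)) (h𝔟 : 𝔟 ≠ ⊥) : Function.Bijective (d2_φ K 𝔟 h𝔟) := by
  constructor
  · intro I J h
    have h1 : 𝔟 * I.1 = 𝔟 * J.1 := congrArg Subtype.val h
    exact Subtype.ext (mul_left_cancel₀ h𝔟 h1)
  · rintro ⟨J, hJ0, hJp, I, rfl⟩
    exact ⟨⟨I, right_ne_zero_of_mul hJ0, hJp⟩, rfl⟩

theorem d2_tsum (𝔟 : Ideal (𝓞 K)) (h𝔟 : 𝔟 ≠ ⊥) (s : ℝ) :
    ∑' J : {J : Ideal (𝓞 K) // J ≠ ⊥ ∧ J.IsPrincipal ∧ 𝔟 ∣ J}, term K χ s J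
      = ∑' I : d2_S K 𝔟, term K χ s (𝔟 * I.1) :=
  ((Equiv.ofBijective _ (d2_φ_bijective K 𝔟 h𝔟)).tsum_eq
    (fun J : {J : Ideal (𝓞 K) // J ≠ ⊥ ∧ J.IsPrincipal ∧ 𝔟 ∣ J} => term K χ s J)).symm

theorem d2_mem_iff (rep : ClassGroup (𝓞 K) → (Ideal (𝓞 K))⁰)
    (hrep : ∀ C, ClassGroup.mk0 (rep C) = C⁻¹) (I' : (Ideal (𝓞 K))⁰) (C : ClassGroup (𝓞 K)) :
    ((rep C : Ideal (𝓞 K)) * (I' : Ideal (𝓞 K))).IsPrincipal ↔ C = ClassGroup.mk0 I' := by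
  have h1 : ((rep C : Ideal (𝓞 K)) * (I' : Ideal (𝓞 K))) = ((rep C * I' : (Ideal (𝓞 K))⁰) : Ideal (𝓞 K)) :=
    rfl
  rw [h1, ← ClassGroup.mk0_eq_one_iff (rep C * I').2, Subtype.coe_eta, map_mul, hrep,
    inv_mul_eq_one]

theorem tsum_term_mul (hm : m ≠ 0) (rep : ClassGroup (𝓞 K) → (Ideal (𝓞 K))⁰)
    (hrep : ∀ C, ClassGroup.mk0 (rep C) = C⁻¹)
    (hcop : ∀ C, IsCoprime (rep C : Ideal (𝓞 K)) (Ideal.span {(m : 𝓞 K)}))
    (𝔠 : Ideal (𝓞 K)) (h𝔠 : 𝔠 ≠ ⊥) {s : ℝ} (hs : 1 < s) :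
    ∑' I : Ideal (𝓞 K), term K χ s (I * 𝔠) =
      ∑ C : ClassGroup (𝓞 K), (term K χ s (rep C : Ideal (𝓞 K)))⁻¹ * (torsionOrder K : ℂ)⁻¹ *
        TT K χ ((rep C : Ideal (𝓞 K)) * 𝔠) s := by
  have hs0 : s ≠ 0 := by linarith
  have hrep0 : ∀ C, (rep C : Ideal (𝓞 K)) ≠ ⊥ := fun C => nonZeroDivisors.coe_ne_zero _
  have hω : (torsionOrder K : ℂ) ≠ 0 := Nat.cast_ne_zero.2 (torsionOrder_ne_zero K)
  let f : Ideal (𝓞 K) → ℂ := fun I => term K χ s (I * 𝔠)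
  have hfs : Summable f :=
    (summable_term K χ hs).comp_injective (fun I J h => mul_right_cancel₀ h𝔠 h)
  have hpart : ∀ I, f I = ∑ C, (d2_S K ((rep C : Ideal (𝓞 K)) * 𝔠)).indicator f I := by
    intro I
    by_cases hI : I = ⊥
    · subst hI
      have h0 : f ⊥ = 0 := by
        simp only [f]
        rw [Ideal.bot_mul, term_bot K χ hs0]
      rw [h0]
      symm
      refine Finset.sum_eq_zero fun C _ => ?_
      exact Set.indicator_of_notMem (fun h => h.1 rfl) _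
    · let I' : (Ideal (𝓞 K))⁰ := ⟨𝔠 * I, mem_nonZeroDivisors_of_ne_zero (mul_ne_zero h𝔠 hI)⟩
      have hmem : ∀ C, I ∈ d2_S K ((rep C : Ideal (𝓞 K)) * 𝔠) ↔ C = ClassGroup.mk0 I' := by
        intro C
        rw [← d2_mem_iff K rep hrep I' C]
        simp only [d2_S, Set.mem_ofPred_eq, I', mul_assoc]
        exact and_iff_right hI
      rw [Finset.sum_eq_single (ClassGroup.mk0 I')]
      · rw [Set.indicator_of_mem ((hmem _).2 rfl)]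
      · intro C _ hC
        exact Set.indicator_of_notMem (fun h => hC ((hmem C).1 h)) _
      · intro h
        exact absurd (Finset.mem_univ _) h
  have h1 : ∑' I : Ideal (𝓞 K), f I
      = ∑ C, ∑' I, (d2_S K ((rep C : Ideal (𝓞 K)) * 𝔠)).indicator f I := by
    rw [← Summable.tsum_finsetSum (fun C _ => hfs.indicator _)]
    exact tsum_congr hpart
  change ∑' I : Ideal (𝓞 K), f I = _
  rw [h1]
  refine Finset.sum_congr rfl fun C _ => ?_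
  have ht : term K χ s (rep C : Ideal (𝓞 K)) ≠ 0 := term_ne_zero K χ s (hcop C) (hrep0 C)
  rw [TT_eq K χ _ hs, d2_tsum K χ _ (mul_ne_zero (hrep0 C) h𝔠), ← tsum_subtype]
  have h2 : ∀ I : d2_S K ((rep C : Ideal (𝓞 K)) * 𝔠),
      term K χ s ((rep C : Ideal (𝓞 K)) * 𝔠 * I.1) = term K χ s (rep C : Ideal (𝓞 K)) * f I.1 := by
    intro I
    simp only [f]
    rw [mul_assoc, term_mul, mul_comm 𝔠]
  rw [tsum_congr h2, tsum_mul_left]
  field_simp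

end Fermat.Agent.Cheb
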