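import Fermat.Agent.Cheb.WBasic

/-!
# Cheb/W1 : `∑_u wgt (u • x) = torsionOrder K` (~250 lines)

Mathlib: `CanonicalEmbedding/FundamentalCone.lean` (`logMap_unit_smul`, `logMap_eq_logEmbedding`,
`norm_unit_smul`), `Units/DirichletTheorem.lean` (`basisUnitLattice`, `logEmbedding_fundSystem`,
`exist_unique_eq_mul_prod`, `fun_eq_repr`).
`u = ζ ∏ fundSystem i ^ e i` gives an equivalence `(𝓞 K)ˣ ≃ torsion K × (Fin (rank K) → ℤ)`;
`ucoord (u • x) i = ucoord x i + e i` (`Basis.ofZLatticeBasis_repr_apply`); `hasSum_prod_tent`;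
`HasSum.prod_fiberwise` / `hasSum_fintype` over the torsion; `torsionOrder K = card (torsion K)`.
-/

set_option autoImplicit false

open IsDedekindDomain NumberField Filter Topology
open NumberField.mixedEmbedding NumberField.Units NumberField.Units.dirichletUnitTheorem
open NumberField.InfinitePlace
open Fermat.Agent.S14 Fermat.Agent.S14.Dens Fermat.Agent.ES
open scoped Classical nonZeroDivisors

noncomputable section

namespace Fermat.Agent.Cheb

variable (K : Type*) [Field K] [NumberField K]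

/-- the parametrisation of the units by the Dirichlet unit theorem -/
def unitEquiv : torsion K × (Fin (rank K) → ℤ) ≃ (𝓞 K)ˣ :=
  Equiv.ofBijective (fun ζe => (ζe.1 : (𝓞 K)ˣ) * ∏ i, fundSystem K i ^ ζe.2 i) <| by
    rw [Function.bijective_iff_existsUnique]
    intro u
    simpa only [eq_comm] using exist_unique_eq_mul_prod K u

theorem unitEquiv_apply (ζe : torsion K × (Fin (rank K) → ℤ)) :
    unitEquiv K ζe = (ζe.1 : (𝓞 K)ˣ) * ∏ i, fundSystem K i ^ ζe.2 i := rfl

theorem logEmbedding_unitEquiv (ζe : torsion K × (Fin (rank K) → ℤ)) :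
    logEmbedding K (Additive.ofMul (unitEquiv K ζe)) =
      ∑ i, (ζe.2 i : ℝ) • ((basisUnitLattice K).ofZLatticeBasis ℝ (unitLattice K)) i := by
  rw [unitEquiv_apply, ofMul_mul, map_add, ofMul_prod, map_sum,
    (logEmbedding_eq_zero_iff (K := K)).mpr ζe.1.2, zero_add]
  refine Finset.sum_congr rfl fun i _ => ?_
  rw [ofMul_zpow, map_zsmul, logEmbedding_fundSystem, Module.Basis.ofZLatticeBasis_apply,
    Int.cast_smul_eq_zsmul]

theorem ucoord_unitEquiv_smul (ζe : torsion K × (Fin (rank K) → ℤ)) (x : mixedSpace K)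
    (hx : mixedEmbedding.norm x ≠ 0) (i : Fin (rank K)) :
    ucoord K (unitEquiv K ζe • x) i = ucoord K x i + ζe.2 i := by
  unfold ucoord
  rw [logMap_unit_smul _ hx, logEmbedding_unitEquiv, map_add, Finsupp.add_apply,
    Module.Basis.repr_sum_self, add_comm]

omit [NumberField K] [Field K] in
theorem hasSum_wgt_aux0 {T ι : Type*} [Finite T] [Fintype ι] (y : ι → ℝ) :
    HasSum (fun ζe : T × (ι → ℤ) ↦ ∏ i, tent (y i + ζe.2 i)) (Nat.card T) := by
  have : Fintype T := Fintype.ofFinite _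
  have h1 : HasSum (fun _ : T => (1 : ℝ)) (Nat.card T) := by
    have := hasSum_fintype (fun _ : T => (1 : ℝ))
    simpa [Nat.card_eq_fintype_card] using this
  have h2 := hasSum_prod_tent y
  have h3 := h1.mul h2 (Summable.mul_of_nonneg h1.summable h2.summable (fun _ => zero_le_one)
    fun e => Finset.prod_nonneg fun i _ => tent_nonneg _)
  simpa using h3

theorem hasSum_wgt_aux (y : Fin (rank K) → ℝ) :
    HasSum (fun ζe : torsion K × (Fin (rank K) → ℤ) ↦ ∏ i, tent (y i + ζe.2 i))
      (torsionOrder K) :=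
  hasSum_wgt_aux0 y

theorem hasSum_wgt_units (x : mixedSpace K) (hx : mixedEmbedding.norm x ≠ 0) :
    HasSum (fun u : (𝓞 K)ˣ ↦ wgt K (u • x)) (torsionOrder K) := by
  rw [← (unitEquiv K).hasSum_iff]
  have h3 := hasSum_wgt_aux K (fun i => ucoord K x i)
  have e : (fun u : (𝓞 K)ˣ ↦ wgt K (u • x)) ∘ (unitEquiv K) =
      fun ζe : torsion K × (Fin (rank K) → ℤ) ↦ ∏ i, tent (ucoord K x i + ζe.2 i) := by
    funext ζe
    rw [Function.comp_apply, wgt_of_norm_ne_zero K (by rwa [norm_unit_smul])]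
    exact Finset.prod_congr rfl fun i _ => by rw [ucoord_unitEquiv_smul K ζe x hx i]
  rw [e]
  exact h3

end Fermat.Agent.Cheb
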