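import Fermat.Agent.Cheb.Term
import Fermat.Agent.Cheb.WUnits

/-!
# Cheb/D1 : sums over principal ideals = weighted sums over lattice points (~400 lines)

Group the `a ∈ 𝔟`, `a ≠ 0` according to `I = (a)`; the fibre over `(a₀)` is `{u a₀}`, `u ∈ (𝓞 K)ˣ` (free action:
`Ideal.span_singleton_eq_span_singleton`, `Associated`), `mixedEmbedding (u a₀) = u • mixedEmbedding a₀`
(`unitSMul_smul`), `hasSum_wgt_units`, `tt_eq`.  (`HasSum.sigma`, `Equiv.sigmaFiberEquiv`; everything is dominated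
by the nonnegative family `wgt a * N(a)^(-s)`, whose summability follows from `summable_sigma_of_nonneg` and
`S14.Analytic.hasSum_ideal`.)  `𝔟 ∣ (a) ↔ a ∈ 𝔟` (`Ideal.dvd_span_singleton`).  The term `a = 0` vanishes.
-/

set_option autoImplicit false

open IsDedekindDomain NumberField Filter Topology
open NumberField.mixedEmbedding NumberField.Units NumberField.Units.dirichletUnitTheorem
open NumberField.InfinitePlace
open Fermat.Agent.S14 Fermat.Agent.S14.Dens Fermat.Agent.ES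
open scoped Classical nonZeroDivisors

noncomputable section

namespace Fermat.Agent.Cheb

variable (K : Type*) [Field K] [NumberField K] {m : ℕ} (χ : DirichletCharacter ℂ m)

/-- the index set: nonzero principal multiples of `𝔟` -/
abbrev d1_P (𝔟 : Ideal (𝓞 K)) : Type _ :=
  {I : Ideal (𝓞 K) // I ≠ ⊥ ∧ I.IsPrincipal ∧ 𝔟 ∣ I}

/-- a generator -/
def d1_gen {𝔟 : Ideal (𝓞 K)} (I : d1_P K 𝔟) : 𝓞 K := I.2.2.1.principal.choose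

theorem d1_span_gen {𝔟 : Ideal (𝓞 K)} (I : d1_P K 𝔟) : Ideal.span {d1_gen K I} = I.1 :=
  I.2.2.1.principal.choose_spec.symm

theorem d1_gen_ne_zero {𝔟 : Ideal (𝓞 K)} (I : d1_P K 𝔟) : d1_gen K I ≠ 0 := by
  intro h
  apply I.2.1
  rw [← d1_span_gen K I, h, Ideal.span_singleton_eq_bot]

theorem d1_gen_mem {𝔟 : Ideal (𝓞 K)} (I : d1_P K 𝔟) : d1_gen K I ∈ 𝔟 := by
  rw [← Ideal.dvd_span_singleton, d1_span_gen K I]
  exact I.2.2.2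

/-- `(I, u) ↦ u * gen I` -/
def d1_Φ (𝔟 : Ideal (𝓞 K)) (x : d1_P K 𝔟 × (𝓞 K)ˣ) : 𝔟 :=
  ⟨(x.2 : 𝓞 K) * d1_gen K x.1, 𝔟.mul_mem_left _ (d1_gen_mem K x.1)⟩

theorem d1_span_Φ (𝔟 : Ideal (𝓞 K)) (x : d1_P K 𝔟 × (𝓞 K)ˣ) :
    Ideal.span {((d1_Φ K 𝔟 x : 𝔟) : 𝓞 K)} = x.1.1 := by
  rw [← d1_span_gen K x.1]
  exact Ideal.span_singleton_mul_left_unit x.2.isUnit _

theorem d1_Φ_injective (𝔟 : Ideal (𝓞 K)) : Function.Injective (d1_Φ K 𝔟) := by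
  rintro ⟨I, u⟩ ⟨I', u'⟩ h
  have h1 : I = I' := by
    apply Subtype.ext
    rw [← d1_span_Φ K 𝔟 (I, u), ← d1_span_Φ K 𝔟 (I', u'), h]
  subst h1
  have h2 : (u : 𝓞 K) * d1_gen K I = (u' : 𝓞 K) * d1_gen K I := congrArg Subtype.val h
  have h3 := mul_right_cancel₀ (d1_gen_ne_zero K I) h2
  rw [Units.ext h3]

theorem d1_mem_range (𝔟 : Ideal (𝓞 K)) (a : 𝔟) (ha : (a : 𝓞 K) ≠ 0) :
    a ∈ Set.range (d1_Φ K 𝔟) := by
  let I : d1_P K 𝔟 := ⟨Ideal.span {(a : 𝓞 K)}, by rwa [Ne, Ideal.span_singleton_eq_bot],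
    ⟨⟨(a : 𝓞 K), rfl⟩⟩, Ideal.dvd_span_singleton.mpr a.2⟩
  have h1 : Ideal.span {d1_gen K I} = Ideal.span {(a : 𝓞 K)} := d1_span_gen K I
  obtain ⟨u, hu⟩ := Ideal.span_singleton_eq_span_singleton.mp h1
  exact ⟨(I, u), Subtype.ext (by show (u : 𝓞 K) * d1_gen K I = a; rw [mul_comm]; exact hu)⟩

theorem d1_tt_zero {s : ℝ} (hs : s ≠ 0) : tt K χ s 0 = 0 := by
  rw [tt_eq K χ hs, wgt_of_norm_eq_zero K (by simp), Complex.ofReal_zero, zero_mul]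

theorem d1_norm_ne_zero {a : 𝓞 K} (ha : a ≠ 0) :
    mixedEmbedding.norm (mixedEmbedding K (a : K)) ≠ 0 := by
  rw [mixedEmbedding.norm_eq_norm]
  simpa using ha

theorem d1_tt_Φ (𝔟 : Ideal (𝓞 K)) {s : ℝ} (hs : s ≠ 0) (x : d1_P K 𝔟 × (𝓞 K)ˣ) :
    tt K χ s (d1_Φ K 𝔟 x : 𝔟) =
      ((wgt K (x.2 • mixedEmbedding K (d1_gen K x.1 : K)) : ℝ) : ℂ) * term K χ s x.1.1 := by
  rw [tt_eq K χ hs, d1_span_Φ, unitSMul_smul, ← map_mul]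
  rfl

theorem d1_summable_aux (𝔟 : Ideal (𝓞 K)) {s : ℝ} (hs : 1 < s) :
    Summable fun x : d1_P K 𝔟 × (𝓞 K)ˣ ↦
      wgt K (x.2 • mixedEmbedding K (d1_gen K x.1 : K)) * (Ideal.absNorm x.1.1 : ℝ) ^ (-s) := by
  rw [summable_prod_of_nonneg (fun x ↦ mul_nonneg (wgt_nonneg K _) (by positivity))]
  have h1 : ∀ I : d1_P K 𝔟, HasSum (fun u : (𝓞 K)ˣ ↦
      wgt K (u • mixedEmbedding K (d1_gen K I : K)) * (Ideal.absNorm I.1 : ℝ) ^ (-s))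
      ((torsionOrder K : ℝ) * (Ideal.absNorm I.1 : ℝ) ^ (-s)) := fun I ↦
    (hasSum_wgt_units K _ (d1_norm_ne_zero K (d1_gen_ne_zero K I))).mul_right _
  refine ⟨fun I ↦ (h1 I).summable, ?_⟩
  have h2 : (fun I : d1_P K 𝔟 ↦ ∑' u : (𝓞 K)ˣ,
      wgt K (u • mixedEmbedding K (d1_gen K I : K)) * (Ideal.absNorm I.1 : ℝ) ^ (-s)) =
      fun I : d1_P K 𝔟 ↦ (torsionOrder K : ℝ) * (Ideal.absNorm I.1 : ℝ) ^ (-s) :=
    funext fun I ↦ (h1 I).tsum_eq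
  show Summable (fun I : d1_P K 𝔟 ↦ ∑' u : (𝓞 K)ˣ,
      wgt K (u • mixedEmbedding K (d1_gen K I : K)) * (Ideal.absNorm I.1 : ℝ) ^ (-s))
  rw [h2]
  exact ((Analytic.hasSum_ideal K hs).summable.comp_injective
    (i := fun I : d1_P K 𝔟 ↦ I.1) Subtype.val_injective).mul_left _

theorem d1_summable_Φ (𝔟 : Ideal (𝓞 K)) {s : ℝ} (hs : 1 < s) :
    Summable fun x : d1_P K 𝔟 × (𝓞 K)ˣ ↦ tt K χ s (d1_Φ K 𝔟 x : 𝔟) := by
  refine Summable.of_norm_bounded (d1_summable_aux K 𝔟 hs) fun x ↦ ?_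
  rw [d1_tt_Φ K χ 𝔟 (by linarith), norm_mul, Complex.norm_real,
    Real.norm_of_nonneg (wgt_nonneg K _)]
  exact mul_le_mul_of_nonneg_left (norm_term_le K χ s _) (wgt_nonneg K _)

theorem summable_tt (𝔟 : Ideal (𝓞 K)) {s : ℝ} (hs : 1 < s) :
    Summable fun a : 𝔟 ↦ tt K χ s (a : 𝓞 K) := by
  refine ((d1_Φ_injective K 𝔟).summable_iff fun a ha ↦ ?_).mp (d1_summable_Φ K χ 𝔟 hs)
  have h0 : (a : 𝓞 K) = 0 := by
    by_contra h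
    exact ha (d1_mem_range K 𝔟 a h)
  rw [h0]
  exact d1_tt_zero K χ (by linarith)

theorem TT_eq (𝔟 : Ideal (𝓞 K)) {s : ℝ} (hs : 1 < s) :
    TT K χ 𝔟 s = (torsionOrder K : ℂ) *
      ∑' I : {I : Ideal (𝓞 K) // I ≠ ⊥ ∧ I.IsPrincipal ∧ 𝔟 ∣ I}, term K χ s I := by
  have hs0 : s ≠ 0 := by linarith
  have e1 : ∑' x : d1_P K 𝔟 × (𝓞 K)ˣ, tt K χ s (d1_Φ K 𝔟 x : 𝔟) = TT K χ 𝔟 s := by
    refine (d1_Φ_injective K 𝔟).tsum_eq (f := fun a : 𝔟 ↦ tt K χ s (a : 𝓞 K)) fun a ha ↦ ?_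
    refine d1_mem_range K 𝔟 a fun h0 ↦ ha ?_
    show tt K χ s (a : 𝓞 K) = 0
    rw [h0]
    exact d1_tt_zero K χ hs0
  have h1 : ∀ I : d1_P K 𝔟, HasSum (fun u : (𝓞 K)ˣ ↦ tt K χ s (d1_Φ K 𝔟 (I, u) : 𝔟))
      ((torsionOrder K : ℂ) * term K χ s I.1) := by
    intro I
    have h := (hasSum_wgt_units K _ (d1_norm_ne_zero K (d1_gen_ne_zero K I)))
    have h' := (Complex.hasSum_ofReal.mpr h).mul_right (term K χ s I.1)
    rw [Complex.ofReal_natCast] at h'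
    have e : (fun u : (𝓞 K)ˣ ↦ tt K χ s (d1_Φ K 𝔟 (I, u) : 𝔟)) = fun u : (𝓞 K)ˣ ↦
        ((wgt K (u • mixedEmbedding K (d1_gen K I : K)) : ℝ) : ℂ) * term K χ s I.1 :=
      funext fun u ↦ d1_tt_Φ K χ 𝔟 hs0 (I, u)
    rw [e]
    exact h'
  have h2 := (d1_summable_Φ K χ 𝔟 hs).hasSum.prod_fiberwise h1
  rw [← e1, ← h2.tsum_eq, tsum_mul_left]

end Fermat.Agent.Cheb
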