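import Fermat.Agent.Cheb.WCone

/-!
# Cheb/EST : the translation estimate for `G_s x = W x * |N x| ^ (-s)` (real analysis)

`d = [K:ℚ] = ∑_w mult w`, `N x = ∏_w |x_w| ^ mult w`, `‖x‖ = max_w |x_w|` (`norm_eq_sup'_normAtPlace`).
Take `R = 4 (d+1) ‖r‖ / κ + 1`, `y = x + r`, `‖x‖ ≥ R`.  If `W x = W y = 0` nothing to prove.  Otherwise `x` or `y`
is in `Cone κ`, hence `|x_w|, |y_w| ≥ κ/2 ‖x‖` for all `w`, `N y ≥ (κ/2)^d ‖x‖^d`,
`|log N x - log N y| ≤ d ‖r‖ / (κ/2 ‖x‖)`, `|exp t - 1| ≤ 2 |t|` for `|t| ≤ 1`, so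
`|N x ^(-s) - N y ^(-s)| ≤ C₁ ‖x‖^(-d-1)` for `s ∈ [1,2]`, `‖x‖ ≥ 1`;
`|W x - W y| N y ^(-s) ≤ C ‖r‖ / ‖x‖ * (κ/2)^(-2d) ‖x‖^(-d)`.

NOTE (lead): `continuous_Gs` needs `W 0 = 0` (otherwise `s ↦ W 0 * 0 ^ (-s)` jumps at `s = 0`); `Wt_zero` provides it.
-/

set_option autoImplicit false

open IsDedekindDomain NumberField Filter Topology
open NumberField.mixedEmbedding NumberField.Units NumberField.Units.dirichletUnitTheorem
open NumberField.InfinitePlace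
open Fermat.Agent.S14 Fermat.Agent.S14.Dens Fermat.Agent.ES
open scoped Classical

noncomputable section

namespace Fermat.Agent.Cheb

variable (K : Type*) [Field K] [NumberField K]

theorem est_normAtPlace_le (w : InfinitePlace K) (x : mixedSpace K) : normAtPlace w x ≤ ‖x‖ := by
  rw [norm_eq_sup'_normAtPlace]
  exact Finset.le_sup' (fun w ↦ normAtPlace w x) (Finset.mem_univ w)

theorem Wt_zero {m : ℕ} (χ : DirichletCharacter ℂ m) : Wt K χ 0 = 0 := by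
  have : wgt K (0 : mixedSpace K) = 0 := by
    unfold wgt
    rw [if_pos (map_zero _)]
  simp [Wt, this]

theorem est_norm_pos {κ : ℝ} (hκ : 0 < κ) {x : mixedSpace K} (hx : x ∈ Cone K κ) (h0 : x ≠ 0) :
    0 < mixedEmbedding.norm x := by
  rw [mixedEmbedding.norm_apply]
  refine Finset.prod_pos fun w _ => pow_pos ?_ _
  exact lt_of_lt_of_le (mul_pos hκ (norm_pos_iff.mpr h0)) (hx w)

theorem continuous_Gs {W : mixedSpace K → ℂ} {κ C : ℝ} (hW : Adm K W κ C) (h0 : W 0 = 0)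
    (x : mixedSpace K) : Continuous fun s : ℝ ↦ Gs K W s x := by
  by_cases hx : W x = 0
  · simp only [Gs, hx, zero_mul]; exact continuous_const
  · have hx0 : x ≠ 0 := fun h => hx (h ▸ h0)
    have hpos := est_norm_pos K hW.pos (hW.supp x hx) hx0
    unfold Gs
    refine continuous_const.mul (Complex.continuous_ofReal.comp ?_)
    exact (Real.continuous_const_rpow hpos.ne').comp continuous_neg

/-- `|log a - log b| ≤ |a - b| / m` for `a, b ≥ m > 0` -/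
theorem est_abs_log_sub_le {a b m : ℝ} (hm : 0 < m) (ha : m ≤ a) (hb : m ≤ b) :
    |Real.log a - Real.log b| ≤ |a - b| / m := by
  have ha0 : 0 < a := lt_of_lt_of_le hm ha
  have hb0 : 0 < b := lt_of_lt_of_le hm hb
  have key : ∀ {a b : ℝ}, 0 < a → m ≤ b → Real.log a - Real.log b ≤ |a - b| / m := by
    intro a b ha0 hb
    have hb0 : 0 < b := lt_of_lt_of_le hm hb
    rw [← Real.log_div ha0.ne' hb0.ne']
    have h1 := Real.log_le_sub_one_of_pos (div_pos ha0 hb0)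
    have h2 : a / b - 1 = (a - b) / b := by field_simp
    rw [h2] at h1
    refine h1.trans ?_
    calc (a - b) / b ≤ |a - b| / b := div_le_div_of_nonneg_right (le_abs_self _) hb0.le
      _ ≤ |a - b| / m := div_le_div_of_nonneg_left (abs_nonneg _) hm hb
  rw [abs_le]
  constructor
  · have := key hb0 ha
    rw [abs_sub_comm] at this
    linarith
  · exact key ha0 hb

theorem est_abs_normAtPlace_sub_le (w : InfinitePlace K) (x r : mixedSpace K) :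
    |normAtPlace w x - normAtPlace w (x + r)| ≤ ‖r‖ := by
  have h1 := normAtPlace_add_le w x r
  have h2 := normAtPlace_add_le w (x + r) (-r)
  rw [add_neg_cancel_right, normAtPlace_neg] at h2
  have h3 := est_normAtPlace_le K w r
  rw [abs_le]; constructor <;> linarith

/-- the estimate for the logarithms of the norms -/
theorem est_abs_log_norm_sub_le {x r : mixedSpace K} {m : ℝ} (hm : 0 < m)
    (hx : ∀ w, m ≤ normAtPlace w x) (hy : ∀ w, m ≤ normAtPlace w (x + r)) :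
    |Real.log (mixedEmbedding.norm x) - Real.log (mixedEmbedding.norm (x + r))| ≤
      (Module.finrank ℚ K : ℝ) * (‖r‖ / m) := by
  have hx0 : mixedEmbedding.norm x ≠ 0 :=
    mixedEmbedding.norm_ne_zero_iff.mpr fun w => (lt_of_lt_of_le hm (hx w)).ne'
  have hy0 : mixedEmbedding.norm (x + r) ≠ 0 :=
    mixedEmbedding.norm_ne_zero_iff.mpr fun w => (lt_of_lt_of_le hm (hy w)).ne'
  rw [log_norm_eq K hx0, log_norm_eq K hy0, ← Finset.sum_sub_distrib]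
  refine (Finset.abs_sum_le_sum_abs _ _).trans ?_
  have hd : (Module.finrank ℚ K : ℝ) = ∑ w : InfinitePlace K, (mult w : ℝ) := by
    rw [← sum_mult_eq]; push_cast; rfl
  rw [hd, Finset.sum_mul]
  refine Finset.sum_le_sum fun w _ => ?_
  rw [← mul_sub, abs_mul, abs_of_nonneg (Nat.cast_nonneg _)]
  refine mul_le_mul_of_nonneg_left ?_ (Nat.cast_nonneg _)
  refine (est_abs_log_sub_le hm (hx w) (hy w)).trans ?_
  exact div_le_div_of_nonneg_right (est_abs_normAtPlace_sub_le K w x r) hm.le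

theorem est_pow_le_norm {y : mixedSpace K} {m : ℝ} (hm : 0 ≤ m) (hy : ∀ w, m ≤ normAtPlace w y) :
    m ^ Module.finrank ℚ K ≤ mixedEmbedding.norm y := by
  rw [mixedEmbedding.norm_apply, ← sum_mult_eq, ← Finset.prod_pow_eq_pow_sum]
  exact Finset.prod_le_prod (fun w _ => pow_nonneg hm _) fun w _ => pow_le_pow_left₀ hm (hy w) _

/-- `N y ^ (-s) ≤ (κ/2)^(-2d) ‖x‖^(-d)` -/
theorem est_rpow_le {c X N s : ℝ} {d : ℕ} (hc : 0 < c) (hc1 : c ≤ 1) (hX : 1 ≤ X)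
    (hN : (c * X) ^ d ≤ N) (hs1 : 1 ≤ s) (hs2 : s ≤ 2) :
    N ^ (-s) ≤ ((c ^ d) ^ 2)⁻¹ * (X ^ d)⁻¹ := by
  have hX0 : 0 < X := lt_of_lt_of_le one_pos hX
  have hcd : 0 < c ^ d := pow_pos hc d
  have hXd : 0 < X ^ d := pow_pos hX0 d
  have h1 : N ^ (-s) ≤ ((c * X) ^ d) ^ (-s) :=
    Real.rpow_le_rpow_of_nonpos (pow_pos (mul_pos hc hX0) d) hN (by linarith)
  refine h1.trans ?_
  rw [mul_pow, Real.mul_rpow hcd.le hXd.le]
  have h2 : (c ^ d) ^ (-s) ≤ (c ^ d) ^ (-2 : ℝ) :=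
    Real.rpow_le_rpow_of_exponent_ge hcd (pow_le_one₀ hc.le hc1) (by linarith)
  have h3 : (X ^ d) ^ (-s) ≤ (X ^ d) ^ (-1 : ℝ) :=
    Real.rpow_le_rpow_of_exponent_le (one_le_pow₀ hX) (by linarith)
  have h4 : (c ^ d) ^ (-2 : ℝ) = ((c ^ d) ^ 2)⁻¹ := by
    rw [Real.rpow_neg hcd.le]; norm_cast
  have h5 : (X ^ d) ^ (-1 : ℝ) = (X ^ d)⁻¹ := by
    rw [Real.rpow_neg hXd.le, Real.rpow_one]
  rw [← h4, ← h5]
  exact mul_le_mul h2 h3 (Real.rpow_nonneg hXd.le _) (Real.rpow_nonneg hcd.le _)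

theorem est_main {W : mixedSpace K → ℂ} {κ C : ℝ} (hW : Adm K W κ C) (r x : mixedSpace K)
    (d : ℕ) (hd : Module.finrank ℚ K = d) (X ρ : ℝ) (hX : ‖x‖ = X) (hρ : ‖r‖ = ρ) (s : ℝ)
    (hs1 : 1 ≤ s) (hs2 : s ≤ 2) (hx : 4 * ((d : ℝ) + 1) * ρ / κ + 1 ≤ X) :
    ‖Gs K W s (x + r) - Gs K W s x‖ ≤
      (|C| * ρ * (((κ / 2) ^ d) ^ 2)⁻¹ + (((κ / 2) ^ d) ^ 2)⁻¹ * (8 * d * ρ / κ)) *
        ((X ^ d)⁻¹ * X⁻¹) := by
  have hκ := hW.pos
  have hρ0 : 0 ≤ ρ := hρ ▸ norm_nonneg _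
  obtain ⟨B, hB⟩ : ∃ B : ℝ, B = (((κ / 2) ^ d) ^ 2)⁻¹ := ⟨_, rfl⟩
  rw [← hB]
  have hB0 : 0 ≤ B := by rw [hB]; positivity
  have hq : 0 ≤ 4 * ((d : ℝ) + 1) * ρ / κ := by positivity
  have hX1 : 1 ≤ X := by linarith
  have hX0 : 0 < X := by linarith
  have hmain : 4 * ((d : ℝ) + 1) * ρ ≤ κ * X := by
    have h1 : 4 * ((d : ℝ) + 1) * ρ / κ ≤ X := by linarith
    have h2 := (div_le_iff₀ hκ).mp h1
    linarith
  have hdρ : 0 ≤ (d : ℝ) * ρ := by positivity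
  have h4ρ : 4 * ρ ≤ κ * X := by nlinarith
  have hC'0 : 0 ≤ |C| * ρ * B + B * (8 * d * ρ / κ) := by positivity
  by_cases hxy : W x = 0 ∧ W (x + r) = 0
  · simp only [Gs, hxy.1, hxy.2, zero_mul, sub_zero, norm_zero]
    positivity
  -- lower bounds at all places
  have hsub : ∀ w, |normAtPlace w x - normAtPlace w (x + r)| ≤ ρ := fun w =>
    hρ ▸ est_abs_normAtPlace_sub_le K w x r
  have hlow : (∀ w, κ / 2 * X ≤ normAtPlace w x) ∧ (∀ w, κ / 2 * X ≤ normAtPlace w (x + r)) := by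
    by_cases h1 : W x = 0
    · have h2 : W (x + r) ≠ 0 := fun h => hxy ⟨h1, h⟩
      have hc := hW.supp _ h2
      have hnorm : X - ρ ≤ ‖x + r‖ := by
        have := norm_sub_norm_le x (-r)
        rw [norm_neg, sub_neg_eq_add, hX, hρ] at this
        exact this
      have hy : ∀ w, κ * (X - ρ) ≤ normAtPlace w (x + r) := fun w =>
        (mul_le_mul_of_nonneg_left hnorm hκ.le).trans (hc w)
      have hκρ : κ * ρ ≤ ρ := by nlinarith [hW.le_one]
      constructor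
      · intro w
        have h3 := (abs_le.mp (hsub w)).1
        have h4 := hy w
        nlinarith
      · intro w
        have h4 := hy w
        nlinarith
    · have hc := hW.supp _ h1
      constructor
      · intro w
        have h4 := hc w
        rw [hX] at h4
        nlinarith
      · intro w
        have h3 := (abs_le.mp (hsub w)).2
        have h4 := hc w
        rw [hX] at h4
        nlinarith
  obtain ⟨hlx, hly⟩ := hlow
  have hm : 0 < κ / 2 * X := by positivity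
  have hlog := est_abs_log_norm_sub_le K hm hlx hly
  have hpx := est_pow_le_norm K hm.le hlx
  have hpy := est_pow_le_norm K hm.le hly
  rw [hd] at hlog hpx hpy
  rw [hρ] at hlog
  have hsplit : Gs K W s (x + r) - Gs K W s x =
      (W (x + r) - W x) * ((mixedEmbedding.norm (x + r) ^ (-s) : ℝ) : ℂ) +
        W x * (((mixedEmbedding.norm (x + r) ^ (-s) - mixedEmbedding.norm x ^ (-s) : ℝ)) : ℂ) := by
    simp only [Gs]
    push_cast
    ring
  rw [hsplit]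
  generalize mixedEmbedding.norm x = Nx at *
  generalize mixedEmbedding.norm (x + r) = Ny at *
  have hNx0 : 0 < Nx := lt_of_lt_of_le (pow_pos hm d) hpx
  have hNy0 : 0 < Ny := lt_of_lt_of_le (pow_pos hm d) hpy
  have hNys : Ny ^ (-s) ≤ B * (X ^ d)⁻¹ := by
    rw [hB]
    exact est_rpow_le (by positivity) (by linarith [hW.le_one]) hX1 hpy hs1 hs2
  have hNys0 : 0 ≤ Ny ^ (-s) := Real.rpow_nonneg hNy0.le _
  obtain ⟨t, ht⟩ : ∃ t : ℝ, t = -s * (Real.log Nx - Real.log Ny) := ⟨_, rfl⟩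
  have hδ : (d : ℝ) * (ρ / (κ / 2 * X)) = 2 * d * ρ / κ * X⁻¹ := by
    field_simp
  have htabs : |t| ≤ 4 * d * ρ / κ * X⁻¹ := by
    rw [ht, abs_mul, abs_neg, abs_of_nonneg (by linarith : (0 : ℝ) ≤ s)]
    calc s * |Real.log Nx - Real.log Ny| ≤ 2 * (2 * d * ρ / κ * X⁻¹) := by
          rw [← hδ]
          exact mul_le_mul hs2 hlog (abs_nonneg _) (by norm_num)
      _ = 4 * d * ρ / κ * X⁻¹ := by ring
  have ht1 : |t| ≤ 1 := by
    refine htabs.trans ?_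
    rw [← div_eq_mul_inv, div_le_one hX0, div_le_iff₀ hκ]
    nlinarith
  have hexp := Real.abs_exp_sub_one_le ht1
  have hdiff : Nx ^ (-s) - Ny ^ (-s) = Ny ^ (-s) * (Real.exp t - 1) := by
    rw [Real.rpow_def_of_pos hNx0, Real.rpow_def_of_pos hNy0, mul_sub, mul_one, ← Real.exp_add]
    congr 2
    rw [ht]; ring
  have hdiffabs : |Nx ^ (-s) - Ny ^ (-s)| ≤ B * (X ^ d)⁻¹ * (8 * d * ρ / κ * X⁻¹) := by
    rw [hdiff, abs_mul, abs_of_nonneg hNys0]
    refine mul_le_mul hNys ?_ (abs_nonneg _) (by positivity)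
    calc |Real.exp t - 1| ≤ 2 * |t| := hexp
      _ ≤ 2 * (4 * d * ρ / κ * X⁻¹) := by linarith
      _ = 8 * d * ρ / κ * X⁻¹ := by ring
  -- the weights
  have hlip : ‖W x - W (x + r)‖ ≤ |C| * ρ * X⁻¹ := by
    have h := hW.lip x (x + r)
    have h2 : ‖x - (x + r)‖ = ρ := by
      rw [sub_add_cancel_left, norm_neg, hρ]
    rw [h2, hX] at h
    have h3 : C * ρ ≤ |C| * ρ := mul_le_mul_of_nonneg_right (le_abs_self _) hρ0
    rw [← div_eq_mul_inv, le_div_iff₀ hX0]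
    exact h.trans h3
  refine (norm_add_le _ _).trans ?_
  rw [norm_mul, norm_mul, Complex.norm_real, Complex.norm_real, Real.norm_eq_abs, Real.norm_eq_abs,
    abs_of_nonneg hNys0]
  have hA : ‖W (x + r) - W x‖ * Ny ^ (-s) ≤ (|C| * ρ * X⁻¹) * (B * (X ^ d)⁻¹) := by
    rw [norm_sub_rev]
    exact mul_le_mul hlip hNys hNys0 (by positivity)
  have hBB : ‖W x‖ * |Ny ^ (-s) - Nx ^ (-s)| ≤ 1 * (B * (X ^ d)⁻¹ * (8 * d * ρ / κ * X⁻¹)) := by
    rw [abs_sub_comm]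
    exact mul_le_mul (hW.bdd x) hdiffabs (abs_nonneg _) (by norm_num)
  calc _ ≤ (|C| * ρ * X⁻¹) * (B * (X ^ d)⁻¹) + 1 * (B * (X ^ d)⁻¹ * (8 * d * ρ / κ * X⁻¹)) :=
        add_le_add hA hBB
    _ = _ := by ring

theorem exists_bound {W : mixedSpace K → ℂ} {κ C : ℝ} (hW : Adm K W κ C) (r : mixedSpace K) :
    ∃ C' R : ℝ, ∀ s ∈ Set.Icc (1 : ℝ) 2, ∀ x : mixedSpace K, R ≤ ‖x‖ →
      ‖Gs K W s (x + r) - Gs K W s x‖ ≤ C' * ‖x‖ ^ (-(Module.finrank ℚ K : ℝ) - 1) := by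
  obtain ⟨d, hd⟩ : ∃ d : ℕ, Module.finrank ℚ K = d := ⟨_, rfl⟩
  rw [hd]
  refine ⟨|C| * ‖r‖ * (((κ / 2) ^ d) ^ 2)⁻¹ + (((κ / 2) ^ d) ^ 2)⁻¹ * (8 * d * ‖r‖ / κ),
    4 * ((d : ℝ) + 1) * ‖r‖ / κ + 1, ?_⟩
  intro s hs x hx
  have h := est_main K hW r x d hd ‖x‖ ‖r‖ rfl rfl s hs.1 hs.2 hx
  have hq : 0 ≤ 4 * ((d : ℝ) + 1) * ‖r‖ / κ := by have := hW.pos; positivity
  have hX0 : 0 < ‖x‖ := by linarith
  have hpowX : ‖x‖ ^ (-(d : ℝ) - 1) = (‖x‖ ^ d)⁻¹ * ‖x‖⁻¹ := by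
    rw [Real.rpow_sub hX0, Real.rpow_neg hX0.le, Real.rpow_natCast, Real.rpow_one, div_eq_mul_inv]
  rw [hpowX]
  exact h

end Fermat.Agent.Cheb
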