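import Fermat.Agent.Cheb.Defs

/-!
# Cheb/FIX : the fixed field of `σ` (~150 lines, Galois theory)

`Gal(L/fixF σ) ≃ zpowers σ` (`IntermediateField.fixingSubgroupEquiv`, `IntermediateField.fixingSubgroup_fixedField`),
so it is cyclic, generated by `liftF σ`; `finrank (fixF σ) L = orderOf σ` (`IntermediateField.finrank_fixedField_eq_card`,
`Nat.card_zpowers`); `L/fixF σ` is Galois (instance).
-/

set_option autoImplicit false

open IsDedekindDomain NumberField Filter Topology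
open NumberField.mixedEmbedding NumberField.Units NumberField.Units.dirichletUnitTheorem
open NumberField.InfinitePlace
open Fermat.Agent.S14 Fermat.Agent.S14.Dens Fermat.Agent.ES
open scoped Classical nonZeroDivisors

noncomputable section

namespace Fermat.Agent.Cheb

variable (L : Type*) [Field L] [NumberField L] [IsGalois ℚ L]

omit [IsGalois ℚ L] in
theorem liftF_pow_apply (σ : L ≃ₐ[ℚ] L) (k : ℕ) (x : L) : (liftF L σ ^ k) x = (σ ^ k) x := by
  induction k generalizing x with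
  | zero => rfl
  | succ k ih =>
    rw [pow_succ, pow_succ, AlgEquiv.mul_apply, AlgEquiv.mul_apply, ih, liftF_apply]

omit [IsGalois ℚ L] in
theorem finrank_fixF (σ : L ≃ₐ[ℚ] L) : Module.finrank (fixF L σ) L = orderOf σ := by
  rw [IntermediateField.finrank_fixedField_eq_card, Nat.card_zpowers]

omit [IsGalois ℚ L] in
theorem orderOf_liftF (σ : L ≃ₐ[ℚ] L) : orderOf (liftF L σ) = orderOf σ := by
  refine orderOf_eq_orderOf_iff.mpr fun n => ?_
  constructor
  · intro h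
    ext x
    rw [← liftF_pow_apply, h]
    rfl
  · intro h
    ext x
    rw [liftF_pow_apply, h]
    rfl

omit [IsGalois ℚ L] in
theorem exists_pow_eq_liftF (σ : L ≃ₐ[ℚ] L) (τ : L ≃ₐ[fixF L σ] L) : ∃ k : ℕ, τ = liftF L σ ^ k := by
  obtain ⟨τ', hτ', hτ''⟩ : ∃ τ' : L ≃ₐ[ℚ] L, τ' ∈ (fixF L σ).fixingSubgroup ∧ ∀ x, τ' x = τ x :=
    ⟨_, ((IntermediateField.fixingSubgroupEquiv (fixF L σ)).symm τ).2, fun _ => rfl⟩
  rw [IntermediateField.fixingSubgroup_fixedField, ← mem_powers_iff_mem_zpowers] at hτ'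
  obtain ⟨k, hk⟩ := hτ'
  refine ⟨k, ?_⟩
  ext x
  rw [liftF_pow_apply]
  have h2 := congrArg (fun f : L ≃ₐ[ℚ] L => f x) hk
  simp only at h2
  rw [h2, hτ'']

omit [IsGalois ℚ L] in
theorem isCyclic_fixF (σ : L ≃ₐ[ℚ] L) : IsCyclic (L ≃ₐ[fixF L σ] L) :=
  ⟨⟨liftF L σ, fun τ => by
    obtain ⟨k, hk⟩ := exists_pow_eq_liftF L σ τ
    exact ⟨k, by rw [hk]; simp⟩⟩⟩

end Fermat.Agent.Cheb
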