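import Fermat.Agent.Cheb.Main
import Fermat.Agent.ES.FrobDensity

/-!
# Cheb/C-IF : the Chebotarev density theorem for `Gal(ℚ̄/ℚ)`, in the language of the prelude

* `chebotarev_GQ` : `r : G_ℚ →* G` onto a finite group, factoring through a finite level, `B ⊆ G`, `P` a property of primes which
  holds for every `p` having a Frobenius element `σ` (at some place of `ℚ̄`) with `r σ ∈ B`.  Then for every `e > 0`, for `s → 1+`,
  `(|B|/|G| - e) log (1/(s-1)) ≤ ∑_{p, P p} p^{-s}`.
* `exists_frobenius_eq` : every element of the image is `r σ`, `σ` a Frobenius element at a prime outside a given finite set.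
-/

set_option autoImplicit false

open IsDedekindDomain NumberField Filter Topology
open Fermat.Agent.S14 Fermat.Agent.S14.Dens Fermat.Agent.ES
open scoped Classical

noncomputable section

namespace Fermat.Agent.Cheb

local notation "Qbar" => AlgebraicClosure ℚ
local notation "GQ" => (AlgebraicClosure ℚ ≃ₐ[ℚ] AlgebraicClosure ℚ)

/-- the Dirichlet series over the primes satisfying `P` -/
def primeSum (P : ℕ → Prop) (s : ℝ) : ℝ :=
  ∑' p : ℕ, Set.indicator {p : ℕ | p.Prime ∧ P p} (fun p => (p : ℝ) ^ (-s)) p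

theorem primeSum_eq (P : ℕ → Prop) [DecidablePred fun p : ℕ => p.Prime ∧ P p] (s : ℝ) :
    primeSum P s = ∑' p : ℕ, if p.Prime ∧ P p then (p : ℝ) ^ (-s) else 0 := by
  unfold primeSum
  refine tsum_congr fun p => ?_
  by_cases h : p.Prime ∧ P p
  · rw [Set.indicator_of_mem (by exact h), if_pos h]
  · rw [Set.indicator_of_notMem (by exact h), if_neg h]

theorem absNorm_injective_rat : Function.Injective (fun v : Pl ℚ => Ideal.absNorm v.asIdeal) := by
  intro v v' h
  simp only at h
  have hp := prime_absNorm_rat v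
  set p := Ideal.absNorm v.asIdeal with hpdef
  have h1 : (p : 𝓞 ℚ) ∈ v.asIdeal := Ideal.absNorm_mem _
  have h2 : (p : 𝓞 ℚ) ∈ v'.asIdeal := by rw [h]; exact Ideal.absNorm_mem _
  -- `span {p}` has norm `p`, as `v`: they are equal
  have key : ∀ u : Pl ℚ, (p : 𝓞 ℚ) ∈ u.asIdeal → Ideal.absNorm u.asIdeal = p →
      u.asIdeal = Ideal.span {(p : 𝓞 ℚ)} := by
    intro u hu hN
    have hle : Ideal.span {(p : 𝓞 ℚ)} ≤ u.asIdeal := (Ideal.span_singleton_le_iff_mem _).mpr hu
    have hNs : Ideal.absNorm (Ideal.span {(p : 𝓞 ℚ)}) = p := by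
      rw [Ideal.absNorm_span_natCast, RingOfIntegers.rank, Module.finrank_self, pow_one]
    obtain ⟨J, hJ⟩ := Ideal.dvd_iff_le.mpr hle
    have h3 := congrArg Ideal.absNorm hJ
    rw [map_mul, hNs, hN] at h3
    have h4 : Ideal.absNorm J = 1 := by
      have : p * 1 = p * Ideal.absNorm J := by rw [mul_one]; exact h3
      exact (Nat.eq_of_mul_eq_mul_left hp.pos this).symm
    rw [Ideal.absNorm_eq_one_iff] at h4
    rw [hJ, h4, Ideal.mul_top]
  exact HeightOneSpectrum.ext ((key v h1 rfl).trans (key v' h2 h.symm).symm)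

theorem summable_primeSum (P : ℕ → Prop) {s : ℝ} (hs : 1 < s) :
    Summable (fun p : ℕ => Set.indicator {p : ℕ | p.Prime ∧ P p} (fun p => (p : ℝ) ^ (-s)) p) := by
  refine Summable.of_nonneg_of_le (fun p => ?_) (fun p => ?_)
    (Real.summable_nat_rpow.mpr (by linarith : -s < -1))
  · exact Set.indicator_nonneg (fun p _ => by positivity) p
  · exact Set.indicator_le_self' (fun p _ => by positivity) p

theorem DS_le_primeSum (P : ℕ → Prop) {s : ℝ} (hs : 1 < s) :
    DS {v : Pl ℚ | P (Ideal.absNorm v.asIdeal)} s ≤ primeSum P s := by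
  have h1 : ∀ v : Pl ℚ, Set.indicator {v : Pl ℚ | P (Ideal.absNorm v.asIdeal)} (wt s) v =
      (fun p : ℕ => Set.indicator {p : ℕ | p.Prime ∧ P p} (fun p => (p : ℝ) ^ (-s)) p)
        (Ideal.absNorm v.asIdeal) := by
    intro v
    by_cases hv : P (Ideal.absNorm v.asIdeal)
    · rw [Set.indicator_of_mem (by exact hv)]
      simp only
      rw [Set.indicator_of_mem (by exact ⟨prime_absNorm_rat v, hv⟩)]
      rfl
    · rw [Set.indicator_of_notMem (by exact hv)]
      simp only
      rw [Set.indicator_of_notMem (by exact fun h => hv h.2)]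
  unfold DS primeSum
  rw [tsum_congr h1]
  exact tsum_comp_le_tsum_of_inj (summable_primeSum P hs)
    (fun p => Set.indicator_nonneg (fun p _ => by positivity) p) absNorm_injective_rat

theorem chebotarev_GQ_aux (L : IntermediateField ℚ Qbar) [FiniteDimensional ℚ L] [IsGalois ℚ L]
    {G : Type} [Group G] [Finite G] (r : GQ →* G) (hr : Function.Surjective r)
    (hker : ∀ σ : GQ, (∀ x ∈ L, σ x = x) → r σ = 1) (B : Set G) (P : ℕ → Prop)
    (hP : ∀ (p : ℕ) (A : ValuationSubring Qbar) (σ : GQ), p.Prime → A.LiesOverPrime p →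
      A.IsFrobeniusAt σ p → r σ ∈ B → P p) (e : ℝ) (he : 0 < e) :
    ∀ᶠ s in 𝓝[>] (1 : ℝ), ((Nat.card B : ℝ) / Nat.card G - e) * Lam s ≤ primeSum P s := by
  have : NumberField L := { to_charZero := inferInstance, to_finiteDimensional := inferInstance }
  have hn1 : Normal ℚ Qbar := (Frob.isGaloisQbar).to_normal
  have hres : Function.Surjective (AlgEquiv.restrictNormalHom (F := ℚ) (K₁ := Qbar) L) :=
    AlgEquiv.restrictNormalHom_surjective Qbar
  have hkk : (AlgEquiv.restrictNormalHom (F := ℚ) (K₁ := Qbar) L).ker ≤ r.ker := by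
    intro σ hσ
    rw [MonoidHom.mem_ker] at hσ ⊢
    refine hker σ fun x hx => ?_
    have h1 := AlgEquiv.restrictNormal_commutes σ L ⟨x, hx⟩
    have h2 : σ.restrictNormal L = 1 := hσ
    rw [h2] at h1
    exact h1.symm
  set rb : (L ≃ₐ[ℚ] L) →* G :=
    (AlgEquiv.restrictNormalHom (F := ℚ) (K₁ := Qbar) L).liftOfSurjective hres ⟨r, hkk⟩ with hrb
  have hrb_apply : ∀ σ : GQ, rb (AlgEquiv.restrictNormalHom L σ) = r σ := fun σ =>
    MonoidHom.liftOfRightInverse_comp_apply _ _ _ ⟨r, hkk⟩ σ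
  have hrbs : Function.Surjective rb := by
    intro g
    obtain ⟨σ, rfl⟩ := hr g
    exact ⟨_, hrb_apply σ⟩
  set C : Finset (L ≃ₐ[ℚ] L) := Finset.univ.filter fun τ => rb τ ∈ B with hC
  have hX : ∀ τ ∈ C, frobSet ℚ τ ⊆ {v : Pl ℚ | P (Ideal.absNorm v.asIdeal)} := by
    intro τ hτ v hv
    obtain ⟨hunr, w, hwv, hF⟩ := hv
    have hτB : rb τ ∈ B := (Finset.mem_filter.mp hτ).2
    subst hwv
    set l := Ideal.absNorm (below (K := ℚ) w).asIdeal with hl_def
    have hl : l.Prime := prime_absNorm_rat _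
    obtain ⟨A, hA⟩ := FrobDensity.exists_valuationSubring_above L w
    have hAl : A.LiesOverPrime l := by
      have h1 : (l : 𝓞 ℚ) ∈ (below (K := ℚ) w).asIdeal := Ideal.absNorm_mem _
      have h2 : (l : 𝓞 L) ∈ w.asIdeal := by
        have : algebraMap (𝓞 ℚ) (𝓞 L) (l : 𝓞 ℚ) ∈ w.asIdeal := h1
        simpa using this
      have := (hA (l : 𝓞 L)).mpr h2
      simpa [ValuationSubring.LiesOverPrime] using this
    obtain ⟨σ, hσ⟩ := Frob.exists_isFrobeniusAt A hl hAl
    set φ := AlgEquiv.restrictNormalHom L σ with hφ_def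
    have hφ : IsFrob ℚ w φ := by
      intro x
      rw [← hA]
      have hxi : IsIntegral ℤ ((x : L) : Qbar) :=
        (RingOfIntegers.isIntegral_coe x).map (IsScalarTower.toAlgHom ℤ L Qbar)
      have hx : ((x : L) : Qbar) ∈ A := Frob.mem_of_isIntegral A hxi
      have h1 := FrobDensity.sub_pow_mem_nonunits hσ hx
      have h2 : (((gOZ φ x - x ^ l : 𝓞 L) : L) : Qbar)
          = σ ((x : L) : Qbar) - ((x : L) : Qbar) ^ l := by
        have h3 := AlgEquiv.restrictNormal_commutes σ L (x : L)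
        have h4 : ((gOZ φ x : 𝓞 L) : L) = φ (x : L) := rfl
        have h5 : ((gOZ φ x - x ^ l : 𝓞 L) : L) = φ (x : L) - (x : L) ^ l := by
          rw [← h4]; push_cast; rfl
        rw [h5]
        push_cast
        congr 1
      rw [h2]
      exact h1
    have hu : τ = φ := IsFrob.unique L (hunr w rfl) hF hφ
    refine hP l A σ hl hAl hσ ?_
    rw [← hrb_apply σ, ← hφ_def, ← hu]
    exact hτB
  have hmain := chebotarev_lower L C _ hX e he
  have hcard1 : (C.card : ℝ) = Nat.card B * Nat.card rb.ker := by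
    have h1 := card_preimage_of_surjective rb hrbs B
    have h2 : Nat.card (rb ⁻¹' B) = C.card := by
      rw [hC, Nat.card_eq_fintype_card, Fintype.card_subtype]
      rfl
    rw [← h2, h1]
    push_cast
    rfl
  have hcard2 : (Nat.card (L ≃ₐ[ℚ] L) : ℝ) = Nat.card G * Nat.card rb.ker := by
    have h1 := card_preimage_of_surjective rb hrbs Set.univ
    rw [Set.preimage_univ, Nat.card_univ, Nat.card_univ] at h1
    rw [h1]
    push_cast
    rfl
  have hk0 : (Nat.card rb.ker : ℝ) ≠ 0 := by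
    have : 0 < Nat.card rb.ker := Nat.card_pos
    positivity
  have hfrac : (C.card : ℝ) / Nat.card (L ≃ₐ[ℚ] L) = (Nat.card B : ℝ) / Nat.card G := by
    rw [hcard1, hcard2, mul_div_mul_right _ _ hk0]
  rw [hfrac] at hmain
  filter_upwards [hmain, self_mem_nhdsWithin] with s h1 hs
  exact h1.trans (DS_le_primeSum P hs)

/-- **Chebotarev density theorem** (lower bound) for `Gal(ℚ̄/ℚ)` -/
theorem chebotarev_GQ {G : Type} [Group G] [Finite G] (r : GQ →* G) (hr : Function.Surjective r)
    (hfin : GaloisFactorsThroughFiniteLevel r) (B : Set G) (P : ℕ → Prop)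
    (hP : ∀ (p : ℕ) (A : ValuationSubring Qbar) (σ : GQ), p.Prime → A.LiesOverPrime p →
      A.IsFrobeniusAt σ p → r σ ∈ B → P p) (e : ℝ) (he : 0 < e) :
    ∀ᶠ s in 𝓝[>] (1 : ℝ), ((Nat.card B : ℝ) / Nat.card G - e) * Lam s ≤ primeSum P s := by
  obtain ⟨L₀, hL₀, hker⟩ := hfin
  have hn1 : Normal ℚ Qbar := (Frob.isGaloisQbar).to_normal
  have hn2 : Normal ℚ (IntermediateField.normalClosure ℚ L₀ Qbar) := normalClosure.normal ℚ L₀ Qbar
  have hG : IsGalois ℚ (IntermediateField.normalClosure ℚ L₀ Qbar) := ⟨⟩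
  exact chebotarev_GQ_aux (IntermediateField.normalClosure ℚ L₀ Qbar) r hr
    (fun σ hσ => hker σ fun x hx => hσ x (L₀.le_normalClosure hx)) B P hP e he

/-- every element is (modulo a finite level) a Frobenius element at a prime outside `S` -/
theorem exists_frobenius_eq {M : Type} [Monoid M] (r : GQ →* M)
    (hfin : GaloisFactorsThroughFiniteLevel r) (S : Finset ℕ) (g : GQ) :
    ∃ (p : ℕ) (A : ValuationSubring Qbar) (σ : GQ), p.Prime ∧ p ∉ S ∧ A.LiesOverPrime p ∧
      A.IsFrobeniusAt σ p ∧ r σ = r g := by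
  obtain ⟨L₀, hL₀, hker⟩ := hfin
  have hn1 : Normal ℚ Qbar := (Frob.isGaloisQbar).to_normal
  have hn2 : Normal ℚ (IntermediateField.normalClosure ℚ L₀ Qbar) := normalClosure.normal ℚ L₀ Qbar
  have hG : IsGalois ℚ (IntermediateField.normalClosure ℚ L₀ Qbar) := ⟨⟩
  set L := IntermediateField.normalClosure ℚ L₀ Qbar with hL
  have hres : Function.Surjective (AlgEquiv.restrictNormalHom (F := ℚ) (K₁ := Qbar) L) :=
    AlgEquiv.restrictNormalHom_surjective Qbar
  -- apply the density theorem to the restriction map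
  by_contra hcon
  push Not at hcon
  have hfl : GaloisFactorsThroughFiniteLevel (AlgEquiv.restrictNormalHom (F := ℚ) (K₁ := Qbar) L) := by
    refine ⟨L, inferInstance, fun σ hσ => ?_⟩
    ext x
    have h1 := AlgEquiv.restrictNormal_commutes σ L x
    have h2 : algebraMap L Qbar ((AlgEquiv.restrictNormalHom L σ) x) = algebraMap L Qbar x := by
      rw [show (AlgEquiv.restrictNormalHom L σ) x = σ.restrictNormal L x from rfl, h1]
      exact hσ x x.2
    exact h2
  have hmain := chebotarev_GQ (AlgEquiv.restrictNormalHom (F := ℚ) (K₁ := Qbar) L) hres hfl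
    {AlgEquiv.restrictNormalHom L g} (fun p => p ∈ S) (by
      intro p A σ hp hA hσ hmem
      by_contra hpS
      apply hcon p A σ hp hpS hA hσ
      have h1 : AlgEquiv.restrictNormalHom L σ = AlgEquiv.restrictNormalHom L g := hmem
      have h6 : r (g⁻¹ * σ) = 1 := by
        refine hker _ fun x hx ↦ ?_
        have hxL : x ∈ L := L₀.le_normalClosure hx
        have h2 := AlgEquiv.restrictNormal_commutes g L ⟨x, hxL⟩
        have h3 := AlgEquiv.restrictNormal_commutes σ L ⟨x, hxL⟩
        have h4 : σ.restrictNormal L = g.restrictNormal L := h1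
        rw [h4, h2] at h3
        have h5 : σ x = g x := h3.symm
        rw [AlgEquiv.mul_apply, h5]
        exact g.symm_apply_apply x
      have h7 : σ = g * (g⁻¹ * σ) := by group
      rw [h7, map_mul, h6, mul_one])
    (1 / (2 * Nat.card (L ≃ₐ[ℚ] L))) (by
      have : 0 < Nat.card (L ≃ₐ[ℚ] L) := Nat.card_pos
      positivity)
  -- the right hand side is bounded
  have hbd : ∀ s : ℝ, 1 < s → primeSum (fun p => p ∈ S) s ≤ S.card := by
    intro s hs
    unfold primeSum
    rw [tsum_eq_sum (s := S) (fun p hp => Set.indicator_of_notMem (fun h => hp h.2) _)]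
    calc ∑ p ∈ S, Set.indicator {p : ℕ | p.Prime ∧ p ∈ S} (fun p => (p : ℝ) ^ (-s)) p
          ≤ ∑ p ∈ S, (1 : ℝ) := by
          refine Finset.sum_le_sum fun p _ => ?_
          by_cases h : p.Prime ∧ p ∈ S
          · rw [Set.indicator_of_mem (by exact h)]
            exact Real.rpow_le_one_of_one_le_of_nonpos (by exact_mod_cast h.1.one_lt.le) (by linarith)
          · rw [Set.indicator_of_notMem (by exact h)]
            exact zero_le_one
      _ = S.card := by simp
  have hn0 : (0 : ℝ) < Nat.card (L ≃ₐ[ℚ] L) := by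
    have : 0 < Nat.card (L ≃ₐ[ℚ] L) := Nat.card_pos
    exact_mod_cast this
  have hlam := tendsto_Lam.eventually_gt_atTop ((S.card : ℝ) * (2 * Nat.card (L ≃ₐ[ℚ] L)))
  obtain ⟨s, h1, h2, h3⟩ := (hmain.and (hlam.and self_mem_nhdsWithin)).exists
  have h4 := h1.trans (hbd s h3)
  rw [Nat.card_unique] at h4
  have h5 : ((1 : ℕ) : ℝ) / Nat.card (L ≃ₐ[ℚ] L) - 1 / (2 * Nat.card (L ≃ₐ[ℚ] L))
      = 1 / (2 * Nat.card (L ≃ₐ[ℚ] L)) := by
    field_simp
    norm_num
  rw [h5, div_mul_eq_mul_div, one_mul, div_le_iff₀ (by positivity)] at h4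
  linarith

end Fermat.Agent.Cheb
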