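import Fermat.Agent.Cheb.Shift
import Fermat.Agent.Cheb.Dict

/-!
# Cheb/LIM : `LF χ s` has a limit for `s → 1+` (assembly of Part I)

`a_C s = (term s (rep C))⁻¹ / ω` is continuous in `s`.  `tsum_term_mul` with `𝔠 = ⊤` and with `𝔠`:
`LF s = ∑_C a_C s * TT (rep C) s`, `term s 𝔠 * LF s = ∑_C a_C s * TT (rep C * 𝔠) s`.  By `exists_shift`
`LF s = N𝔠 * term s 𝔠 * LF s + ∑_C a_C s * E_C s`, and `N𝔠 * term s 𝔠 = χ(N𝔠) N𝔠^(1-s) → χ(N𝔠) ≠ 1`.
-/

set_option autoImplicit false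

open IsDedekindDomain NumberField Filter Topology
open NumberField.mixedEmbedding NumberField.Units NumberField.Units.dirichletUnitTheorem
open NumberField.InfinitePlace
open Fermat.Agent.S14 Fermat.Agent.S14.Dens Fermat.Agent.ES
open scoped Classical nonZeroDivisors

noncomputable section

namespace Fermat.Agent.Cheb

variable (K : Type*) [Field K] [NumberField K] {m : ℕ} (χ : DirichletCharacter ℂ m)

theorem exists_tendsto_LF (hm : m ≠ 0) (𝔠 : Ideal (𝓞 K)) (h𝔠 : 𝔠 ≠ ⊥)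
    (hcop : IsCoprime 𝔠 (Ideal.span {(m : 𝓞 K)}))
    (hχ : χ ((Ideal.absNorm 𝔠 : ℕ) : ZMod m) ≠ 1) :
    ∃ ℓ : ℂ, Tendsto (LF K χ) (𝓝[>] 1) (𝓝 ℓ) := by
  choose rep hrep hrepcop using fun C : ClassGroup (𝓞 K) ↦ exists_rep K hm C⁻¹
  have hne : ∀ C, (rep C : Ideal (𝓞 K)) ≠ ⊥ := fun C ↦ nonZeroDivisors.coe_ne_zero (rep C)
  choose E hEc hE using fun C ↦ exists_shift K χ (rep C : Ideal (𝓞 K)) 𝔠 (hne C) h𝔠 hcop
  let a : ClassGroup (𝓞 K) → ℝ → ℂ := fun C s ↦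
    (term K χ s (rep C : Ideal (𝓞 K)))⁻¹ * (torsionOrder K : ℂ)⁻¹
  have ha : ∀ C, Continuous (a C) := fun C ↦
    ((continuous_term K χ (hne C)).inv₀ fun s ↦ term_ne_zero K χ s (hrepcop C) (hne C)).mul
      continuous_const
  let Et : ℝ → ℂ := fun s ↦ ∑ C, a C s * E C s
  have hEt : ContinuousOn Et (Set.Icc 1 2) :=
    continuousOn_finset_sum _ fun C _ ↦ (ha C).continuousOn.mul (hEc C)
  let D : ℝ → ℂ := fun s ↦ 1 - (Ideal.absNorm 𝔠 : ℂ) * term K χ s 𝔠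
  have hD : Continuous D := continuous_const.sub (continuous_const.mul (continuous_term K χ h𝔠))
  have hN0 : (Ideal.absNorm 𝔠 : ℝ) ≠ 0 := by
    exact_mod_cast fun h ↦ h𝔠 (Ideal.absNorm_eq_zero_iff.mp h)
  have hD1 : D 1 ≠ 0 := by
    have h1 : (Ideal.absNorm 𝔠 : ℂ) * term K χ 1 𝔠 = χ ((Ideal.absNorm 𝔠 : ℕ) : ZMod m) := by
      have h2 : (Ideal.absNorm 𝔠 : ℂ) ≠ 0 := by exact_mod_cast hN0
      rw [term, Real.rpow_neg_one]
      push_cast
      field_simp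
    show 1 - (Ideal.absNorm 𝔠 : ℂ) * term K χ 1 𝔠 ≠ 0
    rw [h1, sub_ne_zero]
    exact hχ.symm
  have key : ∀ s ∈ Set.Ioc (1 : ℝ) 2, LF K χ s * D s = Et s := by
    intro s hs
    have hs1 : 1 < s := hs.1
    have h1 := tsum_term_mul K χ hm rep hrep hrepcop ⊤ top_ne_bot hs1
    have h2 := tsum_term_mul K χ hm rep hrep hrepcop 𝔠 h𝔠 hs1
    simp only [Ideal.mul_top] at h1
    simp only [term_mul] at h2
    rw [tsum_mul_right] at h2
    have h3 : LF K χ s = (Ideal.absNorm 𝔠 : ℂ) * (LF K χ s * term K χ s 𝔠) + Et s := by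
      rw [show LF K χ s * term K χ s 𝔠 = (∑' I, term K χ s I) * term K χ s 𝔠 from rfl, h2,
        Finset.mul_sum, ← Finset.sum_add_distrib]
      rw [show LF K χ s = ∑' I, term K χ s I from rfl, h1]
      refine Finset.sum_congr rfl fun C _ ↦ ?_
      rw [hE C s hs]
      ring
    show LF K χ s * (1 - (Ideal.absNorm 𝔠 : ℂ) * term K χ s 𝔠) = Et s
    linear_combination h3
  have hmem : Set.Icc (1 : ℝ) 2 ∈ 𝓝[>] (1 : ℝ) :=
    mem_of_superset (Ioc_mem_nhdsGT one_lt_two) Set.Ioc_subset_Icc_self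
  have hEt1 : Tendsto Et (𝓝[>] 1) (𝓝 (Et 1)) :=
    (hEt 1 (Set.left_mem_Icc.mpr one_le_two)).mono_left (nhdsWithin_le_of_mem hmem)
  have hDt : Tendsto D (𝓝[>] 1) (𝓝 (D 1)) := hD.continuousAt.tendsto.mono_left nhdsWithin_le_nhds
  refine ⟨Et 1 / D 1, (hEt1.div hDt hD1).congr' ?_⟩
  filter_upwards [Ioc_mem_nhdsGT one_lt_two, hDt.eventually_ne hD1] with s hs hDs
  show Et s / D s = LF K χ s
  rw [← key s hs, mul_div_assoc, div_self hDs, mul_one]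

end Fermat.Agent.Cheb
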