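import Fermat.Agent.Cheb.CycDens
import Fermat.Agent.Cheb.Deuring
import Fermat.Agent.Cheb.Count

/-!
# Cheb/MAIN : the Chebotarev density theorem (lower bound)

`G = Gal(L/ℚ)`, `N₀ = |G|`; `m` from `exists_modulus N₀ (ε / (2 (|C| + 1)))`; `M = MM m L`, `Γ = Gal(M/ℚ)`,
`C_M = {g : resL g ∈ C, N₀ ∣ orderOf (cycQ g)}`.  For `g ∈ C_M`: `orderOf (resL g) ∣ N₀ ∣ orderOf (cycQ g)`, so `M/fixF M g` is a cyclic
cyclotomic extension of degree `orderOf g`: `cyclotomic_density` gives `orderOf g * DS (frobSet (fixF M g) (liftF M g)) = Lam + O(1)`.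
`frobSet ℚ g ⊆ frobSet ℚ (resL g) ⊆ X`.  `deuring` for `M`: `|C_M| Lam - B' ≤ |Γ| DS X + B`.  `card_good_ge`, `totient_le_card`:
`|C_M| / |Γ| ≥ |C|/|G| - |C| bad / |Γ| ≥ |C|/|G| - ε/2`.  `Lam → ∞`.
-/

set_option autoImplicit false

open IsDedekindDomain NumberField Filter Topology
open NumberField.mixedEmbedding NumberField.Units NumberField.Units.dirichletUnitTheorem
open NumberField.InfinitePlace
open Fermat.Agent.S14 Fermat.Agent.S14.Dens Fermat.Agent.ES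
open scoped Classical nonZeroDivisors

noncomputable section

namespace Fermat.Agent.Cheb

variable (L : Type*) [Field L] [NumberField L] [IsGalois ℚ L]

omit [IsGalois ℚ L] [NumberField L] [Field L] in
theorem tendsto_Lam : Tendsto Lam (𝓝[>] (1 : ℝ)) atTop := by
  have h1 : Tendsto (fun s : ℝ ↦ s - 1) (𝓝[>] (1 : ℝ)) (𝓝[>] 0) := by
    refine tendsto_nhdsWithin_iff.mpr ⟨?_, ?_⟩
    · have : Tendsto (fun s : ℝ ↦ s - 1) (𝓝 (1 : ℝ)) (𝓝 (1 - 1)) :=
        (continuous_id.sub continuous_const).tendsto 1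
      rw [sub_self] at this
      exact this.mono_left nhdsWithin_le_nhds
    · filter_upwards [self_mem_nhdsWithin] with s hs
      exact sub_pos.mpr (Set.mem_Ioi.mp hs)
  have h2 := Real.tendsto_log_atTop.comp (tendsto_inv_nhdsGT_zero.comp h1)
  refine h2.congr fun s ↦ ?_
  simp [Lam, Function.comp]

theorem chebotarev_lower (C : Finset (L ≃ₐ[ℚ] L)) (X : Set (Pl ℚ)) (hX : ∀ σ ∈ C, frobSet ℚ σ ⊆ X)
    (ε : ℝ) (hε : 0 < ε) :
    ∀ᶠ s in 𝓝[>] (1 : ℝ),
      ((C.card : ℝ) / Nat.card (L ≃ₐ[ℚ] L) - ε) * Lam s ≤ DS X s := by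
  set nG := Nat.card (L ≃ₐ[ℚ] L) with hnG
  have hnG0 : 0 < nG := Nat.card_pos
  have hc1 : (0 : ℝ) < 2 * ((C.card : ℝ) + 1) := by positivity
  obtain ⟨m, hm0, hbad⟩ := exists_modulus nG hnG0 (ε / (2 * ((C.card : ℝ) + 1))) (by positivity)
  have : NeZero m := ⟨hm0.ne'⟩
  set nΓ := Nat.card (MM m L ≃ₐ[ℚ] MM m L) with hnΓ
  have hnΓ0 : 0 < nΓ := Nat.card_pos
  set CM : Finset (MM m L ≃ₐ[ℚ] MM m L) := Finset.univ.filter fun g : MM m L ≃ₐ[ℚ] MM m L ↦
        resL m L g ∈ C ∧ nG ∣ orderOf (cycQ m L g) with hCM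
  have hXM : ∀ g ∈ CM, frobSet ℚ g ⊆ X := fun g hg ↦
    (frobSet_subset m L g).trans (hX _ (Finset.mem_filter.mp hg).2.1)
  obtain ⟨B, hB⟩ := deuring (MM m L) CM X hXM
  have hcyc : ∀ g ∈ CM, Bdd (fun s ↦ (orderOf g : ℝ) *
      DS (frobSet (fixF (MM m L) g) (liftF (MM m L) g)) s - Lam s) := by
    intro g hg
    have hdiv : orderOf (resL m L g) ∣ orderOf (cycQ m L g) :=
      (orderOf_dvd_natCard _).trans (Finset.mem_filter.mp hg).2.2
    have := isCyclotomicExtension_fixF m L g hdiv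
    have := isCyclic_fixF (MM m L) g
    have h := cyclotomic_density m (fixF (MM m L) g) (MM m L) (liftF (MM m L) g)
    rw [finrank_fixF] at h
    exact h
  have hsum := Bdd.sum CM hcyc
  rw [bdd_iff] at hsum
  obtain ⟨B', hB'⟩ := hsum
  have hcount := card_good_ge m L C nG
  rw [← hCM, ← hnΓ, ← hnG] at hcount
  have htot : (Nat.totient m : ℝ) ≤ nΓ := by exact_mod_cast totient_le_card m L
  have hlam := tendsto_Lam.eventually_ge_atTop (max 0 (2 * (B + B') / (nΓ * ε)))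
  filter_upwards [hB, hB', hlam] with s h1 h2 h3
  have hL0 : 0 ≤ Lam s := (le_max_left _ _).trans h3
  have hL1 : 2 * (B + B') / (nΓ * ε) ≤ Lam s := (le_max_right _ _).trans h3
  have hΓ : (0 : ℝ) < nΓ := by exact_mod_cast hnΓ0
  have hG : (0 : ℝ) < nG := by exact_mod_cast hnG0
  rw [Finset.sum_sub_distrib, Finset.sum_const, nsmul_eq_mul] at h2
  have h4 : (CM.card : ℝ) * Lam s - B' ≤ (nΓ : ℝ) * DS X s + B := by
    have := (abs_le.mp h2).1
    linarith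
  -- the proportion
  have h5 : (C.card : ℝ) * bad m nG ≤ ε / 2 * nΓ := by
    have e1 : (bad m nG : ℝ) ≤ ε / (2 * ((C.card : ℝ) + 1)) * nΓ :=
      hbad.trans (mul_le_mul_of_nonneg_left htot (by positivity))
    have e2 : (C.card : ℝ) * (ε / (2 * ((C.card : ℝ) + 1)) * nΓ) ≤ ε / 2 * nΓ := by
      have e3 : (C.card : ℝ) * (ε / (2 * ((C.card : ℝ) + 1))) ≤ ε / 2 := by
        rw [mul_div_assoc', div_le_div_iff₀ hc1 two_pos]
        nlinarith [hε, (Nat.cast_nonneg C.card : (0 : ℝ) ≤ C.card)]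
      calc (C.card : ℝ) * (ε / (2 * ((C.card : ℝ) + 1)) * nΓ)
          = (C.card : ℝ) * (ε / (2 * ((C.card : ℝ) + 1))) * nΓ := by ring
        _ ≤ ε / 2 * nΓ := mul_le_mul_of_nonneg_right e3 hΓ.le
    exact (mul_le_mul_of_nonneg_left e1 (Nat.cast_nonneg _)).trans e2
  have h6 : ((C.card : ℝ) / nG - ε / 2) * nΓ ≤ CM.card := by
    have : (C.card : ℝ) / nG * nΓ = (C.card : ℝ) * nΓ / nG := by ring
    rw [sub_mul, this]
    linarith
  have h7 : (B + B') ≤ ε / 2 * nΓ * Lam s := by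
    have hpos : (0 : ℝ) < nΓ * ε := by positivity
    rw [div_le_iff₀ hpos] at hL1
    nlinarith
  have h8 : ((C.card : ℝ) / nG - ε / 2) * nΓ * Lam s ≤ CM.card * Lam s :=
    mul_le_mul_of_nonneg_right h6 hL0
  have h9 : ((C.card : ℝ) / nG - ε) * Lam s * nΓ ≤ DS X s * nΓ := by
    nlinarith
  exact le_of_mul_le_mul_right h9 hΓ

end Fermat.Agent.Cheb
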