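import Fermat.Agent.Cheb.Defs

/-!
# Cheb/SH1 : `N(a + m c) ≡ N a mod m` (~100 lines)

`Algebra.norm_eq_matrix_det` for a `ℤ`-basis of `𝓞 K` (`RingOfIntegers.basis`), `Algebra.leftMulMatrix` is a ring
hom (additive), `leftMulMatrix (m c) = m • leftMulMatrix c`, `RingHom.map_det` for `Int.castRingHom (ZMod m)`.
-/

set_option autoImplicit false

open IsDedekindDomain NumberField Filter Topology
open NumberField.mixedEmbedding NumberField.Units NumberField.Units.dirichletUnitTheorem
open NumberField.InfinitePlace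
open Fermat.Agent.S14 Fermat.Agent.S14.Dens Fermat.Agent.ES
open scoped Classical nonZeroDivisors

noncomputable section

namespace Fermat.Agent.Cheb

variable (K : Type*) [Field K] [NumberField K] {m : ℕ} (χ : DirichletCharacter ℂ m)

theorem norm_add_cast_eq (a r : 𝓞 K) (hr : r ∈ Ideal.span {(m : 𝓞 K)}) :
    ((Algebra.norm ℤ (a + r) : ℤ) : ZMod m) = ((Algebra.norm ℤ a : ℤ) : ZMod m) := by
  obtain ⟨c, rfl⟩ := Ideal.mem_span_singleton'.1 hr
  set b := RingOfIntegers.basis K with hb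
  rw [Algebra.norm_eq_matrix_det b, Algebra.norm_eq_matrix_det b]
  have h1 : ∀ M : Matrix (Module.Free.ChooseBasisIndex ℤ (𝓞 K)) (Module.Free.ChooseBasisIndex ℤ (𝓞 K)) ℤ,
      ((M.det : ℤ) : ZMod m) = ((Int.castRingHom (ZMod m)).mapMatrix M).det := by
    intro M
    exact RingHom.map_det (Int.castRingHom (ZMod m)) M
  rw [h1, h1]
  congr 1
  rw [map_add, map_add]
  have h2 : Algebra.leftMulMatrix b (c * (m : 𝓞 K)) = (m : ℤ) • Algebra.leftMulMatrix b c := by
    have : c * (m : 𝓞 K) = (m : ℤ) • c := by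
      rw [zsmul_eq_mul, mul_comm]
      simp
    rw [this, map_zsmul]
  rw [h2]
  have h3 : (Int.castRingHom (ZMod m)).mapMatrix ((m : ℤ) • Algebra.leftMulMatrix b c) = 0 := by
    ext i j
    rw [RingHom.mapMatrix_apply, Matrix.map_apply, Matrix.smul_apply, smul_eq_mul,
      map_mul]
    have : (Int.castRingHom (ZMod m)) (m : ℤ) = 0 := by simp
    rw [this, zero_mul]
    rfl
  rw [h3, add_zero]

theorem chiN_add (a r : 𝓞 K) (hr : r ∈ Ideal.span {(m : 𝓞 K)}) :
    chiN K χ (a + r) = chiN K χ a := by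
  unfold chiN
  rw [norm_add_cast_eq K a r hr]

theorem norm_chiN_le (a : 𝓞 K) : ‖chiN K χ a‖ ≤ 1 := by
  unfold chiN
  exact DirichletCharacter.norm_le_one χ _

end Fermat.Agent.Cheb
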