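import Fermat.Agent.Cheb.Defs

/-!
# Cheb/SH2 : representatives of `𝔟/𝔟𝔠` inside `m𝔟` (~250 lines)

`𝔟 = 𝔟𝔠 + m𝔟` because `𝔠 + (m) = 1`; so every class of `𝔟/𝔟𝔠` has a representative in `m𝔟 ⊆ 𝔟 ∩ (m)`;
`|𝔟/𝔟𝔠| = N(𝔟𝔠)/N𝔟 = N𝔠` (`Ideal.absNorm` is multiplicative, index in a tower: `Submodule.cardQuot`,
`AddSubgroup.relIndex_mul_index`; or Mathlib `Ideal.cardQuot_mul...`).
-/

set_option autoImplicit false

open IsDedekindDomain NumberField Filter Topology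
open NumberField.mixedEmbedding NumberField.Units NumberField.Units.dirichletUnitTheorem
open NumberField.InfinitePlace
open Fermat.Agent.S14 Fermat.Agent.S14.Dens Fermat.Agent.ES
open scoped Classical nonZeroDivisors

noncomputable section

namespace Fermat.Agent.Cheb

variable (K : Type*) [Field K] [NumberField K]

theorem reps_index_eq (I : Ideal (𝓞 K)) : (Submodule.toAddSubgroup I).index = Ideal.absNorm I := by
  rw [Ideal.absNorm_apply, Submodule.cardQuot_apply]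
  rfl

theorem reps_relIndex (𝔟 𝔠 : Ideal (𝓞 K)) (h𝔟 : 𝔟 ≠ ⊥) :
    (Submodule.toAddSubgroup (𝔟 * 𝔠)).relIndex (Submodule.toAddSubgroup 𝔟) = Ideal.absNorm 𝔠 := by
  have hle : Submodule.toAddSubgroup (𝔟 * 𝔠) ≤ Submodule.toAddSubgroup 𝔟 :=
    Submodule.toAddSubgroup_mono (Ideal.mul_le_left (I := 𝔟) (J := 𝔠))
  have h1 := AddSubgroup.relIndex_mul_index hle
  rw [reps_index_eq, reps_index_eq, map_mul, mul_comm] at h1
  exact Nat.eq_of_mul_eq_mul_left (Nat.pos_of_ne_zero (mt Ideal.absNorm_eq_zero_iff.1 h𝔟)) h1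

theorem exists_reps {m : ℕ} (𝔟 𝔠 : Ideal (𝓞 K)) (h𝔟 : 𝔟 ≠ ⊥) (h𝔠 : 𝔠 ≠ ⊥)
    (hcop : IsCoprime 𝔠 (Ideal.span {(m : 𝓞 K)})) :
    ∃ R : Finset (𝓞 K), R.card = Ideal.absNorm 𝔠 ∧
      (∀ r ∈ R, r ∈ 𝔟 ∧ r ∈ Ideal.span {(m : 𝓞 K)}) ∧
      ∀ a ∈ 𝔟, ∃! p : 𝓞 K × 𝓞 K, p.1 ∈ R ∧ p.2 ∈ 𝔟 * 𝔠 ∧ a = p.2 + p.1 := by
  set A : AddSubgroup (𝓞 K) := Submodule.toAddSubgroup 𝔟 with hA
  set B : AddSubgroup (𝓞 K) := Submodule.toAddSubgroup (𝔟 * 𝔠) with hB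
  have hcard : Nat.card (A ⧸ B.addSubgroupOf A) = Ideal.absNorm 𝔠 := reps_relIndex K 𝔟 𝔠 h𝔟
  have hne : Ideal.absNorm 𝔠 ≠ 0 := mt Ideal.absNorm_eq_zero_iff.1 h𝔠
  have hfin : Finite (A ⧸ B.addSubgroupOf A) := Nat.finite_of_card_ne_zero (by rw [hcard]; exact hne)
  have : Fintype (A ⧸ B.addSubgroupOf A) := Fintype.ofFinite _
  have hmk : ∀ (a b : 𝓞 K) (ha : a ∈ 𝔟) (hb : b ∈ 𝔟),
      ((⟨a, ha⟩ : A) : A ⧸ B.addSubgroupOf A) = ((⟨b, hb⟩ : A) : A ⧸ B.addSubgroupOf A) ↔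
        b - a ∈ 𝔟 * 𝔠 := by
    intro a b ha hb
    rw [QuotientAddGroup.eq, AddSubgroup.mem_addSubgroupOf]
    change -a + b ∈ 𝔟 * 𝔠 ↔ _
    rw [neg_add_eq_sub]
  obtain ⟨c, hc, t, ht, hct⟩ := Ideal.isCoprime_iff_exists.1 hcop
  have hex : ∀ q : A ⧸ B.addSubgroupOf A, ∃ r : 𝓞 K, ∃ hr : r ∈ 𝔟,
      r ∈ Ideal.span {(m : 𝓞 K)} ∧ ((⟨r, hr⟩ : A) : A ⧸ B.addSubgroupOf A) = q := by
    intro q
    induction q using QuotientAddGroup.induction_on with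
    | H a =>
      obtain ⟨a, ha⟩ := a
      have ha' : a ∈ 𝔟 := ha
      refine ⟨a * t, 𝔟.mul_mem_right _ ha', Ideal.mul_mem_left _ _ ht, ?_⟩
      rw [hmk]
      have : a - a * t = a * c := by
        have h1 : c = 1 - t := by rw [← hct]; ring
        rw [h1]; ring
      rw [this]
      exact Ideal.mul_mem_mul ha' hc
  choose r hr hrm hrq using hex
  have hinj : Function.Injective r := by
    intro q q' h
    rw [← hrq q, ← hrq q']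
    congr 2
  refine ⟨Finset.univ.image r, ?_, ?_, ?_⟩
  · rw [Finset.card_image_of_injective _ hinj, Finset.card_univ, ← Nat.card_eq_fintype_card, hcard]
  · intro x hx
    obtain ⟨q, -, rfl⟩ := Finset.mem_image.1 hx
    exact ⟨hr q, hrm q⟩
  · intro a ha
    set q : A ⧸ B.addSubgroupOf A := ((⟨a, ha⟩ : A) : A ⧸ B.addSubgroupOf A) with hq
    refine ⟨(r q, a - r q), ⟨Finset.mem_image_of_mem _ (Finset.mem_univ _), ?_, ?_⟩, ?_⟩
    · exact (hmk _ _ (hr q) ha).1 (hrq q)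
    · simp
    · rintro ⟨p1, p2⟩ ⟨h1, h2, h3⟩
      obtain ⟨q', -, hq'⟩ := Finset.mem_image.1 h1
      change r q' = p1 at hq'
      change p2 ∈ 𝔟 * 𝔠 at h2
      change a = p2 + p1 at h3
      have h4 : q' = q := by
        rw [← hrq q', hq, hmk, hq', h3, add_sub_cancel_right]
        exact h2
      rw [h4] at hq'
      rw [Prod.mk.injEq]
      exact ⟨hq'.symm, by rw [hq', h3, add_sub_cancel_right]⟩

end Fermat.Agent.Cheb
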