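import Fermat.Agent.Cheb.Defs

/-!
# Cheb/SGN : the sign of the norm (~250 lines)

`norm_mul_sgnN`: `Algebra.norm ℚ a = ∏_{w real} w(a) * ∏_{w complex} |w(a)|²`
(`Algebra.norm_eq_prod_embeddings`, regroup the embeddings by places as in the Mathlib proof of
`InfinitePlace.prod_eq_abs_norm`), so `sign (N a) = sgnN (mixedEmbedding a)`; `Algebra.coe_norm_int`.
`sgnN_eq_of_cone`: `|x_w - y_w| ≤ ‖x - y‖ < κ ‖x‖ ≤ |x_w|` at a real place, so `y_w` has the sign of `x_w`.
-/

set_option autoImplicit false

open IsDedekindDomain NumberField Filter Topology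
open NumberField.mixedEmbedding NumberField.Units NumberField.Units.dirichletUnitTheorem
open NumberField.InfinitePlace
open Fermat.Agent.S14 Fermat.Agent.S14.Dens Fermat.Agent.ES
open scoped Classical nonZeroDivisors

noncomputable section

namespace Fermat.Agent.Cheb

variable (K : Type*) [Field K] [NumberField K]

theorem sgn_sign_eq_of_abs_sub_lt {a b : ℝ} (h : |a - b| < |a|) :
    SignType.sign b = SignType.sign a := by
  rcases lt_trichotomy a 0 with ha | ha | ha
  · have h1 : b < 0 := by
      rw [abs_of_neg ha] at h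
      have := neg_abs_le (a - b)
      linarith
    rw [sign_neg ha, sign_neg h1]
  · subst ha
    rw [abs_zero] at h
    exact absurd h (not_lt.2 (abs_nonneg _))
  · have h1 : 0 < b := by
      rw [abs_of_pos ha] at h
      have := le_abs_self (a - b)
      linarith
    rw [sign_pos ha, sign_pos h1]

theorem sgnN_eq_of_cone {κ : ℝ} (hκ : 0 < κ) {x y : mixedSpace K} (hx : x ∈ Cone K κ)
    (h : ‖x - y‖ < κ * ‖x‖) : sgnN K y = sgnN K x := by
  unfold sgnN
  refine Finset.prod_congr rfl fun w _ => ?_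
  congr 1
  apply sgn_sign_eq_of_abs_sub_lt
  have h1 : |x.1 w - y.1 w| ≤ ‖x - y‖ := by
    have h2 : ‖(x - y).1 w‖ ≤ ‖(x - y).1‖ := norm_le_pi_norm _ w
    have h3 : ‖(x - y).1‖ ≤ ‖x - y‖ := norm_fst_le _
    exact h2.trans h3
  have h4 := hx w.1
  rw [normAtPlace_apply_of_isReal w.2, Real.norm_eq_abs] at h4
  exact (h1.trans_lt h).trans_le h4

theorem sgn_filter_mk_eq (w : InfinitePlace K) :
    (Finset.univ.filter fun φ : K →+* ℂ => InfinitePlace.mk φ = w) =
      {w.embedding, ComplexEmbedding.conjugate w.embedding} := by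
  ext φ
  simp only [Finset.mem_filter, Finset.mem_univ, true_and, Finset.mem_insert,
    Finset.mem_singleton]
  conv_lhs => rw [← mk_embedding w, mk_eq_iff]
  constructor
  · rintro (h | h)
    · exact Or.inl h
    · right
      rw [← h, ComplexEmbedding.conjugate, ComplexEmbedding.conjugate, star_star]
  · rintro (h | h)
    · exact Or.inl h
    · right
      rw [h, ComplexEmbedding.conjugate, ComplexEmbedding.conjugate, star_star]

/-- the real factor of the norm at `w` -/
def sgnFac (x : K) (w : InfinitePlace K) : ℝ :=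
  if hw : IsReal w then embedding_of_isReal hw x else Complex.normSq (w.embedding x)

theorem sgn_prod_fiber (x : K) (w : InfinitePlace K) :
    ∏ φ ∈ Finset.univ.filter (fun φ : K →+* ℂ => InfinitePlace.mk φ = w), φ x =
      (sgnFac K x w : ℂ) := by
  rw [sgn_filter_mk_eq]
  unfold sgnFac
  split_ifs with hw
  · rw [ComplexEmbedding.isReal_iff.mp (isReal_iff.mp hw), Finset.pair_eq_singleton,
      Finset.prod_singleton, embedding_of_isReal_apply]
  · rw [Finset.prod_pair]
    · rw [ComplexEmbedding.conjugate_coe_eq, Complex.mul_conj]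
    · rwa [Ne, eq_comm, ← ComplexEmbedding.isReal_iff, ← isReal_iff]

theorem sgn_norm_eq_prod (x : K) : ((Algebra.norm ℚ x : ℚ) : ℝ) = ∏ w, sgnFac K x w := by
  have h1 := Algebra.norm_eq_prod_embeddings ℚ ℂ x
  rw [← Fintype.prod_equiv (RingHom.equivRatAlgHom K ℂ) (fun f : K →+* ℂ => f x)
      (fun φ : K →ₐ[ℚ] ℂ => φ x) fun _ => by simp [RingHom.equivRatAlgHom_apply],
    ← Finset.prod_fiberwise Finset.univ InfinitePlace.mk (fun φ : K →+* ℂ => φ x)] at h1
  simp only [sgn_prod_fiber] at h1
  rw [eq_ratCast, ← Complex.ofReal_prod, ← Complex.ofReal_ratCast] at h1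
  exact Complex.ofReal_injective h1

omit [NumberField K] in
theorem sgn_sign_sgnFac {x : K} (hx : x ≠ 0) (w : InfinitePlace K) :
    SignType.sign (sgnFac K x w) =
      if hw : IsReal w then SignType.sign ((mixedEmbedding K x).1 ⟨w, hw⟩) else 1 := by
  unfold sgnFac
  split_ifs with hw
  · rw [mixedEmbedding_apply_isReal]
  · rw [sign_pos]
    exact Complex.normSq_pos.2 ((map_ne_zero _).2 hx)

theorem sgn_sgnN_eq {x : K} (hx : x ≠ 0) :
    sgnN K (mixedEmbedding K x) = ((SignType.sign ((Algebra.norm ℚ x : ℚ) : ℝ) : SignType) : ℤ) := by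
  rw [sgn_norm_eq_prod, ← signHom_apply, map_prod]
  simp only [signHom_apply, sgn_sign_sgnFac K hx]
  unfold sgnN
  rw [← Fintype.prod_subtype_mul_prod_subtype (fun w : InfinitePlace K => IsReal w)]
  have h1 : ∏ w : {w : InfinitePlace K // ¬ IsReal w},
      (if hw : IsReal w.1 then SignType.sign ((mixedEmbedding K x).1 ⟨w.1, hw⟩) else 1) = 1 :=
    Finset.prod_eq_one fun w _ => dif_neg w.2
  rw [h1, mul_one]
  have h2 : ∏ w : {w : InfinitePlace K // IsReal w},
      (if hw : IsReal w.1 then SignType.sign ((mixedEmbedding K x).1 ⟨w.1, hw⟩) else 1) =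
      ∏ w : {w : InfinitePlace K // IsReal w}, SignType.sign ((mixedEmbedding K x).1 w) :=
    Finset.prod_congr rfl fun w _ => dif_pos w.2
  rw [h2]
  exact (map_prod (SignType.castHom (α := ℤ)) _ _).symm

theorem norm_mul_sgnN (a : 𝓞 K) :
    Algebra.norm ℤ a * sgnN K (mixedEmbedding K (a : K)) = ((Algebra.norm ℤ a).natAbs : ℤ) := by
  by_cases ha : a = 0
  · subst ha
    simp
  have ha' : (a : K) ≠ 0 := by
    intro h
    exact ha (RingOfIntegers.ext h)
  rw [sgn_sgnN_eq K ha', ← Algebra.coe_norm_int, Rat.cast_intCast, ← Int.mul_sign_self,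
    Int.sign_eq_sign]
  congr 2
  rcases lt_trichotomy (Algebra.norm ℤ a) 0 with h | h | h
  · rw [sign_neg h, sign_neg (by exact_mod_cast h)]
  · rw [h]; simp
  · rw [sign_pos h, sign_pos (by exact_mod_cast h)]

end Fermat.Agent.Cheb
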