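import Fermat.Agent.Cheb.WCone
import Fermat.Agent.Cheb.Estimate

/-!
# Cheb/W3 : the scale invariant Lipschitz estimate for `wgt` (~350 lines)

`κ` from `exists_cone`.  If `wgt x ≠ 0` and `‖x - y‖ < κ/2 ‖x‖` then `|y_w| ≥ κ/2 ‖x‖` for all `w`
(`normAtPlace_add_le`, `normAtPlace w z ≤ ‖z‖`), `|log |x_w| - log |y_w|| ≤ ‖x - y‖ / (κ/2 ‖x‖)`
(`Real.log_le_sub_one_of_pos` applied to the quotient), hence the same bound (times `d`) for `log N`,
`‖logMap x - logMap y‖ ≤ C₁ ‖x - y‖ / ‖x‖`, `|ucoord x i - ucoord y i| ≤ C₂ ‖logMap x - logMap y‖`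
(a linear map on a finite dimensional space is bounded: `LinearMap.toContinuousLinearMap`, `le_opNorm`),
`abs_prod_tent_sub_le`.  If `‖x - y‖ ≥ κ/2 ‖x‖` use `|wgt x - wgt y| ≤ 1`.  If `wgt x = 0 ≠ wgt y` exchange the
roles (`‖x‖ ≤ 2 ‖y‖` or `‖x‖ ≤ (1 + 2/κ) ‖x - y‖`).  If both vanish: trivial.
-/

set_option autoImplicit false

open IsDedekindDomain NumberField Filter Topology
open NumberField.mixedEmbedding NumberField.Units NumberField.Units.dirichletUnitTheorem
open NumberField.InfinitePlace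
open Fermat.Agent.S14 Fermat.Agent.S14.Dens Fermat.Agent.ES
open scoped Classical nonZeroDivisors

noncomputable section

namespace Fermat.Agent.Cheb

variable (K : Type*) [Field K] [NumberField K]

/-- bound for the coordinate functionals -/
def coordBd : ℝ :=
  ∑ i, ‖LinearMap.toContinuousLinearMap
    (((basisUnitLattice K).ofZLatticeBasis ℝ (unitLattice K)).coord i)‖

theorem coordBd_nonneg : 0 ≤ coordBd K := Finset.sum_nonneg fun _ _ => norm_nonneg _

theorem abs_ucoord_sub_le (x y : mixedSpace K) (i : Fin (rank K)) :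
    |ucoord K x i - ucoord K y i| ≤ coordBd K * ‖logMap x - logMap y‖ := by
  have h1 : ucoord K x i - ucoord K y i = LinearMap.toContinuousLinearMap
      (((basisUnitLattice K).ofZLatticeBasis ℝ (unitLattice K)).coord i)
        (logMap x - logMap y) := by
    simp [ucoord, map_sub]
  rw [h1, ← Real.norm_eq_abs]
  refine (ContinuousLinearMap.le_opNorm _ _).trans ?_
  refine mul_le_mul_of_nonneg_right ?_ (norm_nonneg _)
  exact Finset.single_le_sum (f := fun i => ‖LinearMap.toContinuousLinearMap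
    (((basisUnitLattice K).ofZLatticeBasis ℝ (unitLattice K)).coord i)‖)
    (fun _ _ => norm_nonneg _) (Finset.mem_univ i)

theorem norm_logMap_sub_le {x y : mixedSpace K} {m : ℝ} (hm : 0 < m)
    (hx : ∀ w, m ≤ normAtPlace w x) (hy : ∀ w, m ≤ normAtPlace w y) :
    ‖logMap x - logMap y‖ ≤ 4 * (‖x - y‖ / m) := by
  have hr : x + (y - x) = y := by abel
  have hn : ‖y - x‖ = ‖x - y‖ := norm_sub_rev _ _
  have hd : (0 : ℝ) < Module.finrank ℚ K := Nat.cast_pos.mpr Module.finrank_pos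
  have hq : 0 ≤ ‖x - y‖ / m := by positivity
  rw [pi_norm_le_iff_of_nonneg (by positivity)]
  intro w
  rw [Pi.sub_apply, logMap_apply, logMap_apply, ← mul_sub, Real.norm_eq_abs, abs_mul]
  have h1 : |Real.log (normAtPlace w.1 x) - Real.log (normAtPlace w.1 y)| ≤ ‖x - y‖ / m := by
    refine (est_abs_log_sub_le hm (hx w.1) (hy w.1)).trans ?_
    refine div_le_div_of_nonneg_right ?_ hm.le
    have := est_abs_normAtPlace_sub_le K w.1 x (y - x)
    rwa [hr, hn] at this
  have h2 : |Real.log (mixedEmbedding.norm x) - Real.log (mixedEmbedding.norm y)| ≤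
      (Module.finrank ℚ K : ℝ) * (‖x - y‖ / m) := by
    have := est_abs_log_norm_sub_le K (x := x) (r := y - x) hm hx (by rw [hr]; exact hy)
    rwa [hr, hn] at this
  have h3 : |(Real.log (mixedEmbedding.norm x) - Real.log (mixedEmbedding.norm y)) *
      (Module.finrank ℚ K : ℝ)⁻¹| ≤ ‖x - y‖ / m := by
    rw [abs_mul, abs_of_pos (inv_pos.mpr hd), ← div_eq_mul_inv, div_le_iff₀ hd]
    linarith
  have h4 : |(mult w.1 : ℝ)| ≤ 2 := by
    rw [abs_of_nonneg (Nat.cast_nonneg _)]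
    have : mult w.1 ≤ 2 := by unfold mult; split_ifs <;> omega
    exact_mod_cast this
  have h5 : |Real.log (normAtPlace w.1 x) - Real.log (mixedEmbedding.norm x) *
      (Module.finrank ℚ K : ℝ)⁻¹ - (Real.log (normAtPlace w.1 y) -
        Real.log (mixedEmbedding.norm y) * (Module.finrank ℚ K : ℝ)⁻¹)| ≤ 2 * (‖x - y‖ / m) := by
    have e : Real.log (normAtPlace w.1 x) - Real.log (mixedEmbedding.norm x) *
      (Module.finrank ℚ K : ℝ)⁻¹ - (Real.log (normAtPlace w.1 y) -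
        Real.log (mixedEmbedding.norm y) * (Module.finrank ℚ K : ℝ)⁻¹)
        = (Real.log (normAtPlace w.1 x) - Real.log (normAtPlace w.1 y)) -
          (Real.log (mixedEmbedding.norm x) - Real.log (mixedEmbedding.norm y)) *
      (Module.finrank ℚ K : ℝ)⁻¹ := by ring
    rw [e]
    refine (abs_sub _ _).trans ?_
    linarith
  calc |(mult w.1 : ℝ)| * _ ≤ 2 * (2 * (‖x - y‖ / m)) :=
        mul_le_mul h4 h5 (abs_nonneg _) (by norm_num)
    _ = 4 * (‖x - y‖ / m) := by ring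

theorem wgt_zero : wgt K (0 : mixedSpace K) = 0 := wgt_of_norm_eq_zero K (map_zero _)

theorem abs_wgt_sub_le_one (x y : mixedSpace K) : |wgt K x - wgt K y| ≤ 1 := by
  have h1 := wgt_nonneg K x
  have h2 := wgt_nonneg K y
  have h3 := wgt_le_one K x
  have h4 := wgt_le_one K y
  rw [abs_le]; constructor <;> linarith

/-- the estimate near a point of the support -/
theorem lip_near {κ : ℝ} (hκ : 0 < κ) (hcone : ∀ x, wgt K x ≠ 0 → x ∈ Cone K κ)
    {x y : mixedSpace K} (hx : wgt K x ≠ 0) (hxy : ‖x - y‖ ≤ κ / 2 * ‖x‖) :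
    |wgt K x - wgt K y| * ‖x‖ ≤ (rank K * (coordBd K * (8 / κ))) * ‖x - y‖ := by
  have hx0 : x ≠ 0 := fun h => hx (h ▸ wgt_zero K)
  have hnx : 0 < ‖x‖ := norm_pos_iff.mpr hx0
  have hm : 0 < κ / 2 * ‖x‖ := by positivity
  have h1 : ∀ w, κ / 2 * ‖x‖ ≤ normAtPlace w x := fun w => by
    have := hcone x hx w
    nlinarith
  have h2 : ∀ w, κ / 2 * ‖x‖ ≤ normAtPlace w y := fun w => by
    have h3 := hcone x hx w
    have h4 := est_abs_normAtPlace_sub_le K w x (y - x)
    rw [show x + (y - x) = y by abel, norm_sub_rev] at h4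
    have h5 := (abs_le.mp h4).2
    nlinarith
  have hNx : mixedEmbedding.norm x ≠ 0 :=
    mixedEmbedding.norm_ne_zero_iff.mpr fun w => (lt_of_lt_of_le hm (h1 w)).ne'
  have hNy : mixedEmbedding.norm y ≠ 0 :=
    mixedEmbedding.norm_ne_zero_iff.mpr fun w => (lt_of_lt_of_le hm (h2 w)).ne'
  rw [wgt_of_norm_ne_zero K hNx, wgt_of_norm_ne_zero K hNy]
  have h3 := abs_prod_tent_sub_le (fun i => ucoord K x i) (fun i => ucoord K y i)
  have h4 := norm_logMap_sub_le K hm h1 h2
  have h5 : ∑ i, |ucoord K x i - ucoord K y i| ≤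
      rank K * (coordBd K * (4 * (‖x - y‖ / (κ / 2 * ‖x‖)))) := by
    calc ∑ i, |ucoord K x i - ucoord K y i|
        ≤ ∑ _i : Fin (rank K), coordBd K * (4 * (‖x - y‖ / (κ / 2 * ‖x‖))) :=
          Finset.sum_le_sum fun i _ => (abs_ucoord_sub_le K x y i).trans
            (mul_le_mul_of_nonneg_left h4 (coordBd_nonneg K))
      _ = rank K * (coordBd K * (4 * (‖x - y‖ / (κ / 2 * ‖x‖)))) := by simp
  calc |∏ i, tent (ucoord K x i) - ∏ i, tent (ucoord K y i)| * ‖x‖
      ≤ (rank K * (coordBd K * (4 * (‖x - y‖ / (κ / 2 * ‖x‖))))) * ‖x‖ :=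
        mul_le_mul_of_nonneg_right (h3.trans h5) hnx.le
    _ = (rank K * (coordBd K * (8 / κ))) * ‖x - y‖ := by
        field_simp
        ring

theorem exists_lip : ∃ C : ℝ, ∀ x y : mixedSpace K, |wgt K x - wgt K y| * ‖x‖ ≤ C * ‖x - y‖ := by
  obtain ⟨κ, hκ, hκ1, hcone⟩ := exists_cone K
  set CA : ℝ := rank K * (coordBd K * (8 / κ)) with hCA
  have hCA0 : 0 ≤ CA := by
    have := coordBd_nonneg K
    positivity
  have h2κ : 0 < 2 / κ := by positivity
  refine ⟨2 * CA + 2 / κ + 1, fun x y => ?_⟩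
  have hd0 : 0 ≤ ‖x - y‖ := norm_nonneg _
  have hx0 : 0 ≤ ‖x‖ := norm_nonneg _
  have hle1 := abs_wgt_sub_le_one K x y
  have habs0 : 0 ≤ |wgt K x - wgt K y| := abs_nonneg _
  by_cases hx : wgt K x = 0
  · by_cases hy : wgt K y = 0
    · rw [hx, hy, sub_self, abs_zero, zero_mul]
      positivity
    · have htri : ‖x‖ ≤ ‖y‖ + ‖x - y‖ := by
        have := norm_add_le y (x - y)
        rwa [show y + (x - y) = x by abel] at this
      by_cases hxy : ‖y - x‖ ≤ κ / 2 * ‖y‖
      · have h1 := lip_near K hκ hcone hy hxy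
        rw [← hCA, norm_sub_rev, abs_sub_comm] at h1
        rw [norm_sub_rev] at hxy
        have h2 : ‖x‖ ≤ 2 * ‖y‖ := by nlinarith [norm_nonneg y]
        calc |wgt K x - wgt K y| * ‖x‖ ≤ |wgt K x - wgt K y| * (2 * ‖y‖) :=
              mul_le_mul_of_nonneg_left h2 habs0
          _ = 2 * (|wgt K x - wgt K y| * ‖y‖) := by ring
          _ ≤ 2 * (CA * ‖x - y‖) := by linarith
          _ ≤ (2 * CA + 2 / κ + 1) * ‖x - y‖ := by nlinarith
      · rw [not_le, norm_sub_rev] at hxy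
        have h2 : ‖y‖ ≤ 2 / κ * ‖x - y‖ := by
          rw [div_mul_eq_mul_div, le_div_iff₀ hκ]
          nlinarith
        calc |wgt K x - wgt K y| * ‖x‖ ≤ 1 * ‖x‖ := mul_le_mul_of_nonneg_right hle1 hx0
          _ ≤ (2 * CA + 2 / κ + 1) * ‖x - y‖ := by nlinarith
  · by_cases hxy : ‖x - y‖ ≤ κ / 2 * ‖x‖
    · have h1 := lip_near K hκ hcone hx hxy
      rw [← hCA] at h1
      nlinarith
    · rw [not_le] at hxy
      have h2 : ‖x‖ ≤ 2 / κ * ‖x - y‖ := by
        rw [div_mul_eq_mul_div, le_div_iff₀ hκ]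
        nlinarith
      calc |wgt K x - wgt K y| * ‖x‖ ≤ 1 * ‖x‖ := mul_le_mul_of_nonneg_right hle1 hx0
        _ ≤ (2 * CA + 2 / κ + 1) * ‖x - y‖ := by nlinarith

end Fermat.Agent.Cheb
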