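import Fermat.Agent.Cheb.WUnits
import Fermat.Agent.Cheb.WLip
import Fermat.Agent.Cheb.Sgn

/-!
# Cheb/ADM : `Wt χ x = wgt x * χ(sgnN x)` is admissible (~150 lines)

`κ` from `exists_cone`, `C₀` from `exists_lip`.  `‖χ _‖ ≤ 1` (`DirichletCharacter.norm_le_one`).
`lip`: if `Wt x = Wt y = 0` trivial.  If `wgt x ≠ 0`: either `‖x - y‖ < κ ‖x‖`, then `sgnN y = sgnN x` and
`‖Wt x - Wt y‖ ≤ |wgt x - wgt y|`; or `‖x - y‖ ≥ κ ‖x‖` and `‖Wt x - Wt y‖ ≤ 2`.  If `wgt x = 0 ≠ wgt y`: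
`‖Wt x - Wt y‖ = ‖Wt y‖ ≤ |wgt y| = |wgt x - wgt y|`.  So `C = max C₀ (2/κ)`.
-/

set_option autoImplicit false

open IsDedekindDomain NumberField Filter Topology
open NumberField.mixedEmbedding NumberField.Units NumberField.Units.dirichletUnitTheorem
open NumberField.InfinitePlace
open Fermat.Agent.S14 Fermat.Agent.S14.Dens Fermat.Agent.ES
open scoped Classical nonZeroDivisors

noncomputable section

namespace Fermat.Agent.Cheb

variable (K : Type*) [Field K] [NumberField K]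

theorem exists_adm {m : ℕ} (χ : DirichletCharacter ℂ m) : ∃ κ C : ℝ, Adm K (Wt K χ) κ C := by
  obtain ⟨κ, hκ, hκ1, hcone⟩ := exists_cone K
  obtain ⟨C₀, hC₀⟩ := exists_lip K
  have hχ : ∀ z : ZMod m, ‖χ z‖ ≤ 1 := fun z => DirichletCharacter.norm_le_one χ z
  have hW : ∀ x, ‖Wt K χ x‖ ≤ |wgt K x| := by
    intro x
    unfold Wt
    rw [norm_mul, Complex.norm_real, Real.norm_eq_abs]
    exact mul_le_of_le_one_right (abs_nonneg _) (hχ _)
  have hW1 : ∀ x, ‖Wt K χ x‖ ≤ 1 := fun x =>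
    (hW x).trans (by rw [abs_of_nonneg (wgt_nonneg K x)]; exact wgt_le_one K x)
  have hW0 : ∀ x, wgt K x = 0 → Wt K χ x = 0 := by
    intro x hx
    unfold Wt
    rw [hx, Complex.ofReal_zero, zero_mul]
  refine ⟨κ, max C₀ (2 / κ), hκ, hκ1, hW1, fun x hx => hcone x fun h => hx (hW0 x h), ?_⟩
  intro x y
  have hxy : 0 ≤ ‖x - y‖ := norm_nonneg _
  have hle0 : C₀ * ‖x - y‖ ≤ max C₀ (2 / κ) * ‖x - y‖ :=
    mul_le_mul_of_nonneg_right (le_max_left _ _) hxy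
  have hle1 : 2 / κ * ‖x - y‖ ≤ max C₀ (2 / κ) * ‖x - y‖ :=
    mul_le_mul_of_nonneg_right (le_max_right _ _) hxy
  by_cases hx : wgt K x = 0
  · -- `Wt x = 0`
    rw [hW0 x hx, zero_sub, norm_neg]
    have h1 := hC₀ x y
    rw [hx, zero_sub, abs_neg] at h1
    exact (mul_le_mul_of_nonneg_right (hW y) (norm_nonneg _)).trans (h1.trans hle0)
  · by_cases hlt : ‖x - y‖ < κ * ‖x‖
    · have hs := sgnN_eq_of_cone K hκ (hcone x hx) hlt
      have h2 : Wt K χ x - Wt K χ y =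
          ((wgt K x - wgt K y : ℝ) : ℂ) * χ ((sgnN K x : ℤ) : ZMod m) := by
        unfold Wt
        rw [hs]
        push_cast
        ring
      rw [h2, norm_mul, Complex.norm_real, Real.norm_eq_abs]
      have h3 : |wgt K x - wgt K y| * ‖χ ((sgnN K x : ℤ) : ZMod m)‖ ≤ |wgt K x - wgt K y| :=
        mul_le_of_le_one_right (abs_nonneg _) (hχ _)
      exact (mul_le_mul_of_nonneg_right h3 (norm_nonneg _)).trans ((hC₀ x y).trans hle0)
    · rw [not_lt] at hlt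
      have h2 : ‖Wt K χ x - Wt K χ y‖ ≤ 2 := by
        have := norm_sub_le (Wt K χ x) (Wt K χ y)
        linarith [hW1 x, hW1 y]
      have h3 : ‖x‖ ≤ ‖x - y‖ / κ := by
        rw [le_div_iff₀ hκ, mul_comm]
        exact hlt
      calc ‖Wt K χ x - Wt K χ y‖ * ‖x‖ ≤ 2 * (‖x - y‖ / κ) :=
            mul_le_mul h2 h3 (norm_nonneg _) (by norm_num)
        _ = 2 / κ * ‖x - y‖ := by ring
        _ ≤ _ := hle1

end Fermat.Agent.Cheb
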