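import Fermat.Agent.Cheb.DictP
import Fermat.Agent.Cheb.Weight
import Fermat.Agent.Cheb.Estimate
import Fermat.Agent.Cheb.Compare
import Fermat.Agent.Cheb.NormCongr
import Fermat.Agent.Cheb.Reps

/-!
# Cheb/SH3 : `TT 𝔟 s - N𝔠 * TT (𝔟𝔠) s` is continuous on `[1,2]` (~300 lines)

By `exists_reps`, `𝔟 ≃ R × 𝔟𝔠`, so (`summable_tt`)
`TT 𝔟 s = ∑_{r ∈ R} ∑_{a ∈ 𝔟𝔠} χ(N(a + r)) G_s (a + r) = ∑_r ∑_a χ(N a) G_s (a + r)` (`chiN_add`) and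
`TT 𝔟 s - N𝔠 TT (𝔟𝔠) s = ∑_{r ∈ R} ∑_{a ∈ 𝔟𝔠} χ(N a) (G_s (a + r) - G_s a) =: E s`, continuous on `[1,2]` by
`continuousOn_tsum_sub` (with `e a = mixedEmbedding a`, `a ∈ 𝔟𝔠`; `summable_norm_integers` and
`finite_norm_lt` restricted to the subtype), `exists_bound`, `continuous_Gs`, `exists_adm`, `norm_chiN_le`.
-/

set_option autoImplicit false

open IsDedekindDomain NumberField Filter Topology
open NumberField.mixedEmbedding NumberField.Units NumberField.Units.dirichletUnitTheorem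
open NumberField.InfinitePlace
open Fermat.Agent.S14 Fermat.Agent.S14.Dens Fermat.Agent.ES
open scoped Classical nonZeroDivisors

noncomputable section

namespace Fermat.Agent.Cheb

variable (K : Type*) [Field K] [NumberField K] {m : ℕ} (χ : DirichletCharacter ℂ m)

/-- the summand of the error term -/
def shTerm (r : 𝓞 K) (s : ℝ) (a : 𝓞 K) : ℂ :=
  chiN K χ a * (Gs K (Wt K χ) s (mixedEmbedding K (a : K) + mixedEmbedding K (r : K)) -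
    Gs K (Wt K χ) s (mixedEmbedding K (a : K)))

theorem shift_key (𝔞 : Ideal (𝓞 K)) (r : 𝓞 K) :
    (∀ s ∈ Set.Icc (1 : ℝ) 2, Summable fun a : 𝔞 ↦ shTerm K χ r s (a : 𝓞 K)) ∧
      ContinuousOn (fun s ↦ ∑' a : 𝔞, shTerm K χ r s (a : 𝓞 K)) (Set.Icc 1 2) := by
  obtain ⟨κ, C, hadm⟩ := exists_adm K χ
  obtain ⟨C', R', hb⟩ := exists_bound K hadm (mixedEmbedding K (r : K))
  exact continuousOn_tsum_sub (fun a : 𝔞 => mixedEmbedding K ((a : 𝓞 K) : K))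
    (-(Module.finrank ℚ K : ℝ) - 1)
    ((summable_norm_integers K).comp_injective Subtype.val_injective)
    (fun R => ((finite_norm_lt K R).preimage (Subtype.val_injective.injOn)))
    (Gs K (Wt K χ)) (fun a => chiN K χ (a : 𝓞 K)) (fun a => norm_chiN_le K χ (a : 𝓞 K)) _
    (continuous_Gs K hadm (Wt_zero K χ)) C' R' hb

theorem tt_add (s : ℝ) (a r : 𝓞 K) (hr : r ∈ Ideal.span {(m : 𝓞 K)}) :
    tt K χ s (a + r) = shTerm K χ r s a + tt K χ s a := by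
  unfold tt shTerm
  rw [chiN_add K χ a r hr]
  have : mixedEmbedding K ((a + r : 𝓞 K) : K) = mixedEmbedding K (a : K) + mixedEmbedding K (r : K) := by
    rw [← map_add]; rfl
  rw [this]
  ring

/-- abstract rearrangement -/
theorem tsum_shift_abs {A B : Type*} {R : Type*} [Fintype R] (Ψ : R × B → A) (hΨ : Function.Bijective Ψ)
    (f : A → ℂ) (g : B → ℂ) (e : R → B → ℂ) (hf : Summable f) (hg : Summable g)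
    (he : ∀ r, Summable (e r)) (h : ∀ r b, f (Ψ (r, b)) = e r b + g b) :
    ∑' a, f a = (Fintype.card R : ℂ) * ∑' b, g b + ∑ r : R, ∑' b, e r b := by
  have h1 : ∑' a, f a = ∑' x : R × B, f (Ψ x) := ((Equiv.ofBijective Ψ hΨ).tsum_eq f).symm
  have h2 : Summable fun x : R × B ↦ f (Ψ x) := ((Equiv.ofBijective Ψ hΨ).summable_iff (f := f)).mpr hf
  rw [h1, h2.tsum_prod, tsum_fintype]
  have h3 : ∀ r : R, ∑' b : B, f (Ψ (r, b)) = ∑' b, e r b + ∑' b, g b := by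
    intro r
    rw [tsum_congr (h r), (he r).tsum_add hg]
  rw [Finset.sum_congr rfl fun r _ ↦ h3 r, Finset.sum_add_distrib, Finset.sum_const,
    Finset.card_univ, nsmul_eq_mul, add_comm]

/-- the bijection `R × 𝔟𝔠 → 𝔟` -/
def shMap (𝔟 𝔞 : Ideal (𝓞 K)) (h𝔞 : 𝔞 ≤ 𝔟) (R : Finset (𝓞 K)) (hR : ∀ r ∈ R, r ∈ 𝔟) (x : R × 𝔞) : 𝔟 :=
  ⟨(x.2 : 𝓞 K) + (x.1 : 𝓞 K), 𝔟.add_mem (h𝔞 x.2.2) (hR x.1 x.1.2)⟩

theorem shMap_bijective (𝔟 𝔞 : Ideal (𝓞 K)) (h𝔞 : 𝔞 ≤ 𝔟) (R : Finset (𝓞 K)) (hR : ∀ r ∈ R, r ∈ 𝔟)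
    (hdec : ∀ a ∈ 𝔟, ∃! p : 𝓞 K × 𝓞 K, p.1 ∈ R ∧ p.2 ∈ 𝔞 ∧ a = p.2 + p.1) :
    Function.Bijective (shMap K 𝔟 𝔞 h𝔞 R hR) := by
  constructor
  · rintro ⟨r, a⟩ ⟨r', a'⟩ h
    have h1 : (a : 𝓞 K) + (r : 𝓞 K) = (a' : 𝓞 K) + (r' : 𝓞 K) := congrArg Subtype.val h
    obtain ⟨p, -, hp⟩ := hdec _ (shMap K 𝔟 𝔞 h𝔞 R hR (r, a)).2
    have e1 := hp ((r : 𝓞 K), (a : 𝓞 K)) ⟨r.2, a.2, rfl⟩
    have e2 := hp ((r' : 𝓞 K), (a' : 𝓞 K)) ⟨r'.2, a'.2, h1⟩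
    have e3 := e1.trans e2.symm
    simp only [Prod.mk.injEq] at e3
    exact Prod.ext (Subtype.ext e3.1) (Subtype.ext e3.2)
  · intro a
    obtain ⟨p, ⟨hp1, hp2, hp3⟩, -⟩ := hdec _ a.2
    exact ⟨(⟨p.1, hp1⟩, ⟨p.2, hp2⟩), Subtype.ext hp3.symm⟩

theorem exists_shift (𝔟 𝔠 : Ideal (𝓞 K)) (h𝔟 : 𝔟 ≠ ⊥) (h𝔠 : 𝔠 ≠ ⊥)
    (hcop : IsCoprime 𝔠 (Ideal.span {(m : 𝓞 K)})) :
    ∃ E : ℝ → ℂ, ContinuousOn E (Set.Icc 1 2) ∧ ∀ s ∈ Set.Ioc (1 : ℝ) 2,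
      TT K χ 𝔟 s = (Ideal.absNorm 𝔠 : ℂ) * TT K χ (𝔟 * 𝔠) s + E s := by
  obtain ⟨R, hRcard, hR, hdec⟩ := exists_reps K 𝔟 𝔠 h𝔟 h𝔠 hcop
  generalize h𝔞 : 𝔟 * 𝔠 = 𝔞 at hdec ⊢
  have hle : 𝔞 ≤ 𝔟 := h𝔞 ▸ Ideal.mul_le_left
  refine ⟨fun s ↦ ∑ r : R, ∑' a : 𝔞, shTerm K χ (r : 𝓞 K) s (a : 𝓞 K), ?_, ?_⟩
  · exact continuousOn_finset_sum _ fun r _ ↦ (shift_key K χ 𝔞 (r : 𝓞 K)).2
  intro s hs
  have hs1 : 1 < s := hs.1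
  have hsI : s ∈ Set.Icc (1 : ℝ) 2 := ⟨hs.1.le, hs.2⟩
  have key := tsum_shift_abs (shMap K 𝔟 𝔞 hle R fun r hr ↦ (hR r hr).1)
    (shMap_bijective K 𝔟 𝔞 hle R (fun r hr ↦ (hR r hr).1) hdec)
    (fun a : 𝔟 ↦ tt K χ s (a : 𝓞 K)) (fun a : 𝔞 ↦ tt K χ s (a : 𝓞 K))
    (fun (r : R) (a : 𝔞) ↦ shTerm K χ (r : 𝓞 K) s (a : 𝓞 K))
    (summable_tt K χ 𝔟 hs1) (summable_tt K χ 𝔞 hs1)
    (fun r ↦ (shift_key K χ 𝔞 (r : 𝓞 K)).1 s hsI)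
    (fun r a ↦ tt_add K χ s (a : 𝓞 K) (r : 𝓞 K) (hR r r.2).2)
  rw [Fintype.card_coe, hRcard] at key
  exact key

end Fermat.Agent.Cheb
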