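import Fermat.Agent.Cheb.Defs

/-!
# Cheb/T : the tent function (Mathlib only, ~200 lines)

`tent t = max 0 (1 - |t|)`.  `∑_{n ∈ ℤ} tent (t + n) = 1`: only `n = -⌊t⌋` and `n = -⌊t⌋ - 1` contribute
(`hasSum_sum_of_ne_finset_zero`), with values `1 - fract t` and `fract t`.
Product version: `Finset.prod_univ_sum` / `Fintype.piFinset` (all sums have finite support), or induction
on the index type.  Lipschitz: `|max 0 a - max 0 b| ≤ |a - b|`; telescoping for the product
(all factors are in `[0,1]`; induction over a `Finset`).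
-/

set_option autoImplicit false

open IsDedekindDomain NumberField Filter Topology
open NumberField.mixedEmbedding NumberField.Units NumberField.Units.dirichletUnitTheorem
open NumberField.InfinitePlace
open Fermat.Agent.S14 Fermat.Agent.S14.Dens Fermat.Agent.ES
open scoped Classical

noncomputable section

namespace Fermat.Agent.Cheb

theorem tent_nonneg (t : ℝ) : 0 ≤ tent t := le_max_left _ _

theorem tent_le_one (t : ℝ) : tent t ≤ 1 :=
  max_le zero_le_one (by linarith [abs_nonneg t])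

theorem tent_eq_zero {t : ℝ} (h : 1 ≤ |t|) : tent t = 0 :=
  max_eq_left (by linarith)

theorem abs_lt_one_of_tent_ne_zero {t : ℝ} (h : tent t ≠ 0) : |t| < 1 := by
  by_contra h'
  exact h (tent_eq_zero (not_lt.mp h'))

theorem abs_tent_sub_le (a b : ℝ) : |tent a - tent b| ≤ |a - b| := by
  unfold tent
  rw [max_comm 0, max_comm 0]
  refine (abs_max_sub_max_le_abs _ _ _).trans ?_
  have : (1 - |a|) - (1 - |b|) = |b| - |a| := by ring
  rw [this, abs_sub_comm a b]
  exact abs_abs_sub_abs_le b a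

theorem tent_of_nonneg {t : ℝ} (h0 : 0 ≤ t) (h1 : t ≤ 1) : tent t = 1 - t := by
  unfold tent
  rw [abs_of_nonneg h0]
  exact max_eq_right (by linarith)

theorem tent_of_nonpos {t : ℝ} (h0 : t ≤ 0) (h1 : -1 ≤ t) : tent t = 1 + t := by
  unfold tent
  rw [abs_of_nonpos h0]
  rw [max_eq_right (by linarith)]
  ring

/-- the two integers where `n ↦ tent (t + n)` can be non zero -/
def tentSupp (t : ℝ) : Finset ℤ := {-⌊t⌋, -⌊t⌋ - 1}

theorem tent_add_eq_zero (t : ℝ) (n : ℤ) (h : n ∉ tentSupp t) : tent (t + n) = 0 := by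
  simp only [tentSupp, Finset.mem_insert, Finset.mem_singleton, not_or] at h
  obtain ⟨h1, h2⟩ := h
  apply tent_eq_zero
  have hf0 := Int.fract_nonneg t
  have hf1 := Int.fract_lt_one t
  have ht : t + n = Int.fract t + ((⌊t⌋ + n : ℤ) : ℝ) := by
    push_cast
    linarith [Int.fract_add_floor t]
  rcases lt_trichotomy (⌊t⌋ + n) 0 with hk | hk | hk
  · have hk2 : ⌊t⌋ + n ≤ -2 := by
      by_contra hcon
      apply h2
      omega
    have : ((⌊t⌋ + n : ℤ) : ℝ) ≤ -2 := by exact_mod_cast hk2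
    rw [ht, abs_of_nonpos (by linarith)]
    linarith
  · exact absurd (by omega) h1
  · have : (1 : ℝ) ≤ ((⌊t⌋ + n : ℤ) : ℝ) := by exact_mod_cast hk
    rw [ht, abs_of_nonneg (by linarith)]
    linarith

theorem sum_tentSupp (t : ℝ) : ∑ n ∈ tentSupp t, tent (t + n) = 1 := by
  have hf0 := Int.fract_nonneg t
  have hf1 := Int.fract_lt_one t
  rw [tentSupp, Finset.sum_pair (by omega)]
  have h1 : t + ((-⌊t⌋ : ℤ) : ℝ) = Int.fract t := by
    push_cast
    linarith [Int.fract_add_floor t]
  have h2 : t + ((-⌊t⌋ - 1 : ℤ) : ℝ) = Int.fract t - 1 := by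
    push_cast
    linarith [Int.fract_add_floor t]
  rw [h1, h2, tent_of_nonneg hf0 hf1.le, tent_of_nonpos (by linarith) (by linarith)]
  ring

theorem hasSum_tent (t : ℝ) : HasSum (fun n : ℤ ↦ tent (t + n)) 1 := by
  have : HasSum (fun n : ℤ ↦ tent (t + n)) (∑ n ∈ tentSupp t, tent (t + n)) :=
    hasSum_sum_of_ne_finset_zero (fun n hn => tent_add_eq_zero t n hn)
  rwa [sum_tentSupp] at this

theorem hasSum_prod_tent {ι : Type*} [Fintype ι] (y : ι → ℝ) :
    HasSum (fun e : ι → ℤ ↦ ∏ i, tent (y i + e i)) 1 := by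
  have : HasSum (fun e : ι → ℤ ↦ ∏ i, tent (y i + e i))
      (∑ e ∈ Fintype.piFinset fun i => tentSupp (y i), ∏ i, tent (y i + e i)) :=
    hasSum_sum_of_ne_finset_zero (by
      intro e he
      rw [Fintype.mem_piFinset, not_forall] at he
      obtain ⟨i, hi⟩ := he
      exact Finset.prod_eq_zero (Finset.mem_univ i) (tent_add_eq_zero _ _ hi))
  rw [← Finset.prod_univ_sum (fun i => tentSupp (y i)) (fun i (n : ℤ) => tent (y i + n))] at this
  simpa [sum_tentSupp] using this

theorem abs_prod_tent_sub_le_finset {ι : Type*} (s : Finset ι) (a b : ι → ℝ) :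
    |∏ i ∈ s, tent (a i) - ∏ i ∈ s, tent (b i)| ≤ ∑ i ∈ s, |a i - b i| := by
  induction s using Finset.induction_on with
  | empty => simp
  | insert j s hj ih =>
    rw [Finset.prod_insert hj, Finset.prod_insert hj, Finset.sum_insert hj]
    have hQ0 : 0 ≤ ∏ i ∈ s, tent (b i) := Finset.prod_nonneg fun i _ => tent_nonneg _
    have hQ1 : ∏ i ∈ s, tent (b i) ≤ 1 :=
      Finset.prod_le_one (fun i _ => tent_nonneg _) fun i _ => tent_le_one _
    have e : tent (a j) * ∏ i ∈ s, tent (a i) - tent (b j) * ∏ i ∈ s, tent (b i) =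
        tent (a j) * (∏ i ∈ s, tent (a i) - ∏ i ∈ s, tent (b i)) +
          (tent (a j) - tent (b j)) * ∏ i ∈ s, tent (b i) := by ring
    rw [e]
    refine (abs_add_le _ _).trans ?_
    rw [abs_mul, abs_mul, abs_of_nonneg (tent_nonneg (a j)), abs_of_nonneg hQ0, add_comm]
    refine add_le_add ?_ ?_
    · exact (mul_le_of_le_one_right (abs_nonneg _) hQ1).trans (abs_tent_sub_le _ _)
    · exact (mul_le_of_le_one_left (abs_nonneg _) (tent_le_one _)).trans ih

theorem abs_prod_tent_sub_le {ι : Type*} [Fintype ι] (a b : ι → ℝ) :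
    |∏ i, tent (a i) - ∏ i, tent (b i)| ≤ ∑ i, |a i - b i| :=
  abs_prod_tent_sub_le_finset Finset.univ a b

end Fermat.Agent.Cheb
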