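import Fermat.Agent.Cheb.WBasic

/-!
# Cheb/W2 : the support of `wgt` is contained in a cone (~250 lines)

`wgt x ≠ 0` ⟹ `|ucoord x i| < 1` ⟹ `‖logMap x‖ ≤ B := ∑ ‖b_i‖` (`Basis.sum_repr`) ⟹
`|log |x_w| - log (N x) / d| ≤ B` for `w ≠ w₀` (`logMap_apply`, `1 ≤ mult w`), and `≤ d B` for `w₀`
(`∑_w mult w * (log |x_w| - log (N x) / d) = 0`, by `mixedEmbedding.norm_apply`, `Real.log_prod`,
`sum_mult_eq`) ⟹ `|x_w| ≥ exp (-2 d B) ‖x‖` (`norm_eq_sup'_normAtPlace`).
-/

set_option autoImplicit false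

open IsDedekindDomain NumberField Filter Topology
open NumberField.mixedEmbedding NumberField.Units NumberField.Units.dirichletUnitTheorem
open NumberField.InfinitePlace
open Fermat.Agent.S14 Fermat.Agent.S14.Dens Fermat.Agent.ES
open scoped Classical nonZeroDivisors

noncomputable section

namespace Fermat.Agent.Cheb

variable (K : Type*) [Field K] [NumberField K]

theorem log_norm_eq {x : mixedSpace K} (hx : mixedEmbedding.norm x ≠ 0) :
    Real.log (mixedEmbedding.norm x) = ∑ w, (mult w : ℝ) * Real.log (normAtPlace w x) := by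
  rw [mixedEmbedding.norm_apply, Real.log_prod]
  · simp [Real.log_pow]
  · intro w _
    exact pow_ne_zero _ (mixedEmbedding.norm_ne_zero_iff.mp hx w)

/-- `log |x_w| - log (N x) / d` -/
def ell (x : mixedSpace K) (w : InfinitePlace K) : ℝ :=
  Real.log (normAtPlace w x) - Real.log (mixedEmbedding.norm x) * (Module.finrank ℚ K : ℝ)⁻¹

theorem logMap_eq_ell (x : mixedSpace K) (w : {w : InfinitePlace K // w ≠ w₀}) :
    logMap x w = mult w.1 * ell K x w.1 := rfl

theorem sum_mult_ell {x : mixedSpace K} (hx : mixedEmbedding.norm x ≠ 0) :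
    ∑ w, (mult w : ℝ) * ell K x w = 0 := by
  have hd : (Module.finrank ℚ K : ℝ) ≠ 0 := Nat.cast_ne_zero.mpr Module.finrank_pos.ne'
  simp only [ell, mul_sub, Finset.sum_sub_distrib, ← log_norm_eq K hx, ← Finset.sum_mul]
  rw [← Nat.cast_sum, sum_mult_eq]
  field_simp
  ring

theorem abs_ell_le {x : mixedSpace K} (hx : mixedEmbedding.norm x ≠ 0) (w : InfinitePlace K) :
    |ell K x w| ≤ Fintype.card (InfinitePlace K) * ‖logMap x‖ := by
  have hn : (1 : ℝ) ≤ Fintype.card (InfinitePlace K) := by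
    exact_mod_cast (Fintype.card_pos : 0 < Fintype.card (InfinitePlace K))
  have hmul : ∀ w : InfinitePlace K, |ell K x w| ≤ |(mult w : ℝ) * ell K x w| := by
    intro w
    rw [abs_mul, abs_of_nonneg (by positivity : (0 : ℝ) ≤ mult w)]
    exact le_mul_of_one_le_left (abs_nonneg _) one_le_mult
  have hle : ∀ w : {w : InfinitePlace K // w ≠ w₀}, |logMap x w| ≤ ‖logMap x‖ := fun w => by
    rw [← Real.norm_eq_abs]
    exact norm_le_pi_norm _ w
  by_cases hw : w = w₀
  · subst hw
    refine (hmul _).trans ?_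
    have h := sum_mult_ell K hx
    rw [Fintype.sum_eq_add_sum_subtype_ne _ (w₀ : InfinitePlace K)] at h
    have h' : (mult (w₀ : InfinitePlace K) : ℝ) * ell K x w₀ =
        - ∑ w : {w : InfinitePlace K // w ≠ w₀}, logMap x w := by
      simp only [logMap_eq_ell]
      linarith
    rw [h', abs_neg]
    refine (Finset.abs_sum_le_sum_abs _ _).trans ?_
    refine (Finset.sum_le_sum fun w _ => hle w).trans ?_
    rw [Finset.sum_const, nsmul_eq_mul, Finset.card_univ]
    refine mul_le_mul_of_nonneg_right ?_ (norm_nonneg _)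
    exact_mod_cast Fintype.card_subtype_le _
  · refine (hmul _).trans ?_
    have := hle ⟨w, hw⟩
    rw [logMap_eq_ell] at this
    exact this.trans (le_mul_of_one_le_left (norm_nonneg _) hn)

/-- the bound for `‖logMap x‖` on the support of `wgt` -/
def logBd : ℝ := ∑ i, ‖((basisUnitLattice K).ofZLatticeBasis ℝ (unitLattice K)) i‖

theorem logBd_nonneg : 0 ≤ logBd K := Finset.sum_nonneg fun _ _ => norm_nonneg _

theorem norm_logMap_le {x : mixedSpace K} (hx : wgt K x ≠ 0) : ‖logMap x‖ ≤ logBd K := by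
  rw [← ((basisUnitLattice K).ofZLatticeBasis ℝ (unitLattice K)).sum_repr (logMap x)]
  refine (norm_sum_le _ _).trans (Finset.sum_le_sum fun i _ => ?_)
  rw [_root_.norm_smul, Real.norm_eq_abs]
  exact mul_le_of_le_one_left (norm_nonneg _) (abs_ucoord_lt_one K hx i).le

theorem exists_cone : ∃ κ : ℝ, 0 < κ ∧ κ ≤ 1 ∧ ∀ x, wgt K x ≠ 0 → x ∈ Cone K κ := by
  have hB := logBd_nonneg K
  refine ⟨Real.exp (-(2 * (Fintype.card (InfinitePlace K) * logBd K))), Real.exp_pos _, ?_, ?_⟩
  · rw [Real.exp_le_one_iff]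
    have : (0 : ℝ) ≤ Fintype.card (InfinitePlace K) * logBd K := by positivity
    linarith
  · intro x hx w
    have hN := norm_ne_zero_of_wgt_ne_zero K hx
    obtain ⟨w', -, hw'⟩ := Finset.exists_mem_eq_sup' Finset.univ_nonempty
      (fun w : InfinitePlace K ↦ normAtPlace w x)
    rw [norm_eq_sup'_normAtPlace, hw']
    have hpos : ∀ w, 0 < normAtPlace w x := fun w =>
      lt_of_le_of_ne (normAtPlace_nonneg w x) (mixedEmbedding.norm_ne_zero_iff.mp hN w).symm
    have h1 := abs_le.mp (abs_ell_le K hN w)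
    have h2 := abs_le.mp (abs_ell_le K hN w')
    have h3 : (Fintype.card (InfinitePlace K) : ℝ) * ‖logMap x‖ ≤
        Fintype.card (InfinitePlace K) * logBd K :=
      mul_le_mul_of_nonneg_left (norm_logMap_le K hx) (by positivity)
    have h4 : Real.log (normAtPlace w' x) - Real.log (normAtPlace w x) =
        ell K x w' - ell K x w := by
      unfold ell; ring
    rw [← Real.exp_log (hpos w), ← Real.exp_log (hpos w'), ← Real.exp_add, Real.exp_le_exp]
    linarith [h1.1, h2.2]

end Fermat.Agent.Cheb
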